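import Mathlib
import Fermat.Prelude.Def_FLTPrelim_GaloisRep

/-!
# S51, part A0: duplication formula on x-coordinates and basic torsion facts

Generic lemmas over a field `F` for a Weierstrass curve `E : WeierstrassCurve.Affine F`.
-/

set_option autoImplicit false

namespace Fermat.Agent.S51

open WeierstrassCurve WeierstrassCurve.Affine

section Generic

variable {F : Type*} [Field F] (E : Affine F)

/-- Numerator of the duplication formula on `x`-coordinates. -/
def A_N1 (x : F) : F := x ^ 4 - E.b₄ * x ^ 2 - 2 * E.b₆ * x - E.b₈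

/-- Denominator of the duplication formula on `x`-coordinates. -/
def A_M1 (x : F) : F := 4 * x ^ 3 + E.b₂ * x ^ 2 + 2 * E.b₄ * x + E.b₆

/-- The third division polynomial. -/
def A_psi3 (x : F) : F := 3 * x ^ 4 + E.b₂ * x ^ 3 + 3 * E.b₄ * x ^ 2 + 3 * E.b₆ * x + E.b₈

lemma A_psi3_eq (x : F) : A_psi3 E x = x * A_M1 E x - A_N1 E x := by
  simp only [A_psi3, A_M1, A_N1]
  ring

lemma A_bezout (x : F) :
    (-48 * x ^ 2 - 8 * E.b₂ * x + E.b₂ ^ 2 - 32 * E.b₄) * A_N1 E x +
      (12 * x ^ 3 - E.b₂ * x ^ 2 - 10 * E.b₄ * x + E.b₂ * E.b₄ - 27 * E.b₆) * A_M1 E x = E.Δ := by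
  simp only [A_M1, A_N1, WeierstrassCurve.Δ]
  linear_combination (12 * x ^ 2 + 2 * E.b₂ * x + 8 * E.b₄) * E.b_relation

lemma A_M1_eq_sq {x y : F} (h : E.Equation x y) : (y - E.negY x y) ^ 2 = A_M1 E x := by
  rw [equation_iff] at h
  simp only [A_M1, negY, WeierstrassCurve.b₂, WeierstrassCurve.b₄, WeierstrassCurve.b₆]
  linear_combination 4 * h

variable [DecidableEq F]

omit [DecidableEq F] in
lemma A_addX_mul_aux (x y ℓ : F)
    (h : y ^ 2 + E.a₁ * x * y + E.a₃ * y = x ^ 3 + E.a₂ * x ^ 2 + E.a₄ * x + E.a₆)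
    (hℓ : ℓ * (2 * y + E.a₁ * x + E.a₃) = 3 * x ^ 2 + 2 * E.a₂ * x + E.a₄ - E.a₁ * y) :
    (ℓ ^ 2 + E.a₁ * ℓ - E.a₂ - x - x) * (2 * y + E.a₁ * x + E.a₃) ^ 2 = A_N1 E x := by
  simp only [A_N1, WeierstrassCurve.b₄, WeierstrassCurve.b₆, WeierstrassCurve.b₈]
  linear_combination (ℓ * (2 * y + E.a₁ * x + E.a₃) + (3 * x ^ 2 + 2 * E.a₂ * x + E.a₄ - E.a₁ * y)
    + E.a₁ * (2 * y + E.a₁ * x + E.a₃)) * hℓ + (-(8 * x + E.a₁ ^ 2 + 4 * E.a₂)) * h

lemma A_addX_mul {x y : F} (h : E.Equation x y) (hy : y ≠ E.negY x y) :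
    E.addX x x (E.slope x x y y) * A_M1 E x = A_N1 E x := by
  have hD : y - E.negY x y ≠ 0 := sub_ne_zero.mpr hy
  have hD' : y - E.negY x y = 2 * y + E.a₁ * x + E.a₃ := by
    simp only [negY]; ring
  rw [slope_of_Y_ne rfl hy, ← A_M1_eq_sq E h]
  rw [equation_iff] at h
  rw [hD'] at hD ⊢
  exact A_addX_mul_aux E x y _ h (div_mul_cancel₀ _ hD)

/-- The `x`-coordinate of a point (junk value `0` at the point at infinity). -/
def A_x {E : Affine F} : E.Point → F
  | .zero => 0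
  | .some x _ _ => x

omit [DecidableEq F] in
@[simp] lemma A_x_some {x y : F} (h : E.Nonsingular x y) : A_x (Point.some x y h) = x := rfl

omit [DecidableEq F] in
lemma A_x_neg (P : E.Point) : A_x (-P) = A_x P := by
  cases P <;> rfl

omit [DecidableEq F] in
lemma A_x_eq_iff {P Q : E.Point} (hP : P ≠ 0) (hQ : Q ≠ 0) :
    A_x P = A_x Q ↔ P = Q ∨ P = -Q := by
  match P, Q with
  | .zero, _ => exact absurd rfl hP
  | _, .zero => exact absurd rfl hQ
  | .some x₁ y₁ h₁, .some x₂ y₂ h₂ => exact Point.X_eq_iff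

lemma A_two_nsmul_eq_zero_iff {P : E.Point} (hP : P ≠ 0) :
    2 • P = 0 ↔ A_M1 E (A_x P) = 0 := by
  match P with
  | .zero => exact absurd rfl hP
  | .some x y h =>
    rw [two_nsmul, A_x_some, ← A_M1_eq_sq E h.1, sq_eq_zero_iff, sub_eq_zero]
    constructor
    · intro h2
      by_contra hy
      rw [Point.add_self_of_Y_ne hy] at h2
      exact Point.some_ne_zero _ h2
    · intro hy
      exact Point.add_self_of_Y_eq hy

lemma A_x_two_nsmul {P : E.Point} (hP : P ≠ 0) (h2 : 2 • P ≠ 0) :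
    A_x (2 • P) * A_M1 E (A_x P) = A_N1 E (A_x P) := by
  match P with
  | .zero => exact absurd rfl hP
  | .some x y h =>
    have hy : y ≠ E.negY x y := by
      intro hy
      apply h2
      rw [two_nsmul]
      exact Point.add_self_of_Y_eq hy
    rw [two_nsmul, Point.add_self_of_Y_ne hy, A_x_some, A_x_some]
    exact A_addX_mul E h.1 hy

lemma A_psi3_of_three_nsmul {P : E.Point} (hP : P ≠ 0) (h3 : 3 • P = 0) :
    A_psi3 E (A_x P) = 0 := by
  have h2 : 2 • P = -P := by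
    rw [eq_neg_iff_add_eq_zero, ← succ_nsmul]
    exact h3
  have h2' : 2 • P ≠ 0 := by
    rw [h2]
    exact neg_ne_zero.mpr hP
  have := A_x_two_nsmul E hP h2'
  rw [h2, A_x_neg] at this
  rw [A_psi3_eq, this, sub_self]

omit [DecidableEq F] in
lemma A_M1_ne_zero_of_N1 (hΔ : E.Δ ≠ 0) {x : F} (h : A_M1 E x = 0) : A_N1 E x ≠ 0 := by
  intro hN
  apply hΔ
  rw [← A_bezout E x, h, hN, mul_zero, mul_zero, add_zero]

lemma A_three_nsmul_of_psi3 (hΔ : E.Δ ≠ 0) {P : E.Point} (hP : P ≠ 0)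
    (h : A_psi3 E (A_x P) = 0) : 3 • P = 0 := by
  rw [A_psi3_eq, sub_eq_zero] at h
  have hM : A_M1 E (A_x P) ≠ 0 := by
    intro hM
    apply A_M1_ne_zero_of_N1 E hΔ hM
    rw [← h, hM, mul_zero]
  have h2 : 2 • P ≠ 0 := fun h2 => hM ((A_two_nsmul_eq_zero_iff E hP).mp h2)
  have hx := A_x_two_nsmul E hP h2
  rw [← h] at hx
  have hx' : A_x (2 • P) = A_x P := mul_right_cancel₀ hM hx
  rcases (A_x_eq_iff E h2 hP).mp hx' with h' | h'
  · exfalso
    apply hP
    rw [two_nsmul] at h'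
    exact add_eq_left.mp h'
  · rw [succ_nsmul, h', neg_add_cancel]

lemma A_cycle_of_five_nsmul {P : E.Point} (hP : P ≠ 0) (h5 : 5 • P = 0) :
    2 • P ≠ 0 ∧ A_x (2 • P) ≠ A_x P ∧
      A_x (2 • P) * A_M1 E (A_x P) = A_N1 E (A_x P) ∧
      A_x P * A_M1 E (A_x (2 • P)) = A_N1 E (A_x (2 • P)) := by
  have h4 : 2 • (2 • P) = -P := by
    rw [eq_neg_iff_add_eq_zero, ← mul_nsmul, ← succ_nsmul]
    exact h5
  have h2 : 2 • P ≠ 0 := by
    intro h2
    rw [h2, smul_zero] at h4
    exact hP (neg_eq_zero.mp h4.symm)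
  have h4' : 2 • (2 • P) ≠ 0 := by
    rw [h4]
    exact neg_ne_zero.mpr hP
  refine ⟨h2, ?_, A_x_two_nsmul E hP h2, ?_⟩
  · intro hx
    rcases (A_x_eq_iff E h2 hP).mp hx with h' | h'
    · apply hP
      rw [two_nsmul] at h'
      exact add_eq_left.mp h'
    · -- 3 • P = 0 and 5 • P = 0
      have h3 : 3 • P = 0 := by rw [succ_nsmul, h', neg_add_cancel]
      apply hP
      have : (6 : ℕ) • P = 5 • P + P := succ_nsmul P 5
      rw [h5, zero_add] at this
      rw [← this, show (6 : ℕ) = 3 * 2 from rfl, mul_nsmul, h3, smul_zero]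
  · have := A_x_two_nsmul E h2 h4'
    rwa [h4, A_x_neg] at this

lemma A_five_nsmul_of_cycle (hΔ : E.Δ ≠ 0) {P : E.Point} (hP : P ≠ 0) {x₂ : F}
    (hne : A_x P ≠ x₂)
    (e1 : x₂ * A_M1 E (A_x P) = A_N1 E (A_x P))
    (e2 : A_x P * A_M1 E x₂ = A_N1 E x₂) : 5 • P = 0 := by
  have hM1 : A_M1 E (A_x P) ≠ 0 := by
    intro hM
    apply A_M1_ne_zero_of_N1 E hΔ hM
    rw [← e1, hM, mul_zero]
  have hM2 : A_M1 E x₂ ≠ 0 := by
    intro hM
    apply A_M1_ne_zero_of_N1 E hΔ hM
    rw [← e2, hM, mul_zero]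
  have h2 : 2 • P ≠ 0 := fun h2 => hM1 ((A_two_nsmul_eq_zero_iff E hP).mp h2)
  have hx2 : A_x (2 • P) = x₂ := by
    have := A_x_two_nsmul E hP h2
    rw [← e1] at this
    exact mul_right_cancel₀ hM1 this
  have h4 : 2 • (2 • P) ≠ 0 := by
    intro h4
    apply hM2
    rw [← hx2]
    exact (A_two_nsmul_eq_zero_iff E h2).mp h4
  have hx4 : A_x (2 • (2 • P)) = A_x P := by
    have := A_x_two_nsmul E h2 h4
    rw [hx2, ← e2] at this
    exact mul_right_cancel₀ hM2 this
  rcases (A_x_eq_iff E h4 hP).mp hx4 with h' | h'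
  · exfalso
    -- 4P = P, so 3P = 0, so 2P = -P, so x₂ = x(P)
    have h3 : 2 • P + P = 0 := by
      have : 2 • (2 • P) = (2 • P + P) + P := by
        rw [two_nsmul, two_nsmul]; abel
      rw [this] at h'
      exact add_eq_right.mp h'
    have : 2 • P = -P := eq_neg_iff_add_eq_zero.mpr h3
    apply hne
    rw [← hx2, this, A_x_neg]
  · have : (5 : ℕ) • P = 2 • (2 • P) + P := by
      rw [← mul_nsmul, ← succ_nsmul]
    rw [this, h', neg_add_cancel]

end Generic

open Polynomial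

lemma A_line_of_card_lt {p : ℕ} [Fact p.Prime] {V : Type*} [AddCommGroup V] [Module (ZMod p) V]
    [Finite V] (hcard : Nat.card V < p ^ 3) (N : Submodule (ZMod p) V) (h0 : N ≠ ⊥)
    (h1 : N ≠ ⊤) :
    ∃ v ∈ N, v ≠ 0 ∧ ∀ w ∈ N, ∃ c : ZMod p, w = c • v := by
  classical
  let _ : Fintype V := Fintype.ofFinite V
  have hV : Module.finrank (ZMod p) V < 3 := by
    have h := Module.card_eq_pow_finrank (K := ZMod p) (V := V)
    rw [Nat.card_eq_fintype_card, h, ZMod.card] at hcard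
    exact (Nat.pow_lt_pow_iff_right (Fact.out : p.Prime).one_lt).mp hcard
  have hN : Module.finrank (ZMod p) N < Module.finrank (ZMod p) V := Submodule.finrank_lt h1
  have hN0 : 0 < Module.finrank (ZMod p) N := by
    rw [Module.finrank_pos_iff]
    exact (Submodule.nontrivial_iff_ne_bot).mpr h0
  have hN1 : Module.finrank (ZMod p) N = 1 := by omega
  obtain ⟨v, hv0, hv⟩ := finrank_eq_one_iff'.mp hN1
  refine ⟨v.1, v.2, fun h => hv0 (Subtype.ext h), fun w hw => ?_⟩
  obtain ⟨c, hc⟩ := hv ⟨w, hw⟩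
  exact ⟨c, by rw [← Submodule.coe_smul, hc]⟩

section Count

variable {F : Type*} [Field F] [DecidableEq F] (E : Affine F)

/-- The quadratic polynomial in `y` cutting out the points with given `x`. -/
noncomputable def A_quadY (x : F) : F[X] :=
  C 1 * X ^ 2 + C (E.a₁ * x + E.a₃) * X + C (-(x ^ 3 + E.a₂ * x ^ 2 + E.a₄ * x + E.a₆))

omit [DecidableEq F] in
lemma A_quadY_natDegree (x : F) : (A_quadY E x).natDegree = 2 :=
  natDegree_quadratic one_ne_zero

omit [DecidableEq F] in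
lemma A_quadY_ne_zero (x : F) : A_quadY E x ≠ 0 := by
  intro h
  have := A_quadY_natDegree E x
  rw [h, natDegree_zero] at this
  exact absurd this (by norm_num)

omit [DecidableEq F] in
lemma A_quadY_root {x y : F} (h : E.Equation x y) : y ∈ (A_quadY E x).roots := by
  rw [mem_roots (A_quadY_ne_zero E x)]
  rw [equation_iff] at h
  simp only [A_quadY, IsRoot.def, eval_add, eval_pow, eval_X, eval_mul, eval_C]
  linear_combination h

/-- The coordinate map on points. -/
def A_coord {E : Affine F} : E.Point → Option (F × F)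
  | .zero => none
  | .some x y _ => some (x, y)

omit [DecidableEq F] in
lemma A_coord_injective : Function.Injective (A_coord (E := E)) := by
  intro P Q h
  match P, Q with
  | .zero, .zero => rfl
  | .zero, .some _ _ _ => simp [A_coord] at h
  | .some _ _ _, .zero => simp [A_coord] at h
  | .some x₁ y₁ h₁, .some x₂ y₂ h₂ =>
    simp only [A_coord, Option.some.injEq, Prod.mk.injEq] at h
    obtain ⟨rfl, rfl⟩ := h
    rfl

/-- The finite set of coordinates of points with `x`-coordinate in `Z`. -/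
noncomputable def A_coordSet (Z : Finset F) : Finset (Option (F × F)) :=
  Finset.insertNone (Z.biUnion fun x => (A_quadY E x).roots.toFinset.image (Prod.mk x))

lemma A_coordSet_card_le (Z : Finset F) : (A_coordSet E Z).card ≤ 1 + 2 * Z.card := by
  rw [A_coordSet, Finset.card_insertNone, add_comm]
  apply Nat.add_le_add_left
  refine le_trans Finset.card_biUnion_le ?_
  rw [mul_comm]
  refine le_trans (Finset.sum_le_card_nsmul _ _ 2 ?_) (by simp)
  intro x _
  refine le_trans Finset.card_image_le ?_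
  refine le_trans (Multiset.toFinset_card_le _) ?_
  exact le_trans (card_roots' _) (A_quadY_natDegree E x).le

lemma A_coord_mem (Z : Finset F) (P : E.Point) (hP : P ≠ 0 → A_x P ∈ Z) :
    A_coord P ∈ A_coordSet E Z := by
  match P with
  | .zero => simp [A_coord, A_coordSet]
  | .some x y h =>
    have hx : x ∈ Z := hP (Point.some_ne_zero h)
    simp only [A_coord, A_coordSet, Finset.mem_insertNone, Option.mem_def, Option.some.injEq,
      forall_eq', Finset.mem_biUnion, Finset.mem_image, Multiset.mem_toFinset]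
    exact ⟨x, hx, y, A_quadY_root E h.1, rfl⟩

lemma A_card_torsion_le (n : ℕ) (Z : Finset F)
    (hZ : ∀ P : E.Point, P ≠ 0 → (n : ℤ) • P = 0 → A_x P ∈ Z) :
    Finite (Submodule.torsionBy ℤ E.Point n) ∧
      Nat.card (Submodule.torsionBy ℤ E.Point n) ≤ 1 + 2 * Z.card := by
  let g : Submodule.torsionBy ℤ E.Point n → (A_coordSet E Z) := fun P =>
    ⟨A_coord P.1, A_coord_mem E Z P.1 fun h0 =>
      hZ P.1 h0 ((Submodule.mem_torsionBy_iff _ _).mp P.2)⟩
  have hg : Function.Injective g := by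
    intro P Q h
    apply Subtype.ext
    apply A_coord_injective E
    exact congrArg Subtype.val h
  have : Finite (Submodule.torsionBy ℤ E.Point n) := Finite.of_injective g hg
  refine ⟨this, ?_⟩
  refine le_trans (Nat.card_le_card_of_injective g hg) ?_
  rw [Nat.card_eq_fintype_card, Fintype.card_coe]
  exact A_coordSet_card_le E Z

end Count


section Polys

variable {F : Type*} [Field F] (E : Affine F)

noncomputable def A_N1p : F[X] := X ^ 4 - C E.b₄ * X ^ 2 - C (2 * E.b₆) * X - C E.b₈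
noncomputable def A_M1p : F[X] := C 4 * X ^ 3 + C E.b₂ * X ^ 2 + C (2 * E.b₄) * X + C E.b₆
noncomputable def A_psi3p : F[X] :=
  C 3 * X ^ 4 + C E.b₂ * X ^ 3 + C (3 * E.b₄) * X ^ 2 + C (3 * E.b₆) * X + C E.b₈

lemma A_eval_N1p (x : F) : (A_N1p E).eval x = A_N1 E x := by
  simp [A_N1p, A_N1]

lemma A_eval_M1p (x : F) : (A_M1p E).eval x = A_M1 E x := by
  simp [A_M1p, A_M1]

lemma A_eval_psi3p (x : F) : (A_psi3p E).eval x = A_psi3 E x := by
  simp [A_psi3p, A_psi3]

lemma A_psi3p_natDegree_le : (A_psi3p E).natDegree ≤ 4 := by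
  unfold A_psi3p
  compute_degree

lemma A_psi3p_ne_zero (h3 : (3 : F) ≠ 0) : A_psi3p E ≠ 0 := by
  intro h
  have : (A_psi3p E).coeff 4 = 3 := by
    unfold A_psi3p
    simp only [coeff_add, coeff_C_mul, coeff_X_pow, coeff_X, coeff_C]
    norm_num
  rw [h] at this
  simp at this
  exact h3 this.symm

/-- The polynomial whose roots contain the `x`-coordinates of the points with `4P = ±P`. -/
noncomputable def A_F5p : F[X] :=
  (A_N1p E) ^ 4 - C E.b₄ * (A_N1p E) ^ 2 * (A_M1p E) ^ 2 - C (2 * E.b₆) * (A_N1p E) * (A_M1p E) ^ 3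
    - C E.b₈ * (A_M1p E) ^ 4
    - X * (A_M1p E) * (C 4 * (A_N1p E) ^ 3 + C E.b₂ * (A_N1p E) ^ 2 * (A_M1p E)
        + C (2 * E.b₄) * (A_N1p E) * (A_M1p E) ^ 2 + C E.b₆ * (A_M1p E) ^ 3)

lemma A_F5p_natDegree (h15 : (15 : F) ≠ 0) : (A_F5p E).natDegree = 16 := by
  unfold A_F5p A_N1p A_M1p
  compute_degree!

end Polys

end Fermat.Agent.S51
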