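import Fermat.Agent.S51.ATorsion

/-!
# S51, part A3: Galois descent of the `x`-coordinates of a stable line, and the theorems
`A_three`, `A_five`.
-/

set_option autoImplicit false

namespace Fermat.Agent.S51

open WeierstrassCurve WeierstrassCurve.Affine WeierstrassCurve.Affine.Point

theorem A_isGalois_Qbar : IsGalois ℚ (AlgebraicClosure ℚ) :=
  haveI : IsAlgClosure ℚ (AlgebraicClosure ℚ) := ⟨inferInstance, AlgebraicClosure.isAlgebraic ℚ⟩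
  IsAlgClosure.isGalois ℚ (AlgebraicClosure ℚ)

lemma A_rational_of_fixed (x : AlgebraicClosure ℚ)
    (h : ∀ σ : AlgebraicClosure ℚ ≃ₐ[ℚ] AlgebraicClosure ℚ, σ x = x) :
    ∃ r : ℚ, algebraMap ℚ (AlgebraicClosure ℚ) r = x :=
  haveI := A_isGalois_Qbar
  (InfiniteGalois.mem_range_algebraMap_iff_fixed (k := ℚ) (K := AlgebraicClosure ℚ) x).mpr h

variable (W : WeierstrassCurve ℚ)

lemma A_x_smul (σ : AlgebraicClosure ℚ ≃ₐ[ℚ] AlgebraicClosure ℚ)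
    (P : (W⁄(AlgebraicClosure ℚ)).Point) : A_x (σ • P) = σ (A_x P) := by
  match P with
  | .zero => exact (_root_.map_zero σ).symm
  | .some x y h => rfl

lemma A_baseChange_Δ_ne_zero (hΔ : W.Δ ≠ 0) : (W⁄(AlgebraicClosure ℚ)).Δ ≠ 0 := by
  have h : (W⁄(AlgebraicClosure ℚ)).Δ = algebraMap ℚ (AlgebraicClosure ℚ) W.Δ :=
    WeierstrassCurve.map_Δ W _
  rw [h]
  exact (_root_.map_ne_zero _).mpr hΔ

lemma A_psi3_baseChange (r : ℚ) :
    A_psi3 (W⁄(AlgebraicClosure ℚ)) (algebraMap ℚ (AlgebraicClosure ℚ) r) =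
      algebraMap ℚ (AlgebraicClosure ℚ)
        (3 * r ^ 4 + W.b₂ * r ^ 3 + 3 * W.b₄ * r ^ 2 + 3 * W.b₆ * r + W.b₈) := by
  have h2 : (W⁄(AlgebraicClosure ℚ)).b₂ = algebraMap ℚ (AlgebraicClosure ℚ) W.b₂ :=
    WeierstrassCurve.map_b₂ W _
  have h4 : (W⁄(AlgebraicClosure ℚ)).b₄ = algebraMap ℚ (AlgebraicClosure ℚ) W.b₄ :=
    WeierstrassCurve.map_b₄ W _
  have h6 : (W⁄(AlgebraicClosure ℚ)).b₆ = algebraMap ℚ (AlgebraicClosure ℚ) W.b₆ :=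
    WeierstrassCurve.map_b₆ W _
  have h8 : (W⁄(AlgebraicClosure ℚ)).b₈ = algebraMap ℚ (AlgebraicClosure ℚ) W.b₈ :=
    WeierstrassCurve.map_b₈ W _
  simp only [A_psi3, h2, h4, h6, h8, _root_.map_add, _root_.map_mul, _root_.map_pow, map_ofNat]

lemma A_exists_stable_line (p : ℕ) [Fact p.Prime]
    (hex : ∃ P : (W⁄(AlgebraicClosure ℚ)).Point, P ≠ 0 ∧ p • P = 0)
    (hfin : Finite (Submodule.torsionBy ℤ (W⁄(AlgebraicClosure ℚ)).Point p))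
    (hcard : Nat.card (Submodule.torsionBy ℤ (W⁄(AlgebraicClosure ℚ)).Point p) < p ^ 3)
    (h : ¬ GaloisRepIsIrreducible (K := AlgebraicClosure ℚ) ℚ W p) :
    ∃ P : (W⁄(AlgebraicClosure ℚ)).Point, P ≠ 0 ∧ p • P = 0 ∧
      ∀ σ : AlgebraicClosure ℚ ≃ₐ[ℚ] AlgebraicClosure ℚ, ∃ k : ℕ, σ • P = k • P := by
  have hnt : Nontrivial (Submodule.torsionBy ℤ (W⁄(AlgebraicClosure ℚ)).Point p) := by
    obtain ⟨P, hP, hpP⟩ := hex
    refine ⟨⟨⟨P, ?_⟩, 0, ?_⟩⟩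
    · rw [Submodule.mem_torsionBy_iff, natCast_zsmul]
      exact hpP
    · intro h
      exact hP (congrArg Subtype.val h)
  unfold GaloisRepIsIrreducible at h
  push Not at h
  obtain ⟨N, hN, h0, h1⟩ := h hnt
  obtain ⟨v, hvN, hv0, hv⟩ := A_line_of_card_lt hcard N h0 h1
  refine ⟨v.1, fun h => hv0 (Subtype.ext h), ?_, fun σ => ?_⟩
  · have := v.2
    rw [Submodule.mem_torsionBy_iff, natCast_zsmul] at this
    exact this
  · obtain ⟨c, hc⟩ := hv (σ • v) (hN σ v hvN)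
    refine ⟨c.val, ?_⟩
    have h1 : σ • v = c.val • v := by
      rw [hc, ← Nat.cast_smul_eq_nsmul (ZMod p), ZMod.natCast_zmod_val]
    exact congrArg Subtype.val h1

theorem A_three (hΔ : W.Δ ≠ 0)
    (h : ¬ WeierstrassCurve.Affine.Point.GaloisRepIsIrreducible (K := AlgebraicClosure ℚ) ℚ W 3) :
    ∃ r : ℚ, 3 * r ^ 4 + W.b₂ * r ^ 3 + 3 * W.b₄ * r ^ 2 + 3 * W.b₆ * r + W.b₈ = 0 := by
  have : Fact (Nat.Prime 3) := ⟨by norm_num⟩
  have hΔ' : (W⁄(AlgebraicClosure ℚ)).Δ ≠ 0 := A_baseChange_Δ_ne_zero W hΔ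
  have h3K : (3 : AlgebraicClosure ℚ) ≠ 0 := by norm_num
  obtain ⟨hfin, hcard⟩ := A_card_three (W⁄(AlgebraicClosure ℚ)) h3K
  obtain ⟨P, hP, h3, hσ⟩ := A_exists_stable_line W 3
    (A_exists_three (W⁄(AlgebraicClosure ℚ)) hΔ' h3K) hfin
    (lt_of_le_of_lt hcard (by norm_num)) h
  have h2P : 2 • P = -P := by
    rw [eq_neg_iff_add_eq_zero, ← succ_nsmul]
    exact h3
  have hfix : ∀ σ : AlgebraicClosure ℚ ≃ₐ[ℚ] AlgebraicClosure ℚ, σ (A_x P) = A_x P := by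
    intro σ
    obtain ⟨k, hk⟩ := hσ σ
    rw [← A_x_smul, hk, nsmul_eq_mod_nsmul k h3]
    have hk3 : k % 3 < 3 := Nat.mod_lt _ (by norm_num)
    rw [nsmul_eq_mod_nsmul k h3] at hk
    interval_cases (k % 3)
    · rw [zero_nsmul] at hk
      exact absurd ((smul_eq_zero_iff_eq σ).mp hk) hP
    · rw [one_nsmul]
    · rw [h2P, A_x_neg]
  obtain ⟨r, hr⟩ := A_rational_of_fixed _ hfix
  refine ⟨r, ?_⟩
  have hpsi := A_psi3_of_three_nsmul (W⁄(AlgebraicClosure ℚ)) hP h3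
  rw [← hr, A_psi3_baseChange] at hpsi
  exact (_root_.map_eq_zero _).mp hpsi

lemma A_I5_baseChange (s t : ℚ) :
    A_I5a (W⁄(AlgebraicClosure ℚ)) (algebraMap ℚ (AlgebraicClosure ℚ) s)
        (algebraMap ℚ (AlgebraicClosure ℚ) t) =
      algebraMap ℚ (AlgebraicClosure ℚ) (s ^ 3 - 6 * s * t - W.b₂ * t - W.b₄ * s - W.b₆) ∧
    A_I5b (W⁄(AlgebraicClosure ℚ)) (algebraMap ℚ (AlgebraicClosure ℚ) s)
        (algebraMap ℚ (AlgebraicClosure ℚ) t) =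
      algebraMap ℚ (AlgebraicClosure ℚ)
        (s ^ 4 - 8 * s ^ 2 * t + 10 * t ^ 2 - W.b₂ * s * t - W.b₄ * s ^ 2 - 2 * W.b₄ * t
          - 3 * W.b₆ * s - 2 * W.b₈) := by
  have h2 : (W⁄(AlgebraicClosure ℚ)).b₂ = algebraMap ℚ (AlgebraicClosure ℚ) W.b₂ :=
    WeierstrassCurve.map_b₂ W _
  have h4 : (W⁄(AlgebraicClosure ℚ)).b₄ = algebraMap ℚ (AlgebraicClosure ℚ) W.b₄ :=
    WeierstrassCurve.map_b₄ W _
  have h6 : (W⁄(AlgebraicClosure ℚ)).b₆ = algebraMap ℚ (AlgebraicClosure ℚ) W.b₆ :=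
    WeierstrassCurve.map_b₆ W _
  have h8 : (W⁄(AlgebraicClosure ℚ)).b₈ = algebraMap ℚ (AlgebraicClosure ℚ) W.b₈ :=
    WeierstrassCurve.map_b₈ W _
  constructor
  · simp only [A_I5a, h2, h4, h6, _root_.map_sub, _root_.map_mul, _root_.map_pow, map_ofNat]
  · simp only [A_I5b, h2, h4, h6, h8, _root_.map_sub, _root_.map_add, _root_.map_mul,
      _root_.map_pow, map_ofNat]

theorem A_five (hΔ : W.Δ ≠ 0)
    (h : ¬ WeierstrassCurve.Affine.Point.GaloisRepIsIrreducible (K := AlgebraicClosure ℚ) ℚ W 5) :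
    ∃ s t : ℚ, s ^ 3 - 6 * s * t - W.b₂ * t - W.b₄ * s - W.b₆ = 0 ∧
      s ^ 4 - 8 * s ^ 2 * t + 10 * t ^ 2 - W.b₂ * s * t - W.b₄ * s ^ 2 - 2 * W.b₄ * t
        - 3 * W.b₆ * s - 2 * W.b₈ = 0 ∧ s ^ 2 ≠ 4 * t := by
  have : Fact (Nat.Prime 5) := ⟨by norm_num⟩
  have hΔ' : (W⁄(AlgebraicClosure ℚ)).Δ ≠ 0 := A_baseChange_Δ_ne_zero W hΔ
  have h2K : (2 : AlgebraicClosure ℚ) ≠ 0 := by norm_num
  have h5K : (5 : AlgebraicClosure ℚ) ≠ 0 := by norm_num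
  have h15K : (15 : AlgebraicClosure ℚ) ≠ 0 := by norm_num
  obtain ⟨hfin, hcard⟩ := A_card_five (W⁄(AlgebraicClosure ℚ)) h15K
  obtain ⟨P, hP, h5, hσ⟩ := A_exists_stable_line W 5
    (A_exists_five (W⁄(AlgebraicClosure ℚ)) hΔ' h2K h5K) hfin
    (lt_of_le_of_lt hcard (by norm_num)) h
  have e4 : (4 : ℕ) • P = -P := by
    rw [eq_neg_iff_add_eq_zero, ← succ_nsmul]
    exact h5
  have e3 : (3 : ℕ) • P = -((2 : ℕ) • P) := by
    rw [eq_neg_iff_add_eq_zero, ← add_nsmul]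
    exact h5
  have e22 : (2 : ℕ) • ((2 : ℕ) • P) = -P := by
    rw [← mul_nsmul]
    exact e4
  have e23 : (2 : ℕ) • ((3 : ℕ) • P) = P := by
    rw [← mul_nsmul]
    have : (3 * 2) • P = 5 • P + P := succ_nsmul P 5
    rw [this, h5, zero_add]
  have e24 : (2 : ℕ) • ((4 : ℕ) • P) = -((2 : ℕ) • P) := by
    rw [e4, neg_nsmul]
  have hperm : ∀ σ : AlgebraicClosure ℚ ≃ₐ[ℚ] AlgebraicClosure ℚ,
      (σ (A_x P) = A_x P ∧ σ (A_x (2 • P)) = A_x (2 • P)) ∨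
      (σ (A_x P) = A_x (2 • P) ∧ σ (A_x (2 • P)) = A_x P) := by
    intro σ
    obtain ⟨k, hk⟩ := hσ σ
    have hk2 : σ • ((2 : ℕ) • P) = (2 : ℕ) • (k • P) := by
      rw [← hk]
      exact _root_.map_nsmul (Point.map σ.toAlgHom) 2 P
    rw [← A_x_smul, ← A_x_smul, hk, hk2, nsmul_eq_mod_nsmul k h5]
    have hk5 : k % 5 < 5 := Nat.mod_lt _ (by norm_num)
    rw [nsmul_eq_mod_nsmul k h5] at hk
    interval_cases (k % 5)
    · rw [zero_nsmul] at hk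
      exact absurd ((smul_eq_zero_iff_eq σ).mp hk) hP
    · left
      rw [one_nsmul]
      exact ⟨rfl, rfl⟩
    · right
      rw [e22, A_x_neg]
      exact ⟨rfl, rfl⟩
    · right
      rw [e23, e3, A_x_neg]
      exact ⟨rfl, rfl⟩
    · left
      rw [e24, e4, A_x_neg, A_x_neg]
      exact ⟨rfl, rfl⟩
  have hs : ∀ σ : AlgebraicClosure ℚ ≃ₐ[ℚ] AlgebraicClosure ℚ,
      σ (A_x P + A_x (2 • P)) = A_x P + A_x (2 • P) := by
    intro σ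
    rw [_root_.map_add]
    rcases hperm σ with ⟨h1, h2⟩ | ⟨h1, h2⟩
    · rw [h1, h2]
    · rw [h1, h2, add_comm]
  have ht : ∀ σ : AlgebraicClosure ℚ ≃ₐ[ℚ] AlgebraicClosure ℚ,
      σ (A_x P * A_x (2 • P)) = A_x P * A_x (2 • P) := by
    intro σ
    rw [_root_.map_mul]
    rcases hperm σ with ⟨h1, h2⟩ | ⟨h1, h2⟩
    · rw [h1, h2]
    · rw [h1, h2, mul_comm]
  obtain ⟨s, hs'⟩ := A_rational_of_fixed _ hs
  obtain ⟨t, ht'⟩ := A_rational_of_fixed _ ht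
  obtain ⟨ha, hb, hne⟩ := A_st_of_five_nsmul (W⁄(AlgebraicClosure ℚ)) hP h5
  rw [← hs', ← ht'] at ha hb hne
  rw [(A_I5_baseChange W s t).1] at ha
  rw [(A_I5_baseChange W s t).2] at hb
  refine ⟨s, t, (_root_.map_eq_zero _).mp ha, (_root_.map_eq_zero _).mp hb, ?_⟩
  intro hst
  apply hne
  rw [← _root_.map_pow, hst, _root_.map_mul, map_ofNat]

end Fermat.Agent.S51
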