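import Fermat.Statements.S51

set_option autoImplicit false

namespace Fermat.Agent.S51

open WeierstrassCurve

/-- Arithmetic core of part D: if `d * c₄³ = n * Δ` with `5 ∤ d` and `n = 5 m` or `n = 25 m`,
then `5 ∣ c₄` and `5 ∣ Δ`. Stated with explicit cofactors to keep it elementary. -/
theorem D_five_dvd {c Δ d n : ℤ} (hd : ¬ (5 : ℤ) ∣ d) (h : d * c ^ 3 = n * Δ)
    (hn : (5 : ℤ) ∣ n) (hn' : ¬ (125 : ℤ) ∣ n) : (5 : ℤ) ∣ c ∧ (5 : ℤ) ∣ Δ := by
  have hp : Prime (5 : ℤ) := by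
    rw [Int.prime_iff_natAbs_prime]; norm_num
  have h5c : (5 : ℤ) ∣ c := by
    have h1 : (5 : ℤ) ∣ d * c ^ 3 := by
      rw [h]; exact Dvd.dvd.mul_right hn Δ
    rcases hp.dvd_or_dvd h1 with h2 | h2
    · exact absurd h2 hd
    · exact hp.dvd_of_dvd_pow h2
  refine ⟨h5c, ?_⟩
  by_contra hΔ
  -- `5 ∤ Δ`, so `125 ∣ n * Δ` forces `125 ∣ n`
  apply hn'
  have h125 : (125 : ℤ) ∣ n * Δ := by
    rw [← h]
    obtain ⟨k, rfl⟩ := h5c
    exact ⟨d * k ^ 3, by ring⟩
  have hcop : IsCoprime (125 : ℤ) Δ := by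
    have : IsCoprime (5 : ℤ) Δ := (Prime.coprime_iff_not_dvd hp).mpr hΔ
    have h3 : IsCoprime ((5 : ℤ) ^ 3) Δ := this.pow_left
    norm_num at h3
    exact h3
  exact hcop.dvd_of_dvd_mul_right h125

/-- Part D: none of the four `j`-invariants of curves with a rational `15`-isogeny is the
`j`-invariant of a semistable integral model. -/
theorem D_not_semistable (W : WeierstrassCurve ℤ) (hW : W.IsSemistableModel) (j : ℚ)
    (hj : j = -25 / 2 ∨ j = -349938025 / 8 ∨ j = -121945 / 32 ∨ j = 46969655 / 32768) :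
    (W.c₄ : ℚ) ^ 3 ≠ j * (W.Δ : ℚ) := by
  intro h
  have key : ∀ d n : ℤ, ¬ (5 : ℤ) ∣ d → (5 : ℤ) ∣ n → ¬ (125 : ℤ) ∣ n →
      d * W.c₄ ^ 3 = n * W.Δ → False := by
    intro d n hd hn hn' hrel
    obtain ⟨h5c, h5Δ⟩ := D_five_dvd hd hrel hn hn'
    exact hW 5 (by norm_num) (by exact_mod_cast h5Δ) (by exact_mod_cast h5c)
  rcases hj with rfl | rfl | rfl | rfl
  · refine key 2 (-25) (by norm_num) (by norm_num) (by norm_num) ?_
    have : ((2 * W.c₄ ^ 3 : ℤ) : ℚ) = ((-25 * W.Δ : ℤ) : ℚ) := by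
      push_cast; linear_combination 2 * h
    exact_mod_cast this
  · refine key 8 (-349938025) (by norm_num) (by norm_num) (by norm_num) ?_
    have : ((8 * W.c₄ ^ 3 : ℤ) : ℚ) = ((-349938025 * W.Δ : ℤ) : ℚ) := by
      push_cast; linear_combination 8 * h
    exact_mod_cast this
  · refine key 32 (-121945) (by norm_num) (by norm_num) (by norm_num) ?_
    have : ((32 * W.c₄ ^ 3 : ℤ) : ℚ) = ((-121945 * W.Δ : ℤ) : ℚ) := by
      push_cast; linear_combination 32 * h
    exact_mod_cast this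
  · refine key 32768 46969655 (by norm_num) (by norm_num) (by norm_num) ?_
    have : ((32768 * W.c₄ ^ 3 : ℤ) : ℚ) = ((46969655 * W.Δ : ℤ) : ℚ) := by
      push_cast; linear_combination 32768 * h
    exact_mod_cast this

/-- Part D, degenerate case: a semistable integral model has `c₄ ≠ 0`
(otherwise `Δ = ±1` and `c₆² = ∓1728`). -/
theorem D_c4_ne_zero (W : WeierstrassCurve ℤ) (hW : W.IsSemistableModel) :
    W.c₄ ≠ 0 := by
  intro hc
  have hno : ∀ p : ℕ, p.Prime → ¬ p ∣ W.Δ.natAbs := by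
    intro p hp hdvd
    have h1 : (p : ℤ) ∣ W.Δ := Int.natCast_dvd.mpr hdvd
    exact hW p hp h1 (by rw [hc]; exact dvd_zero _)
  have habs : W.Δ.natAbs = 1 := Nat.eq_one_iff_not_exists_prime_dvd.mpr hno
  have hrel := W.c_relation
  rw [hc] at hrel
  have hsq : W.c₆ ^ 2 = -1728 * W.Δ := by linear_combination hrel
  rcases Int.natAbs_eq W.Δ with h | h <;> rw [habs] at h
  · -- Δ = 1: c₆² = -1728 < 0
    rw [h] at hsq
    have := sq_nonneg W.c₆
    norm_num at hsq
    omega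
  · -- Δ = -1: c₆² = 1728, not a square
    rw [h] at hsq
    have h1 : W.c₆ ^ 2 = 1728 := by rw [hsq]; norm_num
    have habs6 : W.c₆.natAbs ^ 2 = 1728 := by
      have := congrArg Int.natAbs h1
      rw [Int.natAbs_pow] at this
      simpa using this
    have hlt : W.c₆.natAbs < 42 := by
      by_contra hge
      have hge' : 42 ≤ W.c₆.natAbs := Nat.le_of_not_lt hge
      have : 42 ^ 2 ≤ W.c₆.natAbs ^ 2 := Nat.pow_le_pow_left hge' 2
      omega
    have hgt : 41 < W.c₆.natAbs := by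
      by_contra hle
      have hle' : W.c₆.natAbs ≤ 41 := Nat.le_of_not_lt hle
      have : W.c₆.natAbs ^ 2 ≤ 41 ^ 2 := Nat.pow_le_pow_left hle' 2
      omega
    omega

end Fermat.Agent.S51
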