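import Fermat.Statements.S51
import Fermat.Agent.S51.PartD

set_option autoImplicit false

namespace Fermat.Agent.S51

open WeierstrassCurve

/-- Interface of part A (3-torsion): a reducible mod-3 representation gives a rational root of
the 3-division polynomial. -/
def IfaceAThree : Prop :=
  ∀ (W : WeierstrassCurve ℚ), W.Δ ≠ 0 →
    ¬ WeierstrassCurve.Affine.Point.GaloisRepIsIrreducible (K := AlgebraicClosure ℚ) ℚ W 3 →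
    ∃ r : ℚ, 3 * r ^ 4 + W.b₂ * r ^ 3 + 3 * W.b₄ * r ^ 2 + 3 * W.b₆ * r + W.b₈ = 0

/-- Interface of part A (5-torsion): a reducible mod-5 representation gives rational symmetric
functions `s = x(P) + x(2P)`, `t = x(P) x(2P)` of a Galois-stable subgroup of order 5. -/
def IfaceAFive : Prop :=
  ∀ (W : WeierstrassCurve ℚ), W.Δ ≠ 0 →
    ¬ WeierstrassCurve.Affine.Point.GaloisRepIsIrreducible (K := AlgebraicClosure ℚ) ℚ W 5 →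
    ∃ s t : ℚ, s ^ 3 - 6 * s * t - W.b₂ * t - W.b₄ * s - W.b₆ = 0 ∧
      s ^ 4 - 8 * s ^ 2 * t + 10 * t ^ 2 - W.b₂ * s * t - W.b₄ * s ^ 2 - 2 * W.b₄ * t
        - 3 * W.b₆ * s - 2 * W.b₈ = 0 ∧ s ^ 2 ≠ 4 * t

/-- Interface of part C: the rational points of `X₀(15) : y² = x (x + 16) (x + 25)`. -/
def IfaceC : Prop :=
  ∀ x y : ℚ, y ^ 2 = x * (x + 16) * (x + 25) →
    x = 0 ∨ x = -16 ∨ x = -25 ∨ x = 20 ∨ x = -20

/-- Interface of part B: the explicit algebra from the torsion data to the `j`-invariant,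
given part C. -/
def IfaceB : Prop :=
  ∀ (b₂ b₄ b₆ b₈ r s t : ℚ), 4 * b₈ = b₂ * b₆ - b₄ ^ 2 →
    -b₂ ^ 2 * b₈ - 8 * b₄ ^ 3 - 27 * b₆ ^ 2 + 9 * b₂ * b₄ * b₆ ≠ 0 →
    3 * r ^ 4 + b₂ * r ^ 3 + 3 * b₄ * r ^ 2 + 3 * b₆ * r + b₈ = 0 →
    s ^ 3 - 6 * s * t - b₂ * t - b₄ * s - b₆ = 0 →
    s ^ 4 - 8 * s ^ 2 * t + 10 * t ^ 2 - b₂ * s * t - b₄ * s ^ 2 - 2 * b₄ * t - 3 * b₆ * s
      - 2 * b₈ = 0 →
    s ^ 2 ≠ 4 * t →
    IfaceC →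
    b₂ ^ 2 - 24 * b₄ = 0 ∨
      ∃ j : ℚ, (j = -25 / 2 ∨ j = -349938025 / 8 ∨ j = -121945 / 32 ∨ j = 46969655 / 32768) ∧
        (b₂ ^ 2 - 24 * b₄) ^ 3 =
          j * (-b₂ ^ 2 * b₈ - 8 * b₄ ^ 3 - 27 * b₆ ^ 2 + 9 * b₂ * b₄ * b₆)

/-- Assembly of S51 from the four parts. -/
theorem assembly (hA3 : IfaceAThree) (hA5 : IfaceAFive) (hB : IfaceB) (hC : IfaceC)
    (W : WeierstrassCurve ℤ) (hΔ : W.Δ ≠ 0) (hW : W.IsSemistableModel) :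
    W.ModRepIsIrreducible 3 ∨ W.ModRepIsIrreducible 5 := by
  by_contra hcon
  rw [not_or] at hcon
  obtain ⟨h3, h5⟩ := hcon
  have hΔq : (W.map (Int.castRingHom ℚ)).Δ ≠ 0 := by
    rw [WeierstrassCurve.map_Δ]
    simpa using hΔ
  obtain ⟨r, hr⟩ := hA3 (W.map (Int.castRingHom ℚ)) hΔq h3
  obtain ⟨s, t, h5a, h5b, hst⟩ := hA5 (W.map (Int.castRingHom ℚ)) hΔq h5
  have hrel : 4 * (W.map (Int.castRingHom ℚ)).b₈ =
      (W.map (Int.castRingHom ℚ)).b₂ * (W.map (Int.castRingHom ℚ)).b₆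
        - (W.map (Int.castRingHom ℚ)).b₄ ^ 2 := (W.map (Int.castRingHom ℚ)).b_relation
  have hΔq' : -(W.map (Int.castRingHom ℚ)).b₂ ^ 2 * (W.map (Int.castRingHom ℚ)).b₈
      - 8 * (W.map (Int.castRingHom ℚ)).b₄ ^ 3 - 27 * (W.map (Int.castRingHom ℚ)).b₆ ^ 2
      + 9 * (W.map (Int.castRingHom ℚ)).b₂ * (W.map (Int.castRingHom ℚ)).b₄
        * (W.map (Int.castRingHom ℚ)).b₆ ≠ 0 := hΔq
  have hc4 : (W.map (Int.castRingHom ℚ)).b₂ ^ 2 - 24 * (W.map (Int.castRingHom ℚ)).b₄ =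
      (W.c₄ : ℚ) := by
    have : (W.map (Int.castRingHom ℚ)).c₄ = (W.c₄ : ℚ) := by
      rw [WeierstrassCurve.map_c₄]; rfl
    rw [← this]; rfl
  have hΔc : -(W.map (Int.castRingHom ℚ)).b₂ ^ 2 * (W.map (Int.castRingHom ℚ)).b₈
      - 8 * (W.map (Int.castRingHom ℚ)).b₄ ^ 3 - 27 * (W.map (Int.castRingHom ℚ)).b₆ ^ 2
      + 9 * (W.map (Int.castRingHom ℚ)).b₂ * (W.map (Int.castRingHom ℚ)).b₄
        * (W.map (Int.castRingHom ℚ)).b₆ = (W.Δ : ℚ) := by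
    have : (W.map (Int.castRingHom ℚ)).Δ = (W.Δ : ℚ) := by
      rw [WeierstrassCurve.map_Δ]; rfl
    rw [← this]; rfl
  rcases hB _ _ _ _ r s t hrel hΔq' hr h5a h5b hst hC with h0 | ⟨j, hj, hcj⟩
  · rw [hc4] at h0
    exact D_c4_ne_zero W hW (by exact_mod_cast h0)
  · rw [hc4, hΔc] at hcj
    exact D_not_semistable W hW j hj hcj

end Fermat.Agent.S51
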