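import Mathlib

/-!
# S51, Part B: the explicit algebra from rational `3`- and `5`-torsion data to `X₀(15)`

Input: the `b`-invariants of a rational Weierstrass curve, a rational root `r` of the
`3`-division polynomial and the symmetric functions `s = x(P) + x(2P)`, `t = x(P) x(2P)` of a
Galois-stable `5`-torsion line.  Output: the `j`-invariant is one of four explicit values
(or `c₄ = 0`).  The rational points of `y² = x (x + 16) (x + 25)` enter as the hypothesis `hC`.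
-/

namespace Fermat.Agent.S51

/-- Elimination of `β` from the two normalised `5`-torsion equations. -/
theorem B66_curve (β s t : ℚ)
    (h1 : s ^ 3 - 6 * s * t - β * t - β * s - β = 0)
    (h2 : s ^ 4 - 8 * s ^ 2 * t + 10 * t ^ 2 - β * s * t - β * s ^ 2 - 2 * β * t - 3 * β * s = 0) :
    (s ^ 2 + s * t) ^ 2 = t * (5 * s ^ 2 + 11 * s * t + 5 * t ^ 2 + 5 * t) := by
  linear_combination (-(1 : ℚ) / 2) * ((s + t + 1) * h2 - (s ^ 2 + s * t + 3 * s + 2 * t) * h1)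

/-- The rational points of the quartic model `Y² = 45 m⁴ + 150 m³ + 191 m² + 110 m + 25` of
`X₀(15)`, deduced from those of the cubic model `y² = x (x + 16) (x + 25)`. -/
theorem B66_quartic_points
    (hC : ∀ x y : ℚ, y ^ 2 = x * (x + 16) * (x + 25) →
      x = 0 ∨ x = -16 ∨ x = -25 ∨ x = 20 ∨ x = -20)
    (m Y : ℚ) (h : Y ^ 2 = 45 * m ^ 4 + 150 * m ^ 3 + 191 * m ^ 2 + 110 * m + 25) :
    m = 0 ∨ m = -1 ∨ m = -2 / 3 ∨ m = -5 / 3 := by
  by_cases hm : m = 0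
  · exact Or.inl hm
  right
  obtain ⟨X, hX⟩ : ∃ X : ℚ, X * m ^ 2 = 10 * (Y + (5 * m ^ 2 + 11 * m + 5)) :=
    ⟨10 * (Y + (5 * m ^ 2 + 11 * m + 5)) / m ^ 2, by field_simp⟩
  obtain ⟨Z, hZ⟩ : ∃ Z : ℚ,
      Z * m ^ 3 = (100 + 110 * m) * Y + 750 * m ^ 3 + 1910 * m ^ 2 + 1650 * m + 500 :=
    ⟨((100 + 110 * m) * Y + 750 * m ^ 3 + 1910 * m ^ 2 + 1650 * m + 500) / m ^ 3, by field_simp⟩
  have hm6 : m ^ 6 ≠ 0 := pow_ne_zero _ hm
  have hm2 : m ^ 2 ≠ 0 := pow_ne_zero _ hm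
  have hcub : Z ^ 2 = X * (X + 16) * (X + 25) := by
    apply mul_left_cancel₀ hm6
    have e1 : m ^ 6 * Z ^ 2 = (Z * m ^ 3) ^ 2 := by ring
    have e2 : m ^ 6 * (X * (X + 16) * (X + 25)) =
        (X * m ^ 2) * (X * m ^ 2 + 16 * m ^ 2) * (X * m ^ 2 + 25 * m ^ 2) := by ring
    rw [e1, e2, hX, hZ]
    linear_combination (-1000 * Y - 7000 * m ^ 2 - 11000 * m - 5000) * h
  rcases hC X Z hcub with h0 | h0 | h0 | h0 | h0
  · -- X = 0
    rw [h0] at hX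
    have hY : Y = -(5 * m ^ 2 + 11 * m + 5) := by linarith
    rw [hY] at h
    have key : m ^ 2 * (m + 1) ^ 2 = 0 := by linear_combination (-(1 : ℚ) / 20) * h
    rcases mul_eq_zero.1 key with h' | h'
    · exact absurd h' hm2
    · left
      have := pow_eq_zero_iff (two_ne_zero) |>.1 h'
      linarith
  · -- X = -16
    rw [h0] at hX
    have hY : Y = -(8 / 5) * m ^ 2 - (5 * m ^ 2 + 11 * m + 5) := by linarith
    rw [hY] at h
    have key : m ^ 2 * (3 * m + 5) ^ 2 = 0 := by linear_combination (-(25 : ℚ) / 4) * h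
    rcases mul_eq_zero.1 key with h' | h'
    · exact absurd h' hm2
    · right; right
      have := pow_eq_zero_iff (two_ne_zero) |>.1 h'
      linarith
  · -- X = -25
    rw [h0] at hX
    have hY : Y = -(5 / 2) * m ^ 2 - (5 * m ^ 2 + 11 * m + 5) := by linarith
    rw [hY] at h
    have key : m ^ 2 * (3 * m + 2) ^ 2 = 0 := by linear_combination ((4 : ℚ) / 5) * h
    rcases mul_eq_zero.1 key with h' | h'
    · exact absurd h' hm2
    · right; left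
      have := pow_eq_zero_iff (two_ne_zero) |>.1 h'
      linarith
  · -- X = 20
    rw [h0] at hX
    have hY : Y = 2 * m ^ 2 - (5 * m ^ 2 + 11 * m + 5) := by linarith
    rw [hY] at h
    have key : m ^ 2 * ((3 * m + 2) * (3 * m + 5)) = 0 := by
      linear_combination (-(1 : ℚ) / 4) * h
    rcases mul_eq_zero.1 key with h' | h'
    · exact absurd h' hm2
    · rcases mul_eq_zero.1 h' with h'' | h''
      · right; left; linarith
      · right; right; linarith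
  · -- X = -20
    rw [h0] at hX
    have hY : Y = -2 * m ^ 2 - (5 * m ^ 2 + 11 * m + 5) := by linarith
    rw [hY] at h
    have key : m ^ 2 * (m * (m + 1)) = 0 := by linear_combination ((1 : ℚ) / 4) * h
    rcases mul_eq_zero.1 key with h' | h'
    · exact absurd h' hm2
    · rcases mul_eq_zero.1 h' with h'' | h''
      · exact absurd h'' hm
      · left; linarith

/-- The normalised form of Part B: on the curve with `(b₂, b₄, b₆, b₈) = (β, β, β, 0)` a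
rational `5`-torsion line forces `β` into an explicit finite list. -/
theorem B66_core
    (hC : ∀ x y : ℚ, y ^ 2 = x * (x + 16) * (x + 25) →
      x = 0 ∨ x = -16 ∨ x = -25 ∨ x = 20 ∨ x = -20)
    (β s t : ℚ)
    (h1 : s ^ 3 - 6 * s * t - β * t - β * s - β = 0)
    (h2 : s ^ 4 - 8 * s ^ 2 * t + 10 * t ^ 2 - β * s * t - β * s ^ 2 - 2 * β * t - 3 * β * s = 0)
    (hst : s ^ 2 ≠ 4 * t) :
    β = -5 ∨ β = 25 ∨ β = -675 / 2 ∨ β = 135 / 32 ∨ β = 27 := by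
  have hcurve := B66_curve β s t h1 h2
  have ht : t ≠ 0 := by
    rintro rfl
    have h4 : s ^ 4 = 0 := by linear_combination hcurve
    have hs : s = 0 := pow_eq_zero_iff (by norm_num) |>.1 h4
    exact hst (by rw [hs]; ring)
  obtain ⟨m, hm⟩ : ∃ m, s = m * t := ⟨s / t, by field_simp⟩
  subst hm
  have hquad : m ^ 2 * (m + 1) ^ 2 * t ^ 2 - (5 * m ^ 2 + 11 * m + 5) * t - 5 = 0 := by
    have h' : t ^ 2 * (m ^ 2 * (m + 1) ^ 2 * t ^ 2 - (5 * m ^ 2 + 11 * m + 5) * t - 5) = 0 := by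
      linear_combination hcurve
    rcases mul_eq_zero.1 h' with h'' | h''
    · exact absurd (pow_eq_zero_iff (two_ne_zero) |>.1 h'') ht
    · exact h''
  have hquartic : (2 * m ^ 2 * (m + 1) ^ 2 * t - (5 * m ^ 2 + 11 * m + 5)) ^ 2 =
      45 * m ^ 4 + 150 * m ^ 3 + 191 * m ^ 2 + 110 * m + 25 := by
    linear_combination (4 * m ^ 2 * (m + 1) ^ 2) * hquad
  rcases B66_quartic_points hC m _ hquartic with hm | hm | hm | hm
  · -- m = 0
    subst hm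
    have ht1 : t = -1 := by linarith
    subst ht1
    left
    linarith
  · -- m = -1
    subst hm
    have ht1 : t = 5 := by linarith
    subst ht1
    right; left
    linarith
  · -- m = -2/3
    subst hm
    have hfac : (t - 9) * (4 * t + 45) = 0 := by linear_combination (81 : ℚ) * hquad
    rcases mul_eq_zero.1 hfac with h' | h'
    · have ht1 : t = 9 := by linarith
      subst ht1
      right; right; right; right
      linarith
    · have ht1 : t = -45 / 4 := by linarith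
      subst ht1
      right; right; left
      linarith
  · -- m = -5/3
    subst hm
    have hfac : (4 * t - 9) * (5 * t + 9) = 0 := by linear_combination ((81 : ℚ) / 5) * hquad
    rcases mul_eq_zero.1 hfac with h' | h'
    · have ht1 : t = 9 / 4 := by linarith
      subst ht1
      right; right; right; left
      linarith
    · have ht1 : t = -9 / 5 := by linarith
      subst ht1
      right; right; right; right
      linarith

/-- Part B for weighted-scaled data: `b₂ = β λ`, `b₄ = β λ²`, `b₆ = β λ³`, `b₈ = 0`. -/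
theorem B66_scaled
    (hC : ∀ x y : ℚ, y ^ 2 = x * (x + 16) * (x + 25) →
      x = 0 ∨ x = -16 ∨ x = -25 ∨ x = 20 ∨ x = -20)
    (β l s t : ℚ) (hl : l ≠ 0)
    (h1 : s ^ 3 - 6 * s * t - (β * l) * t - (β * l ^ 2) * s - β * l ^ 3 = 0)
    (h2 : s ^ 4 - 8 * s ^ 2 * t + 10 * t ^ 2 - (β * l) * s * t - (β * l ^ 2) * s ^ 2
      - 2 * (β * l ^ 2) * t - 3 * (β * l ^ 3) * s = 0)
    (hst : s ^ 2 ≠ 4 * t) :
    β = -5 ∨ β = 25 ∨ β = -675 / 2 ∨ β = 135 / 32 ∨ β = 27 := by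
  obtain ⟨S, hS⟩ : ∃ S, s = S * l := ⟨s / l, by field_simp⟩
  obtain ⟨T, hT⟩ : ∃ T, t = T * l ^ 2 := ⟨t / l ^ 2, by field_simp⟩
  subst hS hT
  have hl3 : l ^ 3 ≠ 0 := pow_ne_zero _ hl
  have hl4 : l ^ 4 ≠ 0 := pow_ne_zero _ hl
  refine B66_core hC β S T ?_ ?_ ?_
  · apply mul_left_cancel₀ hl3
    linear_combination h1
  · apply mul_left_cancel₀ hl4
    linear_combination h2
  · intro h
    apply hst
    linear_combination (l ^ 2) * h

/-- **Part B** in terms of plain rational `b`-invariants (hypothesis `hC` first). -/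
theorem B66_main_aux
    (hC : ∀ x y : ℚ, y ^ 2 = x * (x + 16) * (x + 25) →
      x = 0 ∨ x = -16 ∨ x = -25 ∨ x = 20 ∨ x = -20)
    (b2 b4 b6 b8 r s t : ℚ)
    (hrel : 4 * b8 = b2 * b6 - b4 ^ 2)
    (hΔ : -b2 ^ 2 * b8 - 8 * b4 ^ 3 - 27 * b6 ^ 2 + 9 * b2 * b4 * b6 ≠ 0)
    (h3 : 3 * r ^ 4 + b2 * r ^ 3 + 3 * b4 * r ^ 2 + 3 * b6 * r + b8 = 0)
    (h5a : s ^ 3 - 6 * s * t - b2 * t - b4 * s - b6 = 0)
    (h5b : s ^ 4 - 8 * s ^ 2 * t + 10 * t ^ 2 - b2 * s * t - b4 * s ^ 2 - 2 * b4 * t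
      - 3 * b6 * s - 2 * b8 = 0)
    (hst : s ^ 2 ≠ 4 * t) :
    b2 ^ 2 - 24 * b4 = 0 ∨
      ∃ j : ℚ, (j = -25 / 2 ∨ j = -349938025 / 8 ∨ j = -121945 / 32 ∨ j = 46969655 / 32768) ∧
        (b2 ^ 2 - 24 * b4) ^ 3 =
          j * (-b2 ^ 2 * b8 - 8 * b4 ^ 3 - 27 * b6 ^ 2 + 9 * b2 * b4 * b6) := by
  -- translate `r` to `0`
  obtain ⟨c2, hc2⟩ : ∃ c2, c2 = b2 + 12 * r := ⟨_, rfl⟩
  obtain ⟨c4, hc4⟩ : ∃ c4, c4 = b4 + r * b2 + 6 * r ^ 2 := ⟨_, rfl⟩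
  obtain ⟨c6, hc6⟩ : ∃ c6, c6 = b6 + 2 * r * b4 + r ^ 2 * b2 + 4 * r ^ 3 := ⟨_, rfl⟩
  obtain ⟨s', hs'⟩ : ∃ s', s' = s - 2 * r := ⟨_, rfl⟩
  obtain ⟨t', ht'⟩ : ∃ t', t' = t - r * s + r ^ 2 := ⟨_, rfl⟩
  have hrel' : c2 * c6 = c4 ^ 2 := by
    rw [hc2, hc4, hc6]
    linear_combination (4 : ℚ) * h3 - hrel
  have hc4eq : b2 ^ 2 - 24 * b4 = c2 ^ 2 - 24 * c4 := by
    rw [hc2, hc4]; ring
  have hΔeq : -b2 ^ 2 * b8 - 8 * b4 ^ 3 - 27 * b6 ^ 2 + 9 * b2 * b4 * b6 =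
      -8 * c4 ^ 3 - 27 * c6 ^ 2 + 9 * c2 * c4 * c6 := by
    rw [hc2, hc4, hc6]
    linear_combination (-(b2 ^ 2) - 24 * b2 * r - 144 * r ^ 2) * h3 +
      (6 * r * (b2 + 6 * r)) * hrel
  have h5a' : s' ^ 3 - 6 * s' * t' - c2 * t' - c4 * s' - c6 = 0 := by
    rw [hs', ht', hc2, hc4, hc6]
    linear_combination h5a
  have h5b' : s' ^ 4 - 8 * s' ^ 2 * t' + 10 * t' ^ 2 - c2 * s' * t' - c4 * s' ^ 2
      - 2 * c4 * t' - 3 * c6 * s' = 0 := by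
    rw [hs', ht', hc2, hc4, hc6]
    linear_combination h5b + 2 * h3
  have hst' : s' ^ 2 ≠ 4 * t' := by
    intro h
    apply hst
    rw [hs', ht'] at h
    linear_combination h
  rw [hc4eq, hΔeq]
  rw [hΔeq] at hΔ
  clear hc4eq hΔeq hrel h3 h5a h5b hst hc2 hc4 hc6 hs' ht'
  by_cases h4 : c4 = 0
  · left
    have h26 : c2 * c6 = 0 := by rw [hrel', h4]; ring
    rcases mul_eq_zero.1 h26 with h | h
    · rw [h, h4]; ring
    · exfalso
      apply hΔ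
      rw [h, h4]; ring
  right
  have h2 : c2 ≠ 0 := by
    rintro rfl
    apply h4
    have : c4 ^ 2 = 0 := by rw [← hrel']; ring
    exact pow_eq_zero_iff (two_ne_zero) |>.1 this
  -- `l = c4 / c2`, `β = c2 ^ 2 / c4`
  obtain ⟨l, hl⟩ : ∃ l, c4 = l * c2 := ⟨c4 / c2, by field_simp⟩
  have hl0 : l ≠ 0 := by
    rintro rfl
    apply h4
    rw [hl]; ring
  obtain ⟨β, hβ⟩ : ∃ β, c2 = β * l := ⟨c2 / l, by field_simp⟩
  have hβ0 : β ≠ 0 := by
    rintro rfl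
    apply h2
    rw [hβ]; ring
  have e4 : c4 = β * l ^ 2 := by rw [hl, hβ]; ring
  have e6 : c6 = β * l ^ 3 := by
    have : c2 * c6 = c2 * (β * l ^ 3) := by
      rw [hrel', e4, hβ]; ring
    exact mul_left_cancel₀ h2 this
  subst e4 e6
  rw [hβ] at h5a' h5b' hΔ ⊢
  have hΔ' : -8 * (β * l ^ 2) ^ 3 - 27 * (β * l ^ 3) ^ 2 + 9 * (β * l) * (β * l ^ 2) * (β * l ^ 3)
      = l ^ 6 * β ^ 2 * (β - 27) := by ring
  have hc : (β * l) ^ 2 - 24 * (β * l ^ 2) = l ^ 2 * β * (β - 24) := by ring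
  rw [hΔ'] at hΔ ⊢
  rw [hc]
  have hβ27 : β ≠ 27 := by
    rintro rfl
    apply hΔ
    ring
  rcases B66_scaled hC β l s' t' hl0 h5a' h5b' hst' with h | h | h | h | h
  · exact ⟨-121945 / 32, Or.inr (Or.inr (Or.inl rfl)), by rw [h]; ring⟩
  · exact ⟨-25 / 2, Or.inl rfl, by rw [h]; ring⟩
  · exact ⟨-349938025 / 8, Or.inr (Or.inl rfl), by rw [h]; ring⟩
  · exact ⟨46969655 / 32768, Or.inr (Or.inr (Or.inr rfl)), by rw [h]; ring⟩
  · exact absurd h hβ27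

/-- **Part B** in terms of plain rational `b`-invariants: a rational root `r` of the
`3`-division polynomial and rational `s = x(P) + x(2P)`, `t = x(P) x(2P)` for a `5`-torsion
point force `c₄ = 0` or `c₄ ^ 3 = j * Δ` for one of four explicit `j`. The rational points of
`y² = x (x + 16) (x + 25)` are the hypothesis `hC`. -/
theorem B66_main (b₂ b₄ b₆ b₈ r s t : ℚ)
    (hb : 4 * b₈ = b₂ * b₆ - b₄ ^ 2)
    (hΔ : -b₂ ^ 2 * b₈ - 8 * b₄ ^ 3 - 27 * b₆ ^ 2 + 9 * b₂ * b₄ * b₆ ≠ 0)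
    (h3 : 3 * r ^ 4 + b₂ * r ^ 3 + 3 * b₄ * r ^ 2 + 3 * b₆ * r + b₈ = 0)
    (h5a : s ^ 3 - 6 * s * t - b₂ * t - b₄ * s - b₆ = 0)
    (h5b : s ^ 4 - 8 * s ^ 2 * t + 10 * t ^ 2 - b₂ * s * t - b₄ * s ^ 2 - 2 * b₄ * t
      - 3 * b₆ * s - 2 * b₈ = 0)
    (hst : s ^ 2 ≠ 4 * t)
    (hC : ∀ x y : ℚ, y ^ 2 = x * (x + 16) * (x + 25) →
      x = 0 ∨ x = -16 ∨ x = -25 ∨ x = 20 ∨ x = -20) :
    b₂ ^ 2 - 24 * b₄ = 0 ∨
      ∃ j : ℚ, (j = -25 / 2 ∨ j = -349938025 / 8 ∨ j = -121945 / 32 ∨ j = 46969655 / 32768) ∧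
        (b₂ ^ 2 - 24 * b₄) ^ 3 =
          j * (-b₂ ^ 2 * b₈ - 8 * b₄ ^ 3 - 27 * b₆ ^ 2 + 9 * b₂ * b₄ * b₆) :=
  B66_main_aux hC b₂ b₄ b₆ b₈ r s t hb hΔ h3 h5a h5b hst

/-- **Part B** for a rational Weierstrass curve. -/
theorem B66_weierstrass
    (hC : ∀ x y : ℚ, y ^ 2 = x * (x + 16) * (x + 25) →
      x = 0 ∨ x = -16 ∨ x = -25 ∨ x = 20 ∨ x = -20)
    (W : WeierstrassCurve ℚ) (hΔ : W.Δ ≠ 0) (r s t : ℚ)
    (h3 : 3 * r ^ 4 + W.b₂ * r ^ 3 + 3 * W.b₄ * r ^ 2 + 3 * W.b₆ * r + W.b₈ = 0)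
    (h5a : s ^ 3 - 6 * s * t - W.b₂ * t - W.b₄ * s - W.b₆ = 0)
    (h5b : s ^ 4 - 8 * s ^ 2 * t + 10 * t ^ 2 - W.b₂ * s * t - W.b₄ * s ^ 2 - 2 * W.b₄ * t
      - 3 * W.b₆ * s - 2 * W.b₈ = 0)
    (hst : s ^ 2 ≠ 4 * t) :
    W.c₄ = 0 ∨
      ∃ j : ℚ, (j = -25 / 2 ∨ j = -349938025 / 8 ∨ j = -121945 / 32 ∨ j = 46969655 / 32768) ∧
        W.c₄ ^ 3 = j * W.Δ := by
  have hΔ' : W.Δ = -W.b₂ ^ 2 * W.b₈ - 8 * W.b₄ ^ 3 - 27 * W.b₆ ^ 2 + 9 * W.b₂ * W.b₄ * W.b₆ := rfl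
  have hc' : W.c₄ = W.b₂ ^ 2 - 24 * W.b₄ := rfl
  rw [hΔ'] at hΔ ⊢
  rw [hc']
  exact B66_main_aux hC W.b₂ W.b₄ W.b₆ W.b₈ r s t W.b_relation hΔ h3 h5a h5b hst

end Fermat.Agent.S51
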