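import Mathlib.NumberTheory.FLT.Four
import Mathlib.RingTheory.PrincipalIdealDomain
import Mathlib.RingTheory.Int.Basic
import Mathlib.Algebra.Squarefree.Basic
import Mathlib.Tactic.LinearCombination
import Mathlib.Tactic.FieldSimp
import Mathlib.Tactic.Linarith
import Mathlib.Tactic.Ring
import Mathlib.Tactic.Positivity

/-!
# S51, Part C: the rational points of `y² = x (x + 16) (x + 25)` (the curve `15a1 = X₀(15)`)

Main result: `Fermat.Agent.S51.C_rational_points`.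

Strategy.
* `C41_no_concordant_int`: the concordant system `a² = e² + b²`, `a² = 81 e² + c²` has no
  integer solution with `e ≠ 0` (Fermat-style infinite descent = full 2-descent on
  `Y² = X (X - 1) (X - 81)`).
* `C41_Eprime`: every rational point of `Y² = X (X - 1) (X - 81)` has `Y = 0`
  (duplication formula reduces to the concordant system).
* `C_rational_points`: pull back along the 2-isogeny
  `(x, y) ↦ (y² / x², y (400 - x²) / x²)`.
-/

namespace Fermat.Agent.S51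

/-! ### Toolkit -/

lemma C41_sq_of_coprime {x y z : ℤ} (h : IsCoprime x y) (hx : 0 ≤ x) (hxy : x * y = z ^ 2) :
    ∃ s : ℤ, x = s ^ 2 := by
  obtain ⟨s, hs | hs⟩ := Int.sq_of_isCoprime h hxy
  · exact ⟨s, hs⟩
  · refine ⟨0, ?_⟩
    have h2 : 0 ≤ s ^ 2 := sq_nonneg s
    have : x = 0 := by linarith
    simp [this]

lemma C41_prime_five : Prime (5 : ℤ) :=
  Int.prime_iff_natAbs_prime.mpr Nat.prime_five

lemma C41_sq_or_sq_of_coprime_five {x y z : ℤ} (h : IsCoprime x y) (hx : 0 ≤ x) (hy : 0 ≤ y)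
    (hxy : x * y = 5 * z ^ 2) : (∃ s : ℤ, x = s ^ 2) ∨ (∃ s : ℤ, y = s ^ 2) := by
  have h5 : (5 : ℤ) ∣ x * y := ⟨z ^ 2, hxy⟩
  rcases C41_prime_five.dvd_or_dvd h5 with ⟨x', hx'⟩ | ⟨y', hy'⟩
  · right
    subst hx'
    have hc : IsCoprime y x' := (IsCoprime.of_mul_left_right h).symm
    have e1 : y * x' = z ^ 2 := by linarith
    exact C41_sq_of_coprime hc hy e1
  · left
    subst hy'
    have hc : IsCoprime x y' := IsCoprime.of_mul_right_right h
    have e1 : x * y' = z ^ 2 := by linarith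
    exact C41_sq_of_coprime hc hx e1

lemma C41_coprime_add_sub_of_odd {a b k : ℤ} (h : IsCoprime a b) (hk : a + b = 2 * k + 1) :
    IsCoprime (a + b) (a - b) := by
  obtain ⟨s, t, hst⟩ := h
  exact ⟨1 - k * (s + t), -k * (s - t), by linear_combination (-2 * k) * hst + hk⟩

lemma C41_coprime_half {a b u u' : ℤ} (h : IsCoprime a b) (hu : a + b = 2 * u)
    (hu' : a - b = 2 * u') : IsCoprime u u' := by
  obtain ⟨s, t, hst⟩ := h
  have ha : a = u + u' := by linarith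
  have hb : b = u - u' := by linarith
  rw [ha, hb] at hst
  exact ⟨s + t, s - t, by linear_combination hst⟩

lemma C41_coprime_two {b : ℤ} (h : ¬ (2 : ℤ) ∣ b) : IsCoprime b 2 := by
  obtain ⟨k, hk⟩ : ∃ k, b = 2 * k + 1 := ⟨b / 2, by omega⟩
  exact ⟨1, -k, by linarith⟩

lemma C41_odd_sq {x : ℤ} (h : ¬ (2 : ℤ) ∣ x) : ∃ t : ℤ, x ^ 2 = 8 * t + 1 := by
  obtain ⟨k, hk⟩ : ∃ k, x = 2 * k + 1 := ⟨x / 2, by omega⟩
  obtain ⟨m, hm⟩ : ∃ m, k * (k + 1) = 2 * m := by
    obtain ⟨m, hm⟩ := Int.even_mul_succ_self k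
    exact ⟨m, by omega⟩
  exact ⟨m, by subst hk; linear_combination 4 * hm⟩

lemma C41_four_dvd_of_sq {b t : ℤ} (h : b ^ 2 = 8 * t) : (4 : ℤ) ∣ b := by
  obtain ⟨k, r, hr, hb⟩ : ∃ k r : ℤ, (r = 0 ∨ r = 1 ∨ r = 2 ∨ r = 3) ∧ b = 4 * k + r :=
    ⟨b / 4, b % 4, by omega, by omega⟩
  rcases hr with rfl | rfl | rfl | rfl
  · exact ⟨k, by omega⟩
  all_goals (exfalso; subst hb; ring_nf at h; omega)

lemma C41_three_dvd {e b m : ℤ} (h : e ^ 2 + b ^ 2 = 3 * m) : (3 : ℤ) ∣ e := by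
  obtain ⟨k, r, hr, he⟩ : ∃ k r : ℤ, (r = 0 ∨ r = 1 ∨ r = 2) ∧ e = 3 * k + r :=
    ⟨e / 3, e % 3, by omega, by omega⟩
  obtain ⟨k', r', hr', hb⟩ : ∃ k r : ℤ, (r = 0 ∨ r = 1 ∨ r = 2) ∧ b = 3 * k + r :=
    ⟨b / 3, b % 3, by omega, by omega⟩
  rcases hr with rfl | rfl | rfl
  · exact ⟨k, by omega⟩
  all_goals
    exfalso
    rcases hr' with rfl | rfl | rfl <;> (subst he; subst hb; ring_nf at h; omega)

/-! ### The descent -/

/-- Dividing a solution of the concordant system by a common prime factor of `a` and `e`. -/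
lemma C41_descend {p a e b c : ℤ} (hp : Prime p) (hpa : p ∣ a) (hpe : p ∣ e) (he : e ≠ 0)
    (h1 : a ^ 2 = e ^ 2 + b ^ 2) (h2 : a ^ 2 = 81 * e ^ 2 + c ^ 2) :
    ∃ a' e' b' c' : ℤ, e' ≠ 0 ∧ e'.natAbs < e.natAbs ∧ a' ^ 2 = e' ^ 2 + b' ^ 2 ∧
      a' ^ 2 = 81 * e' ^ 2 + c' ^ 2 := by
  have hpb : p ∣ b := by
    have : p ∣ b ^ 2 := by
      have hb : b ^ 2 = a ^ 2 - e ^ 2 := by linarith
      rw [hb]
      exact dvd_sub (dvd_pow hpa two_ne_zero) (dvd_pow hpe two_ne_zero)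
    exact hp.dvd_of_dvd_pow this
  have hpc : p ∣ c := by
    have : p ∣ c ^ 2 := by
      have hc : c ^ 2 = a ^ 2 - 81 * e ^ 2 := by linarith
      rw [hc]
      exact dvd_sub (dvd_pow hpa two_ne_zero)
        (dvd_mul_of_dvd_right (dvd_pow hpe two_ne_zero) _)
    exact hp.dvd_of_dvd_pow this
  obtain ⟨a', rfl⟩ := hpa
  obtain ⟨e', rfl⟩ := hpe
  obtain ⟨b', rfl⟩ := hpb
  obtain ⟨c', rfl⟩ := hpc
  have hp0 : p ≠ 0 := hp.ne_zero
  have he' : e' ≠ 0 := by
    rintro rfl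
    simp at he
  have hp2 : p ^ 2 ≠ 0 := pow_ne_zero 2 hp0
  refine ⟨a', e', b', c', he', ?_, ?_, ?_⟩
  · rw [Int.natAbs_mul]
    have hp2 : 2 ≤ p.natAbs := (Int.prime_iff_natAbs_prime.mp hp).two_le
    have : 0 < e'.natAbs := Int.natAbs_pos.mpr he'
    nlinarith
  · apply mul_left_cancel₀ hp2
    linear_combination h1
  · apply mul_left_cancel₀ hp2
    linear_combination h2

lemma C41_step {e u v w k s t z : ℤ} (hu : u = k * s ^ 2) (hv : v = k * t ^ 2)
    (hw : w = k * z ^ 2) (h1 : u * (v - w) = e ^ 2) (h2 : v * (u - w) = 81 * e ^ 2) :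
    (k * s * t) ^ 2 = e ^ 2 + (k * s * z) ^ 2 ∧
      (k * s * t) ^ 2 = 81 * e ^ 2 + (k * t * z) ^ 2 := by
  subst hu hv hw
  constructor
  · linear_combination h1
  · linear_combination h2

lemma C41_finish {e u V W k s t z : ℤ} (he : e ≠ 0) (hu1 : 1 < u) (hu : u = k * s ^ 2)
    (hv : V = k * t ^ 2) (hw : W = k * z ^ 2) (h1 : u * (V - W) = e ^ 2)
    (h2 : V * (u - W) = 81 * e ^ 2) :
    ∃ a' e' b' c' : ℤ, e' ≠ 0 ∧ e'.natAbs < e.natAbs ∧ a' ^ 2 = e' ^ 2 + b' ^ 2 ∧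
      a' ^ 2 = 81 * e' ^ 2 + c' ^ 2 := by
  obtain ⟨p, hp, hpu⟩ := Int.exists_prime_and_dvd (n := u) (by omega)
  have hpe : p ∣ e := hp.dvd_of_dvd_pow (h1 ▸ Dvd.dvd.mul_right hpu _)
  have hpA : p ∣ k * s * t := by
    rw [hu] at hpu
    rcases hp.dvd_or_dvd hpu with h | h
    · exact Dvd.dvd.mul_right (Dvd.dvd.mul_right h s) t
    · exact Dvd.dvd.mul_right (Dvd.dvd.mul_left (hp.dvd_of_dvd_pow h) k) t
  obtain ⟨h1', h2'⟩ := C41_step hu hv hw h1 h2
  exact C41_descend hp hpA hpe he h1' h2'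

/-- The descent step in the normalised situation (`a, b, c ≥ 0`, `e > 0`, `gcd(a, e) = 1`). -/
lemma C41_main_pos {a e b c : ℤ} (he : 0 < e) (ha : 0 ≤ a) (hb : 0 ≤ b) (hc : 0 ≤ c)
    (hae : IsCoprime a e) (h1 : a ^ 2 = e ^ 2 + b ^ 2) (h2 : a ^ 2 = 81 * e ^ 2 + c ^ 2) :
    ∃ a' e' b' c' : ℤ, e' ≠ 0 ∧ e'.natAbs < e.natAbs ∧ a' ^ 2 = e' ^ 2 + b' ^ 2 ∧
      a' ^ 2 = 81 * e' ^ 2 + c' ^ 2 := by
  have he0 : e ≠ 0 := he.ne'
  have he2 : 0 < e ^ 2 := by positivity
  -- order facts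
  have hcb : c < b := by nlinarith
  have hba : b < a := by nlinarith
  have hca : c < a := by omega
  have hb1 : 1 ≤ b := by omega
  -- coprimality facts
  have hab : IsCoprime a b := by
    apply isCoprime_of_prime_dvd (fun h => by omega)
    intro p hp hpa hpb
    have : p ∣ e ^ 2 := by
      have h' : e ^ 2 = a ^ 2 - b ^ 2 := by linarith
      rw [h']
      exact dvd_sub (dvd_pow hpa two_ne_zero) (dvd_pow hpb two_ne_zero)
    exact hp.not_isUnit (hae.isUnit_of_dvd' hpa (hp.dvd_of_dvd_pow this))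
  have hbe : IsCoprime b e := by
    apply isCoprime_of_prime_dvd (fun h => he0 h.2)
    intro p hp hpb hpe
    have : p ∣ a ^ 2 := by
      rw [h1]
      exact dvd_add (dvd_pow hpe two_ne_zero) (dvd_pow hpb two_ne_zero)
    exact hp.not_isUnit (hae.isUnit_of_dvd' (hp.dvd_of_dvd_pow this) hpe)
  have h3a : ¬ (3 : ℤ) ∣ a := by
    rintro ⟨a₁, ha₁⟩
    have h3e : (3 : ℤ) ∣ e := C41_three_dvd (m := 3 * a₁ ^ 2) (by rw [← h1, ha₁]; ring)
    exact Int.prime_three.not_isUnit (hae.isUnit_of_dvd' ⟨a₁, ha₁⟩ h3e)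
  have hac : IsCoprime a c := by
    apply isCoprime_of_prime_dvd (fun h => by omega)
    intro p hp hpa hpc
    have h81 : p ∣ 3 ^ 4 * e ^ 2 := by
      have h' : (3 : ℤ) ^ 4 * e ^ 2 = a ^ 2 - c ^ 2 := by linarith
      rw [h']
      exact dvd_sub (dvd_pow hpa two_ne_zero) (dvd_pow hpc two_ne_zero)
    rcases hp.dvd_or_dvd h81 with h | h
    · have h3 : p ∣ (3 : ℤ) := hp.dvd_of_dvd_pow h
      have h3' : (3 : ℤ) ∣ p := ((hp.dvd_prime_iff_associated Int.prime_three).mp h3).symm.dvd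
      exact h3a (h3'.trans hpa)
    · exact hp.not_isUnit (hae.isUnit_of_dvd' hpa (hp.dvd_of_dvd_pow h))
  -- `a` is odd
  have ha2 : ¬ (2 : ℤ) ∣ a := by
    intro h2a
    have h2e : ¬ (2 : ℤ) ∣ e := fun h => Int.prime_two.not_isUnit (hae.isUnit_of_dvd' h2a h)
    obtain ⟨a₁, ha₁⟩ := h2a
    obtain ⟨te, hte⟩ := C41_odd_sq h2e
    rcases Int.even_or_odd' b with ⟨k, hk | hk⟩
    · rw [ha₁, hk, hte] at h1
      ring_nf at h1
      omega
    · rw [ha₁, hk, hte] at h1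
      ring_nf at h1
      omega
  obtain ⟨ta, hta⟩ := C41_odd_sq ha2
  by_cases h2e : (2 : ℤ) ∣ e
  · -- `e` even, `b`, `c` odd
    obtain ⟨e₁, he₁⟩ := h2e
    have hb2 : ¬ (2 : ℤ) ∣ b := by
      rintro ⟨k, hk⟩
      rw [hta, he₁, hk] at h1
      ring_nf at h1
      omega
    have hc2 : ¬ (2 : ℤ) ∣ c := by
      rintro ⟨k, hk⟩
      rw [hta, he₁, hk] at h2
      ring_nf at h2
      omega
    obtain ⟨u₁, hu₁⟩ : ∃ u₁, a + b = 2 * u₁ := ⟨(a + b) / 2, by omega⟩
    obtain ⟨u₂, hu₂⟩ : ∃ u₂, a - b = 2 * u₂ := ⟨(a - b) / 2, by omega⟩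
    obtain ⟨v₁, hv₁⟩ : ∃ v₁, a + c = 2 * v₁ := ⟨(a + c) / 2, by omega⟩
    obtain ⟨v₂, hv₂⟩ : ∃ v₂, a - c = 2 * v₂ := ⟨(a - c) / 2, by omega⟩
    obtain ⟨w₁, hw₁⟩ : ∃ w₁, b + c = 2 * w₁ := ⟨(b + c) / 2, by omega⟩
    obtain ⟨w₂, hw₂⟩ : ∃ w₂, b - c = 2 * w₂ := ⟨(b - c) / 2, by omega⟩
    have hbc : IsCoprime b c := by
      apply isCoprime_of_prime_dvd (fun h => by omega)
      intro p hp hpb hpc
      have hpe : IsCoprime p e := hbe.of_isCoprime_of_dvd_left hpb
      have hp2 : IsCoprime p 2 := (C41_coprime_two hb2).of_isCoprime_of_dvd_left hpb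
      have h80 : p * p ∣ 5 * (2 ^ 4 * e ^ 2) := by
        obtain ⟨x, hx⟩ := hpb
        obtain ⟨y, hy⟩ := hpc
        refine ⟨x ^ 2 - y ^ 2, ?_⟩
        rw [hx] at h1
        rw [hy] at h2
        linear_combination h1 - h2
      have hcop : IsCoprime (p * p) (2 ^ 4 * e ^ 2) :=
        ((hp2.mul_left hp2).pow_right).mul_right ((hpe.mul_left hpe).pow_right)
      have h5' : p * p ∣ 5 := hcop.dvd_of_dvd_mul_right h80
      exact hp.not_isUnit (C41_prime_five.squarefree p h5')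
    have hu12 : IsCoprime u₁ u₂ := C41_coprime_half hab hu₁ hu₂
    have hv12 : IsCoprime v₁ v₂ := C41_coprime_half hac hv₁ hv₂
    have hw12 : IsCoprime w₁ w₂ := C41_coprime_half hbc hw₁ hw₂
    have eu : u₁ * u₂ = e₁ ^ 2 := by
      have h4 : (2 * u₁) * (2 * u₂) = (2 * e₁) ^ 2 := by
        rw [← hu₁, ← hu₂, ← he₁]
        linear_combination h1
      linarith
    have ev : v₁ * v₂ = (9 * e₁) ^ 2 := by
      have h4 : (2 * v₁) * (2 * v₂) = 81 * (2 * e₁) ^ 2 := by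
        rw [← hv₁, ← hv₂, ← he₁]
        linear_combination h2
      linarith
    have ew : w₁ * w₂ = 5 * (4 * e₁) ^ 2 := by
      have h4 : (2 * w₁) * (2 * w₂) = 80 * (2 * e₁) ^ 2 := by
        rw [← hw₁, ← hw₂, ← he₁]
        linear_combination h2 - h1
      linarith
    obtain ⟨s, hs⟩ := C41_sq_of_coprime hu12 (by omega) eu
    obtain ⟨t, ht⟩ := C41_sq_of_coprime hv12 (by omega) ev
    obtain ⟨t', ht'⟩ := C41_sq_of_coprime hv12.symm (by omega) (by rw [mul_comm]; exact ev)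
    rcases C41_sq_or_sq_of_coprime_five hw12 (by omega) (by omega) ew with ⟨z, hz⟩ | ⟨z, hz⟩
    · exact C41_finish (u := a + b) (V := a + c) (W := b + c) (k := 2) (s := s) (t := t)
        (z := z) he0 (by omega) (by rw [hu₁, hs]) (by rw [hv₁, ht]) (by rw [hw₁, hz])
        (by linear_combination h1) (by linear_combination h2)
    · exact C41_finish (u := a + b) (V := a - c) (W := b - c) (k := 2) (s := s) (t := t')
        (z := z) he0 (by omega) (by rw [hu₁, hs]) (by rw [hv₂, ht']) (by rw [hw₂, hz])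
        (by linear_combination h1) (by linear_combination h2)
  · -- `e` odd, `4 ∣ b`, `4 ∣ c`
    obtain ⟨te, hte⟩ := C41_odd_sq h2e
    have hb4 : (4 : ℤ) ∣ b := C41_four_dvd_of_sq (t := ta - te) (by linarith)
    have hc4 : (4 : ℤ) ∣ c := C41_four_dvd_of_sq (t := ta - 81 * te - 10) (by linarith)
    obtain ⟨b₂, hb₂⟩ := hb4
    obtain ⟨c₂, hc₂⟩ := hc4
    obtain ⟨ku, hku⟩ : ∃ k, a + b = 2 * k + 1 := ⟨(a + b) / 2, by omega⟩
    obtain ⟨kv, hkv⟩ : ∃ k, a + c = 2 * k + 1 := ⟨(a + c) / 2, by omega⟩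
    have hu12 : IsCoprime (a + b) (a - b) := C41_coprime_add_sub_of_odd hab hku
    have hv12 : IsCoprime (a + c) (a - c) := C41_coprime_add_sub_of_odd hac hkv
    obtain ⟨s, hs⟩ := C41_sq_of_coprime hu12 (by omega)
      (show (a + b) * (a - b) = e ^ 2 by linear_combination h1)
    obtain ⟨t, ht⟩ := C41_sq_of_coprime hv12 (by omega)
      (show (a + c) * (a - c) = (9 * e) ^ 2 by linear_combination h2)
    obtain ⟨t', ht'⟩ := C41_sq_of_coprime hv12.symm (by omega)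
      (show (a - c) * (a + c) = (9 * e) ^ 2 by linear_combination h2)
    have e5 : (b₂ + c₂) * (b₂ - c₂) = 5 * e ^ 2 := by
      have h16 : 16 * ((b₂ + c₂) * (b₂ - c₂)) = 16 * (5 * e ^ 2) := by
        rw [hb₂] at h1
        rw [hc₂] at h2
        linear_combination h2 - h1
      linarith
    have hbc₂ : IsCoprime b₂ c₂ := by
      apply isCoprime_of_prime_dvd (fun h => by omega)
      intro p hp hpb hpc
      have hpe : IsCoprime p e :=
        hbe.of_isCoprime_of_dvd_left (hb₂ ▸ Dvd.dvd.mul_left hpb 4)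
      have h5 : p * p ∣ 5 * e ^ 2 := by
        rw [← e5]
        obtain ⟨x, hx⟩ := hpb
        obtain ⟨y, hy⟩ := hpc
        exact ⟨(x + y) * (x - y), by rw [hx, hy]; ring⟩
      have h5' : p * p ∣ 5 := ((hpe.mul_left hpe).pow_right).dvd_of_dvd_mul_right h5
      exact hp.not_isUnit (C41_prime_five.squarefree p h5')
    obtain ⟨kw, hkw⟩ : ∃ k, b₂ + c₂ = 2 * k + 1 := by
      rcases Int.even_or_odd' (b₂ + c₂) with ⟨k, hk | hk⟩
      · exfalso
        rw [hk, hte] at e5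
        have h' : 2 * (k * (b₂ - c₂)) = 40 * te + 5 := by linarith
        omega
      · exact ⟨k, hk⟩
    have hw12 : IsCoprime (b₂ + c₂) (b₂ - c₂) := C41_coprime_add_sub_of_odd hbc₂ hkw
    rcases C41_sq_or_sq_of_coprime_five hw12 (by omega) (by omega) e5 with ⟨z, hz⟩ | ⟨z, hz⟩
    · exact C41_finish (u := a + b) (V := a + c) (W := b + c) (k := 1) (s := s) (t := t)
        (z := 2 * z) he0 (by omega) (by rw [hs]; ring) (by rw [ht]; ring)
        (by rw [hb₂, hc₂]; linear_combination 4 * hz)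
        (by linear_combination h1) (by linear_combination h2)
    · exact C41_finish (u := a + b) (V := a - c) (W := b - c) (k := 1) (s := s) (t := t')
        (z := 2 * z) he0 (by omega) (by rw [hs]; ring) (by rw [ht']; ring)
        (by rw [hb₂, hc₂]; linear_combination 4 * hz)
        (by linear_combination h1) (by linear_combination h2)

/-- The descent step, general form. -/
lemma C41_exists_smaller {a e b c : ℤ} (he : e ≠ 0) (h1 : a ^ 2 = e ^ 2 + b ^ 2)
    (h2 : a ^ 2 = 81 * e ^ 2 + c ^ 2) :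
    ∃ a' e' b' c' : ℤ, e' ≠ 0 ∧ e'.natAbs < e.natAbs ∧ a' ^ 2 = e' ^ 2 + b' ^ 2 ∧
      a' ^ 2 = 81 * e' ^ 2 + c' ^ 2 := by
  by_cases hc : IsCoprime a e
  swap
  · have hex : ∃ p : ℤ, Prime p ∧ p ∣ a ∧ p ∣ e := by
      by_contra hne
      simp only [not_exists, not_and] at hne
      exact hc (isCoprime_of_prime_dvd (fun h => he h.2)
        (fun z hz hza hze => hne z hz hza hze))
    obtain ⟨p, hp, hpa, hpe⟩ := hex
    exact C41_descend hp hpa hpe he h1 h2
  · have hc' : IsCoprime |a| |e| := by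
      rcases abs_choice a with h | h <;> rcases abs_choice e with h' | h' <;> rw [h, h']
      · exact hc
      · exact hc.neg_right
      · exact hc.neg_left
      · exact hc.neg_neg
    have he' : 0 < |e| := abs_pos.mpr he
    have := C41_main_pos (a := |a|) (e := |e|) (b := |b|) (c := |c|) he' (abs_nonneg a)
      (abs_nonneg b) (abs_nonneg c) hc' (by simpa only [sq_abs] using h1)
      (by simpa only [sq_abs] using h2)
    simpa only [Int.natAbs_abs] using this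

/-- The concordant system `a² = e² + b²`, `a² = 81 e² + c²` has no integer solution with
`e ≠ 0`. -/
theorem C41_no_concordant_int (a e b c : ℤ) (he : e ≠ 0) (h1 : a ^ 2 = e ^ 2 + b ^ 2)
    (h2 : a ^ 2 = 81 * e ^ 2 + c ^ 2) : False := by
  suffices H : ∀ (n : ℕ) (a e b c : ℤ), e.natAbs = n → e ≠ 0 → a ^ 2 = e ^ 2 + b ^ 2 →
      a ^ 2 = 81 * e ^ 2 + c ^ 2 → False from H _ a e b c rfl he h1 h2
  intro n
  induction n using Nat.strong_induction_on with
  | _ n ih =>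
    intro a e b c hn he h1 h2
    obtain ⟨a', e', b', c', he', hlt, h1', h2'⟩ := C41_exists_smaller he h1 h2
    exact ih e'.natAbs (hn ▸ hlt) a' e' b' c' rfl he' h1' h2'

/-- Rational form: there is no rational `r` such that `r² - 1` and `r² - 81` are both
squares. -/
theorem C41_no_concordant (r s t : ℚ) (h1 : r ^ 2 - 1 = s ^ 2) (h2 : r ^ 2 - 81 = t ^ 2) :
    False := by
  have hr : (r.num : ℚ) = r * r.den := (Rat.mul_den_eq_num r).symm
  have hs : (s.num : ℚ) = s * s.den := (Rat.mul_den_eq_num s).symm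
  have ht : (t.num : ℚ) = t * t.den := (Rat.mul_den_eq_num t).symm
  have hD : ((r.den : ℤ) * s.den * t.den) ≠ 0 := by
    have h1 := r.den_ne_zero
    have h2 := s.den_ne_zero
    have h3 := t.den_ne_zero
    positivity
  refine C41_no_concordant_int (r.num * s.den * t.den) ((r.den : ℤ) * s.den * t.den)
    (s.num * r.den * t.den) (t.num * r.den * s.den) hD ?_ ?_
  · have : ((r.num * s.den * t.den : ℤ) : ℚ) ^ 2 =
        (((r.den : ℤ) * s.den * t.den : ℤ) : ℚ) ^ 2 +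
          ((s.num * r.den * t.den : ℤ) : ℚ) ^ 2 := by
      push_cast
      rw [hr, hs]
      linear_combination ((r.den : ℚ) * s.den * t.den) ^ 2 * h1
    exact_mod_cast this
  · have : ((r.num * s.den * t.den : ℤ) : ℚ) ^ 2 =
        81 * (((r.den : ℤ) * s.den * t.den : ℤ) : ℚ) ^ 2 +
          ((t.num * r.den * s.den : ℤ) : ℚ) ^ 2 := by
      push_cast
      rw [hr, ht]
      linear_combination ((r.den : ℚ) * s.den * t.den) ^ 2 * h2
    exact_mod_cast this

/-- Every rational point of `Y² = X (X - 1) (X - 81)` is a 2-torsion point. -/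
theorem C41_Eprime (X Y : ℚ) (h : Y ^ 2 = X * (X - 1) * (X - 81)) : Y = 0 := by
  by_contra hY
  have h2Y : (2 * Y) ≠ 0 := mul_ne_zero two_ne_zero hY
  apply C41_no_concordant ((X ^ 2 - 81) / (2 * Y)) ((X ^ 2 - 2 * X + 81) / (2 * Y))
    ((X ^ 2 - 162 * X + 81) / (2 * Y))
  · have h' : (X ^ 2 - 81) ^ 2 - 1 * (2 * Y) ^ 2 = (X ^ 2 - 2 * X + 81) ^ 2 := by
      linear_combination (-4) * h
    rw [div_pow, div_pow, ← h', sub_div, mul_div_assoc, div_self (pow_ne_zero 2 h2Y), mul_one]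
  · have h' : (X ^ 2 - 81) ^ 2 - 81 * (2 * Y) ^ 2 = (X ^ 2 - 162 * X + 81) ^ 2 := by
      linear_combination (-324) * h
    rw [div_pow, div_pow, ← h', sub_div, mul_div_assoc, div_self (pow_ne_zero 2 h2Y), mul_one]

/-- **Part C.** The rational points of `y² = x (x + 16) (x + 25)`. -/
theorem C_rational_points (x y : ℚ) (h : y ^ 2 = x * (x + 16) * (x + 25)) :
    x = 0 ∨ x = -16 ∨ x = -25 ∨ x = 20 ∨ x = -20 := by
  by_cases hx : x = 0
  · exact Or.inl hx
  have hx2 : x ^ 2 ≠ 0 := pow_ne_zero 2 hx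
  have hY := C41_Eprime (y ^ 2 / x ^ 2) (y * (400 - x ^ 2) / x ^ 2) (by
    field_simp
    linear_combination (-(y ^ 2) * (y ^ 2 + x * (x + 16) * (x + 25) - 82 * x ^ 2)) * h)
  rw [div_eq_zero_iff] at hY
  rcases hY with hY | hY
  · rcases mul_eq_zero.mp hY with hy | hx400
    · rw [hy] at h
      have h0 : x * (x + 16) * (x + 25) = 0 := by rw [← h]; ring
      rcases mul_eq_zero.mp h0 with h0 | h0
      · rcases mul_eq_zero.mp h0 with h0 | h0
        · exact Or.inl h0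
        · exact Or.inr (Or.inl (by linarith))
      · exact Or.inr (Or.inr (Or.inl (by linarith)))
    · have h20 : (x - 20) * (x + 20) = 0 := by linear_combination -hx400
      rcases mul_eq_zero.mp h20 with h0 | h0
      · exact Or.inr (Or.inr (Or.inr (Or.inl (by linarith))))
      · exact Or.inr (Or.inr (Or.inr (Or.inr (by linarith))))
  · exact absurd hY hx2

/-- Alias with the name announced in the team plan. -/
theorem rational_points_15a (x y : ℚ) (h : y ^ 2 = x * (x + 16) * (x + 25)) :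
    x = 0 ∨ x = -16 ∨ x = -25 ∨ x = 20 ∨ x = -20 :=
  C_rational_points x y h

end Fermat.Agent.S51
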