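import Mathlib

set_option autoImplicit false
set_option linter.unusedSectionVars false

namespace Fermat.Agent.S51

open WeierstrassCurve

section dup

variable {F : Type*} [Field F] [DecidableEq F] (W : WeierstrassCurve F)

/-- `M1(x) = 4x^3 + b2 x^2 + 2 b4 x + b6`, the square of `ψ₂` as a polynomial in `x`. -/
def A5_M1 (x : F) : F := 4 * x ^ 3 + W.b₂ * x ^ 2 + 2 * W.b₄ * x + W.b₆

/-- `N1(x) = x^4 - b4 x^2 - 2 b6 x - b8`, the numerator of the duplication map. -/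
def A5_N1 (x : F) : F := x ^ 4 - W.b₄ * x ^ 2 - 2 * W.b₆ * x - W.b₈

/-- `ψ₃(x) = 3x^4 + b2 x^3 + 3 b4 x^2 + 3 b6 x + b8`. -/
def A5_psi3 (x : F) : F := 3 * x ^ 4 + W.b₂ * x ^ 3 + 3 * W.b₄ * x ^ 2 + 3 * W.b₆ * x + W.b₈

lemma A5_psi3_eq (x : F) : A5_psi3 W x = x * A5_M1 W x - A5_N1 W x := by
  unfold A5_psi3 A5_M1 A5_N1; ring

lemma A5_M1_eq_sq {x y : F} (h : W.toAffine.Equation x y) :
    A5_M1 W x = (2 * y + W.a₁ * x + W.a₃) ^ 2 := by
  rw [Affine.equation_iff] at h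
  unfold A5_M1
  simp only [b₂, b₄, b₆]
  linear_combination (-4) * h

lemma A5_negY_ne_iff {x y : F} : y ≠ W.toAffine.negY x y ↔ 2 * y + W.a₁ * x + W.a₃ ≠ 0 := by
  rw [Affine.negY]
  constructor
  · intro h h0; apply h; linear_combination h0
  · intro h h0; apply h; linear_combination h0

/-- Duplication formula on `x`-coordinates. -/
lemma A5_dup {x y : F} (h : W.toAffine.Equation x y) (hy : y ≠ W.toAffine.negY x y) :
    W.toAffine.addX x x (W.toAffine.slope x x y y) * A5_M1 W x = A5_N1 W x := by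
  have hne : 2 * y + W.a₁ * x + W.a₃ ≠ 0 := (A5_negY_ne_iff W).1 hy
  rw [Affine.slope_of_Y_ne rfl hy, A5_M1_eq_sq W h]
  rw [Affine.equation_iff] at h
  have hd : y - W.toAffine.negY x y = 2 * y + W.a₁ * x + W.a₃ := by
    rw [Affine.negY]; ring
  rw [hd]
  set d := 2 * y + W.a₁ * x + W.a₃ with hd_def
  set n := 3 * x ^ 2 + 2 * W.a₂ * x + W.a₄ - W.a₁ * y with hn_def
  have key : n ^ 2 + W.a₁ * n * d - (W.a₂ + 2 * x) * d ^ 2 = A5_N1 W x := by
    unfold A5_N1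
    simp only [b₄, b₆, b₈, hd_def, hn_def]
    linear_combination (-8 * x - W.a₁ ^ 2 - 4 * W.a₂) * h
  have : W.toAffine.addX x x (n / d) = (n ^ 2 + W.a₁ * n * d - (W.a₂ + 2 * x) * d ^ 2) / d ^ 2 := by
    simp only [Affine.addX]
    field_simp
    ring
  rw [this, div_mul_cancel₀ _ (pow_ne_zero 2 hne), key]

end dup

end Fermat.Agent.S51
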