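import Mathlib
import Fermat.Agent.S51.A5Dup

set_option autoImplicit false
set_option linter.unusedSectionVars false

namespace Fermat.Agent.S51

open WeierstrassCurve Polynomial

section xc

variable {F : Type*} [Field F] [DecidableEq F] (W : WeierstrassCurve F)

/-- The `x`-coordinate of a point, with junk value `0` at the point at infinity. -/
def A5_xc : W.toAffine.Point → F
  | .zero => 0
  | .some x _ _ => x

/-- The `y`-coordinate of a point, with junk value `0` at the point at infinity. -/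
def A5_yc : W.toAffine.Point → F
  | .zero => 0
  | .some _ y _ => y

@[simp] lemma A5_xc_some {x y : F} (h : W.toAffine.Nonsingular x y) :
    A5_xc W (.some x y h) = x := rfl

@[simp] lemma A5_yc_some {x y : F} (h : W.toAffine.Nonsingular x y) :
    A5_yc W (.some x y h) = y := rfl

lemma A5_xc_neg (P : W.toAffine.Point) : A5_xc W (-P) = A5_xc W P := by
  cases P <;> rfl

lemma A5_xc_eq_iff {P Q : W.toAffine.Point} (hP : P ≠ 0) (hQ : Q ≠ 0) :
    A5_xc W P = A5_xc W Q ↔ P = Q ∨ P = -Q := by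
  rcases P with _ | ⟨x₁, y₁, h₁⟩
  · exact absurd rfl hP
  rcases Q with _ | ⟨x₂, y₂, h₂⟩
  · exact absurd rfl hQ
  exact Affine.Point.X_eq_iff

lemma A5_equation_of_ne_zero {P : W.toAffine.Point} (hP : P ≠ 0) :
    W.toAffine.Equation (A5_xc W P) (A5_yc W P) := by
  rcases P with _ | ⟨x₁, y₁, h₁⟩
  · exact absurd rfl hP
  · exact h₁.1

lemma A5_ext {P Q : W.toAffine.Point} (hP : P ≠ 0) (hQ : Q ≠ 0)
    (hx : A5_xc W P = A5_xc W Q) (hy : A5_yc W P = A5_yc W Q) : P = Q := by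
  rcases P with _ | ⟨x₁, y₁, h₁⟩
  · exact absurd rfl hP
  rcases Q with _ | ⟨x₂, y₂, h₂⟩
  · exact absurd rfl hQ
  simp only [A5_xc_some, A5_yc_some] at hx hy
  subst hx hy
  rfl

/-- Doubling a point whose double is nonzero. -/
lemma A5_two_nsmul {P : W.toAffine.Point} (h2 : 2 • P ≠ 0) :
    P ≠ 0 ∧ A5_M1 W (A5_xc W P) ≠ 0 ∧
      A5_xc W (2 • P) * A5_M1 W (A5_xc W P) = A5_N1 W (A5_xc W P) := by
  rcases P with _ | ⟨x, y, h⟩
  · exact absurd (smul_zero 2) h2
  · have hy : y ≠ W.toAffine.negY x y := by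
      intro hy
      apply h2
      rw [two_nsmul]
      exact Affine.Point.add_self_of_Y_eq hy
    refine ⟨Affine.Point.some_ne_zero _, ?_, ?_⟩
    · rw [A5_xc_some, A5_M1_eq_sq W h.1]
      exact pow_ne_zero 2 ((A5_negY_ne_iff W).1 hy)
    · rw [two_nsmul, Affine.Point.add_self_of_Y_ne hy]
      exact A5_dup W h.1 hy

/-- The relations satisfied by the `x`-coordinates of a nonzero `5`-torsion point. -/
lemma A5_five_torsion_rel {P : W.toAffine.Point} (hP : P ≠ 0) (h5 : 5 • P = 0) :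
    A5_xc W P ≠ A5_xc W (2 • P) ∧ A5_M1 W (A5_xc W P) ≠ 0 ∧ A5_M1 W (A5_xc W (2 • P)) ≠ 0 ∧
      A5_xc W (2 • P) * A5_M1 W (A5_xc W P) = A5_N1 W (A5_xc W P) ∧
      A5_xc W P * A5_M1 W (A5_xc W (2 • P)) = A5_N1 W (A5_xc W (2 • P)) := by
  have h2 : 2 • P ≠ 0 := by
    intro h
    apply hP
    have : P = 5 • P - 2 • (2 • P) := by
      rw [← mul_nsmul]
      have : (5 : ℕ) • P = (2 * 2) • P + P := by
        rw [← succ_nsmul]
      rw [this]; abel
    rw [this, h5, h]; simp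
  have h4' : (4 : ℕ) • P = 2 • (2 • P) := by rw [← mul_nsmul]
  have h4n : (4 : ℕ) • P = -P := by
    have : (5 : ℕ) • P = 4 • P + P := by rw [← succ_nsmul]
    rw [this] at h5
    exact eq_neg_of_add_eq_zero_left h5
  have h4 : 2 • (2 • P) ≠ 0 := by
    rw [← h4', h4n]
    exact neg_ne_zero.2 hP
  obtain ⟨-, hM1, hrel1⟩ := A5_two_nsmul W h2
  obtain ⟨-, hM2, hrel2⟩ := A5_two_nsmul W h4
  rw [← h4', h4n, A5_xc_neg] at hrel2
  refine ⟨?_, hM1, hM2, hrel1, hrel2⟩
  intro hx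
  rcases (A5_xc_eq_iff W hP h2).1 hx with h | h
  · -- P = 2 • P
    apply hP
    have : P = 2 • P - P := by rw [two_nsmul]; abel
    rw [this, ← h]; simp
  · -- P = -(2 • P), so 3 • P = 0
    apply hP
    have h3 : (3 : ℕ) • P = 0 := by
      have : (3 : ℕ) • P = 2 • P + P := by rw [← succ_nsmul]
      rw [this]
      nth_rewrite 2 [h]
      simp
    have : P = 2 • (3 • P) - 5 • P := by
      rw [← mul_nsmul]
      have : ((3 * 2 : ℕ)) • P = 5 • P + P := by rw [← succ_nsmul]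
      rw [this]; abel
    rw [this, h3, h5]; simp

end xc

section poly

variable {K : Type*} [Field K] (b2 b4 b6 b8 : K)

/-- The numerator polynomial of the duplication map. -/
noncomputable def A5_Npoly : K[X] := X ^ 4 - C b4 * X ^ 2 - C (2 * b6) * X - C b8

/-- The denominator polynomial of the duplication map. -/
noncomputable def A5_Mpoly : K[X] := C 4 * X ^ 3 + C b2 * X ^ 2 + C (2 * b4) * X + C b6

/-- A degree `16` polynomial vanishing at the `x`-coordinates of all nonzero `5`-torsion points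
(the numerator of `D(D(x)) - x`, where `D` is the duplication map). -/
noncomputable def A5_Phi : K[X] :=
  (A5_Npoly b4 b6 b8) ^ 4 - C b4 * (A5_Npoly b4 b6 b8) ^ 2 * (A5_Mpoly b2 b4 b6) ^ 2
    - C (2 * b6) * (A5_Npoly b4 b6 b8) * (A5_Mpoly b2 b4 b6) ^ 3 - C b8 * (A5_Mpoly b2 b4 b6) ^ 4
    - X * (A5_Mpoly b2 b4 b6) * (C 4 * (A5_Npoly b4 b6 b8) ^ 3
        + C b2 * (A5_Npoly b4 b6 b8) ^ 2 * (A5_Mpoly b2 b4 b6)
        + C (2 * b4) * (A5_Npoly b4 b6 b8) * (A5_Mpoly b2 b4 b6) ^ 2 + C b6 * (A5_Mpoly b2 b4 b6) ^ 3)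

lemma A5_Phi_natDegree [CharZero K] : (A5_Phi b2 b4 b6 b8).natDegree = 16 := by
  unfold A5_Phi A5_Npoly A5_Mpoly
  compute_degree!

lemma A5_Phi_ne_zero [CharZero K] : A5_Phi b2 b4 b6 b8 ≠ 0 := by
  intro h
  have := A5_Phi_natDegree b2 b4 b6 b8
  rw [h, natDegree_zero] at this
  omega

lemma A5_Phi_eval (x : K) : (A5_Phi b2 b4 b6 b8).eval x =
    (x ^ 4 - b4 * x ^ 2 - 2 * b6 * x - b8) ^ 4
      - b4 * (x ^ 4 - b4 * x ^ 2 - 2 * b6 * x - b8) ^ 2 * (4 * x ^ 3 + b2 * x ^ 2 + 2 * b4 * x + b6) ^ 2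
      - 2 * b6 * (x ^ 4 - b4 * x ^ 2 - 2 * b6 * x - b8) * (4 * x ^ 3 + b2 * x ^ 2 + 2 * b4 * x + b6) ^ 3
      - b8 * (4 * x ^ 3 + b2 * x ^ 2 + 2 * b4 * x + b6) ^ 4
      - x * (4 * x ^ 3 + b2 * x ^ 2 + 2 * b4 * x + b6) *
        (4 * (x ^ 4 - b4 * x ^ 2 - 2 * b6 * x - b8) ^ 3
          + b2 * (x ^ 4 - b4 * x ^ 2 - 2 * b6 * x - b8) ^ 2 * (4 * x ^ 3 + b2 * x ^ 2 + 2 * b4 * x + b6)
          + 2 * b4 * (x ^ 4 - b4 * x ^ 2 - 2 * b6 * x - b8) * (4 * x ^ 3 + b2 * x ^ 2 + 2 * b4 * x + b6) ^ 2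
          + b6 * (4 * x ^ 3 + b2 * x ^ 2 + 2 * b4 * x + b6) ^ 3) := by
  unfold A5_Phi A5_Npoly A5_Mpoly
  simp only [eval_sub, eval_add, eval_mul, eval_pow, eval_X, eval_C]

end poly

section bound

variable {F : Type*} [Field F] [DecidableEq F] (W : WeierstrassCurve F)

lemma A5_Phi_eval_eq_zero {P : W.toAffine.Point} (hP : P ≠ 0) (h5 : 5 • P = 0) :
    (A5_Phi W.b₂ W.b₄ W.b₆ W.b₈).eval (A5_xc W P) = 0 := by
  obtain ⟨-, -, -, hrel1, hrel2⟩ := A5_five_torsion_rel W hP h5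
  rw [A5_Phi_eval]
  unfold A5_M1 A5_N1 at hrel1 hrel2
  set x₁ := A5_xc W P
  set x₂ := A5_xc W (2 • P)
  set m := 4 * x₁ ^ 3 + W.b₂ * x₁ ^ 2 + 2 * W.b₄ * x₁ + W.b₆
  rw [← hrel1]
  linear_combination (-(m ^ 4)) * hrel2


/-- The quadratic polynomial in `y` cutting out the points with given `x`-coordinate. -/
noncomputable def A5_ypoly (x : F) : F[X] :=
  X ^ 2 + C (W.a₁ * x + W.a₃) * X - C (x ^ 3 + W.a₂ * x ^ 2 + W.a₄ * x + W.a₆)

lemma A5_ypoly_natDegree (x : F) : (A5_ypoly W x).natDegree = 2 := by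
  unfold A5_ypoly
  compute_degree!

lemma A5_ypoly_ne_zero (x : F) : A5_ypoly W x ≠ 0 := by
  intro h
  have := A5_ypoly_natDegree W x
  rw [h, natDegree_zero] at this
  omega

lemma A5_ypoly_eval_eq_zero {x y : F} (h : W.toAffine.Equation x y) :
    (A5_ypoly W x).eval y = 0 := by
  rw [Affine.equation_iff] at h
  unfold A5_ypoly
  simp only [eval_sub, eval_add, eval_mul, eval_pow, eval_X, eval_C]
  linear_combination h

/-- A finite set containing the coordinates of all nonzero `5`-torsion points. -/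
noncomputable def A5_S : Finset (F × F) :=
  (A5_Phi W.b₂ W.b₄ W.b₆ W.b₈).roots.toFinset.biUnion
    (fun x => (A5_ypoly W x).roots.toFinset.image (fun y => (x, y)))

lemma A5_S_card_le [CharZero F] : (A5_S W).card ≤ 32 := by
  unfold A5_S
  refine le_trans Finset.card_biUnion_le ?_
  have h1 : ∀ x ∈ (A5_Phi W.b₂ W.b₄ W.b₆ W.b₈).roots.toFinset,
      ((A5_ypoly W x).roots.toFinset.image (fun y => (x, y))).card ≤ 2 := by
    intro x _
    refine le_trans Finset.card_image_le ?_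
    refine le_trans (Multiset.toFinset_card_le _) ?_
    refine le_trans (Polynomial.card_roots' _) ?_
    rw [A5_ypoly_natDegree]
  refine le_trans (Finset.sum_le_card_nsmul _ _ 2 h1) ?_
  have h2 : (A5_Phi W.b₂ W.b₄ W.b₆ W.b₈).roots.toFinset.card ≤ 16 := by
    refine le_trans (Multiset.toFinset_card_le _) ?_
    refine le_trans (Polynomial.card_roots' _) ?_
    rw [A5_Phi_natDegree]
  rw [smul_eq_mul]
  omega

lemma A5_mem_S [CharZero F] {P : W.toAffine.Point} (hP : P ≠ 0) (h5 : 5 • P = 0) :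
    (A5_xc W P, A5_yc W P) ∈ A5_S W := by
  unfold A5_S
  rw [Finset.mem_biUnion]
  refine ⟨A5_xc W P, ?_, ?_⟩
  · rw [Multiset.mem_toFinset, Polynomial.mem_roots (A5_Phi_ne_zero _ _ _ _)]
    exact A5_Phi_eval_eq_zero W hP h5
  · rw [Finset.mem_image]
    refine ⟨A5_yc W P, ?_, rfl⟩
    rw [Multiset.mem_toFinset, Polynomial.mem_roots (A5_ypoly_ne_zero W _)]
    exact A5_ypoly_eval_eq_zero W (A5_equation_of_ne_zero W hP)

lemma A5_mem_torsionBy_five {P : W.toAffine.Point} :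
    P ∈ Submodule.torsionBy ℤ W.toAffine.Point ((5 : ℕ) : ℤ) ↔ 5 • P = 0 := by
  rw [Submodule.mem_torsionBy_iff, natCast_zsmul]

/-- The map used to bound the number of `5`-torsion points. -/
noncomputable def A5_toOption [CharZero F]
    (P : Submodule.torsionBy ℤ W.toAffine.Point ((5 : ℕ) : ℤ)) : Option (A5_S W) :=
  if h : (P : W.toAffine.Point) = 0 then none
  else some ⟨(A5_xc W P, A5_yc W P), A5_mem_S W h ((A5_mem_torsionBy_five W).1 P.2)⟩

lemma A5_toOption_injective [CharZero F] : Function.Injective (A5_toOption W) := by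
  intro P Q h
  unfold A5_toOption at h
  by_cases hP : (P : W.toAffine.Point) = 0
  · by_cases hQ : (Q : W.toAffine.Point) = 0
    · exact Subtype.ext (hP.trans hQ.symm)
    · rw [dif_pos hP, dif_neg hQ] at h
      exact absurd h (by simp)
  · by_cases hQ : (Q : W.toAffine.Point) = 0
    · rw [dif_neg hP, dif_pos hQ] at h
      exact absurd h (by simp)
    · rw [dif_neg hP, dif_neg hQ] at h
      have h' := congrArg Subtype.val (Option.some.inj h)
      simp only [Prod.mk.injEq] at h'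
      exact Subtype.ext (A5_ext W hP hQ h'.1 h'.2)

instance A5_finite_torsion [CharZero F] :
    Finite (Submodule.torsionBy ℤ W.toAffine.Point ((5 : ℕ) : ℤ)) :=
  Finite.of_injective _ (A5_toOption_injective W)

/-- There are at most `33` points of `5`-torsion. -/
theorem A5_card_torsion_le [CharZero F] :
    Nat.card (Submodule.torsionBy ℤ W.toAffine.Point ((5 : ℕ) : ℤ)) ≤ 33 := by
  refine le_trans (Nat.card_le_card_of_injective _ (A5_toOption_injective W)) ?_
  rw [Nat.card_eq_fintype_card, Fintype.card_option, Fintype.card_coe]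
  have := A5_S_card_le W
  omega

end bound

end Fermat.Agent.S51
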