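import Mathlib

set_option autoImplicit false

namespace Fermat.Agent.S51

/-- In a finite `ZMod p`-module with fewer than `p ^ 3` elements, every proper nonzero submodule
is a line: it is generated by a single nonzero element, and every element is a natural multiple
of the generator. -/
theorem A5_exists_span_singleton {p : ℕ} [Fact p.Prime] {T : Type*} [AddCommGroup T]
    [Module (ZMod p) T] [Finite T] (hcard : Nat.card T < p ^ 3)
    (N : Submodule (ZMod p) T) (h0 : N ≠ ⊥) (h1 : N ≠ ⊤) :
    ∃ P ∈ N, P ≠ 0 ∧ ∀ Q ∈ N, ∃ k : ℕ, Q = k • P := by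
  have hp : p.Prime := Fact.out
  have : Module.Finite (ZMod p) T := Module.Finite.of_finite
  have hT : Module.finrank (ZMod p) T < 3 := by
    have h := Module.natCard_eq_pow_finrank (K := ZMod p) (V := T)
    rw [Nat.card_zmod] at h
    rw [h] at hcard
    exact (Nat.pow_lt_pow_iff_right hp.one_lt).1 hcard
  have hN : Module.finrank (ZMod p) N < Module.finrank (ZMod p) T :=
    Submodule.finrank_lt h1
  have hN0 : 0 < Module.finrank (ZMod p) N := by
    rw [Module.finrank_pos_iff_exists_ne_zero]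
    obtain ⟨x, hx, hx0⟩ := (Submodule.ne_bot_iff N).1 h0
    exact ⟨⟨x, hx⟩, fun h => hx0 (congrArg Subtype.val h)⟩
  have hN1 : Module.finrank (ZMod p) N = 1 := by omega
  obtain ⟨v, hv, hgen⟩ := finrank_eq_one_iff'.1 hN1
  refine ⟨v.1, v.2, fun h => hv (Subtype.ext h), fun Q hQ => ?_⟩
  obtain ⟨c, hc⟩ := hgen ⟨Q, hQ⟩
  refine ⟨c.val, ?_⟩
  have h2 : (c • v : N).1 = Q := congrArg Subtype.val hc
  rw [← h2, Submodule.coe_smul]
  have h3 : ((c.val : ℕ) : ZMod p) = c := ZMod.natCast_zmod_val c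
  conv_lhs => rw [← h3]
  rw [Nat.cast_smul_eq_nsmul]

end Fermat.Agent.S51
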