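import Mathlib

/-!
# S51 helper: existence of a nonzero `5`-torsion point (and a `3`-torsion point)

For a Weierstrass curve `W` with `W.Δ ≠ 0` over an algebraically closed field of characteristic
zero there is a nonzero point `P` with `5 • P = 0`.

All declarations are prefixed `E5_` and live in `Fermat.Agent.S51`.

Notation: `E5_M1 W x = 4x³ + b₂x² + 2b₄x + b₆` (`= (2y + a₁x + a₃)²` on the curve) and
`E5_N1 W x = x⁴ - b₄x² - 2b₆x - b₈`, so that `x(2P) * E5_M1 W x(P) = E5_N1 W x(P)`.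
-/

set_option autoImplicit false

namespace Fermat.Agent.S51

open WeierstrassCurve Polynomial

variable {K : Type*} [Field K]

/-- `ψ₂² = 4x³ + b₂x² + 2b₄x + b₆`. -/
def E5_M1 (W : WeierstrassCurve K) (x : K) : K :=
  4 * x ^ 3 + W.b₂ * x ^ 2 + 2 * W.b₄ * x + W.b₆

/-- The numerator of the duplication formula `x⁴ - b₄x² - 2b₆x - b₈`. -/
def E5_N1 (W : WeierstrassCurve K) (x : K) : K :=
  x ^ 4 - W.b₄ * x ^ 2 - 2 * W.b₆ * x - W.b₈

theorem E5_M1_eq (W : WeierstrassCurve K) {x y : K} (h : W.toAffine.Equation x y) :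
    E5_M1 W x = (y - W.toAffine.negY x y) ^ 2 := by
  rw [Affine.equation_iff] at h
  simp only [E5_M1, b₂, b₄, b₆, Affine.negY]
  linear_combination (-4) * h

theorem E5_N1_eq (W : WeierstrassCurve K) {x y : K} (h : W.toAffine.Equation x y) :
    E5_N1 W x = (3 * x ^ 2 + 2 * W.a₂ * x + W.a₄ - W.a₁ * y) ^ 2 +
      W.a₁ * (3 * x ^ 2 + 2 * W.a₂ * x + W.a₄ - W.a₁ * y) * (y - W.toAffine.negY x y) -
      (W.a₂ + 2 * x) * (y - W.toAffine.negY x y) ^ 2 := by
  rw [Affine.equation_iff] at h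
  simp only [E5_N1, b₄, b₆, b₈, Affine.negY]
  linear_combination (W.a₁ ^ 2 + 4 * W.a₂ + 8 * x) * h

/-- The duplication formula for the `x`-coordinate. -/
theorem E5_addX_mul_M1 [DecidableEq K] (W : WeierstrassCurve K) {x y : K}
    (h : W.toAffine.Equation x y) (hy : y ≠ W.toAffine.negY x y) :
    W.toAffine.addX x x (W.toAffine.slope x x y y) * E5_M1 W x = E5_N1 W x := by
  have hd : y - W.toAffine.negY x y ≠ 0 := sub_ne_zero.mpr hy
  rw [Affine.slope_of_Y_ne rfl hy, E5_M1_eq W h, E5_N1_eq W h, Affine.addX]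
  field_simp
  ring

/-- If `M1` vanishes at the `x`-coordinate of a nonsingular point, then `N1` does not. -/
theorem E5_N1_ne_zero_of_M1_eq_zero (W : WeierstrassCurve K) {x y : K}
    (h : W.toAffine.Nonsingular x y) (hM : E5_M1 W x = 0) : E5_N1 W x ≠ 0 := by
  have heq := h.1
  rw [E5_M1_eq W heq] at hM
  have hd : y - W.toAffine.negY x y = 0 := by simpa using hM
  rw [E5_N1_eq W heq, hd]
  rw [Affine.nonsingular_iff'] at h
  have h2 : 2 * y + W.a₁ * x + W.a₃ = 0 := by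
    have : y - W.toAffine.negY x y = 2 * y + W.a₁ * x + W.a₃ := by
      simp only [Affine.negY]; ring
    rw [← this]; exact hd
  have h1 : W.a₁ * y - (3 * x ^ 2 + 2 * W.a₂ * x + W.a₄) ≠ 0 := by
    rcases h.2 with h' | h'
    · exact h'
    · exact absurd h2 h'
  have h3 : 3 * x ^ 2 + 2 * W.a₂ * x + W.a₄ - W.a₁ * y ≠ 0 := by
    intro h0
    apply h1
    linear_combination -h0
  simpa using h3

section AlgClosed

variable [IsAlgClosed K]

/-- A quadratic with nonzero leading coefficient has a root over an algebraically closed field. -/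
theorem E5_exists_quadratic_root (a b c : K) (ha : a ≠ 0) : ∃ x : K, a * x ^ 2 + b * x + c = 0 := by
  have hdeg : (C a * X ^ 2 + C b * X + C c : K[X]).degree ≠ 0 := by
    have : (C a * X ^ 2 + C b * X + C c : K[X]).degree = 2 := by
      compute_degree!
    rw [this]; norm_num
  obtain ⟨x, hx⟩ := IsAlgClosed.exists_root _ hdeg
  refine ⟨x, ?_⟩
  simpa using hx

/-- Every `x` is the `x`-coordinate of a point of the curve. -/
theorem E5_exists_y (W : WeierstrassCurve K) (x : K) : ∃ y : K, W.toAffine.Equation x y := by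
  obtain ⟨y, hy⟩ := E5_exists_quadratic_root (1 : K) (W.a₁ * x + W.a₃)
    (-(x ^ 3 + W.a₂ * x ^ 2 + W.a₄ * x + W.a₆)) one_ne_zero
  refine ⟨y, ?_⟩
  rw [Affine.equation_iff]
  linear_combination hy

/-- The sextic obtained by eliminating `t` from the two `5`-torsion equations has a root. -/
theorem E5_exists_sextic_root [CharZero K] (W : WeierstrassCurve K) :
    ∃ s : K, (s ^ 4 - W.b₄ * s ^ 2 - 3 * W.b₆ * s - 2 * W.b₈) * (6 * s + W.b₂) ^ 2 +
      (-8 * s ^ 2 - W.b₂ * s - 2 * W.b₄) * (s ^ 3 - W.b₄ * s - W.b₆) * (6 * s + W.b₂) +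
      10 * (s ^ 3 - W.b₄ * s - W.b₆) ^ 2 = 0 := by
  let Φ : K[X] := C (-2 : K) * X ^ 6 + C (-2 * W.b₂) * X ^ 5 + C (-20 * W.b₄) * X ^ 4 +
    C (-80 * W.b₆) * X ^ 3 + C (-22 * W.b₂ * W.b₆ + 22 * W.b₄ ^ 2 - 72 * W.b₈) * X ^ 2 +
    C (-2 * W.b₂ ^ 2 * W.b₆ + 2 * W.b₂ * W.b₄ ^ 2 - 24 * W.b₂ * W.b₈ + 32 * W.b₄ * W.b₆) * X +
    C (-2 * W.b₂ ^ 2 * W.b₈ + 2 * W.b₂ * W.b₄ * W.b₆ + 10 * W.b₆ ^ 2)
  have hdeg : Φ.degree ≠ 0 := by
    have : Φ.degree = 6 := by
      simp only [Φ]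
      compute_degree!
    rw [this]; norm_num
  obtain ⟨s, hs⟩ := IsAlgClosed.exists_root Φ hdeg
  refine ⟨s, ?_⟩
  have hs' : Φ.eval s = 0 := hs
  simp only [Φ, eval_add, eval_mul, eval_C, eval_pow, eval_X] at hs'
  linear_combination hs'

/-- Existence of a solution of the two `5`-torsion equations `(I5a)`, `(I5b)` in
`s = x(P) + x(2P)`, `t = x(P) x(2P)`. -/
theorem E5_exists_st [CharZero K] (W : WeierstrassCurve K) :
    ∃ s t : K, s ^ 3 - 6 * s * t - W.b₂ * t - W.b₄ * s - W.b₆ = 0 ∧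
      s ^ 4 - 8 * s ^ 2 * t + 10 * t ^ 2 - W.b₂ * s * t - W.b₄ * s ^ 2 - 2 * W.b₄ * t
        - 3 * W.b₆ * s - 2 * W.b₈ = 0 := by
  obtain ⟨s, hs⟩ := E5_exists_sextic_root W
  by_cases hL : 6 * s + W.b₂ = 0
  · -- special case: `(I5a)` holds for every `t`
    have hg : s ^ 3 - W.b₄ * s - W.b₆ = 0 := by
      rw [hL] at hs
      have h10 : (10 : K) * (s ^ 3 - W.b₄ * s - W.b₆) ^ 2 = 0 := by linear_combination hs
      have : (s ^ 3 - W.b₄ * s - W.b₆) ^ 2 = 0 := by
        rcases mul_eq_zero.mp h10 with h | h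
        · exact absurd h (by norm_num)
        · exact h
      exact pow_eq_zero_iff (two_ne_zero) |>.mp this
    obtain ⟨t, ht⟩ := E5_exists_quadratic_root (10 : K) (-8 * s ^ 2 - W.b₂ * s - 2 * W.b₄)
      (s ^ 4 - W.b₄ * s ^ 2 - 3 * W.b₆ * s - 2 * W.b₈) (by norm_num)
    refine ⟨s, t, ?_, ?_⟩
    · linear_combination hg - t * hL
    · linear_combination ht
  · have ht : (s ^ 3 - W.b₄ * s - W.b₆) / (6 * s + W.b₂) * (6 * s + W.b₂) =
        s ^ 3 - W.b₄ * s - W.b₆ := div_mul_cancel₀ _ hL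
    set t := (s ^ 3 - W.b₄ * s - W.b₆) / (6 * s + W.b₂) with ht_def
    refine ⟨s, t, ?_, ?_⟩
    · linear_combination -ht
    · have h2 : (6 * s + W.b₂) ^ 2 * (s ^ 4 - 8 * s ^ 2 * t + 10 * t ^ 2 - W.b₂ * s * t
          - W.b₄ * s ^ 2 - 2 * W.b₄ * t - 3 * W.b₆ * s - 2 * W.b₈) = 0 := by
        linear_combination hs + ((-8 * s ^ 2 - W.b₂ * s - 2 * W.b₄) * (6 * s + W.b₂) +
          10 * (t * (6 * s + W.b₂) + (s ^ 3 - W.b₄ * s - W.b₆))) * ht
      rcases mul_eq_zero.mp h2 with h | h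
      · exact absurd (pow_eq_zero_iff two_ne_zero |>.mp h) hL
      · exact h

/-- A two-cycle `x₁ ↦ x₂ ↦ x₁`, `x₁ ≠ x₂`, of the duplication map on `x`-coordinates gives a
point of exact order `5`. -/
theorem E5_five_torsion_of_two_cycle [DecidableEq K] (W : WeierstrassCurve K) (hΔ : W.Δ ≠ 0)
    {x₁ x₂ : K} (hne : x₁ ≠ x₂) (hM₁ : E5_M1 W x₁ ≠ 0) (hM₂ : E5_M1 W x₂ ≠ 0)
    (hE1 : E5_N1 W x₁ = x₂ * E5_M1 W x₁) (hE2 : E5_N1 W x₂ = x₁ * E5_M1 W x₂) :
    ∃ P : W.toAffine.Point, P ≠ 0 ∧ (5 : ℕ) • P = 0 := by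
  obtain ⟨y₁, hy₁⟩ := E5_exists_y W x₁
  have hns₁ : W.toAffine.Nonsingular x₁ y₁ :=
    (Affine.equation_iff_nonsingular_of_Δ_ne_zero hΔ).mp hy₁
  -- doubling a point with nonvanishing `M1`
  have key : ∀ {x y x' : K} (h : W.toAffine.Nonsingular x y), E5_M1 W x ≠ 0 →
      E5_N1 W x = x' * E5_M1 W x →
      ∃ (y' : K) (h' : W.toAffine.Nonsingular x' y'),
        Affine.Point.some x y h + Affine.Point.some x y h = Affine.Point.some x' y' h' := by
    intro x y x' h hM hE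
    have hd : y ≠ W.toAffine.negY x y := by
      intro h0
      apply hM
      rw [E5_M1_eq W h.1, ← h0, sub_self]
      ring
    have hX : W.toAffine.addX x x (W.toAffine.slope x x y y) = x' := by
      have := E5_addX_mul_M1 W h.1 hd
      rw [hE] at this
      exact mul_right_cancel₀ hM this
    have h2 := Affine.Point.add_self_of_Y_ne (h₁ := h) hd
    clear hE
    subst hX
    exact ⟨_, _, h2⟩
  obtain ⟨y₂, hns₂, h2P⟩ := key hns₁ hM₁ hE1
  obtain ⟨y₃, hns₃, h4P⟩ := key hns₂ hM₂ hE2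
  set P : W.toAffine.Point := Affine.Point.some x₁ y₁ hns₁ with hP
  refine ⟨P, Affine.Point.some_ne_zero hns₁, ?_⟩
  have h5 : (5 : ℕ) • P = (P + P) + (P + P) + P := by
    rw [show (5 : ℕ) = 1 + 1 + (1 + 1) + 1 from rfl]
    simp only [add_nsmul, one_nsmul]
  rw [h5, h2P, h4P]
  rcases (Affine.Point.X_eq_iff (h₁ := hns₃) (h₂ := hns₁)).mp rfl with h | h
  · -- `4P = P`, so `3P = 0` and `x(2P) = x(P)`: contradiction
    exfalso
    have h3 : (P + P) + P = 0 := by
      have h4 : (P + P) + (P + P) = P := by rw [h2P, h4P, h]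
      rw [← sub_eq_zero] at h4
      rw [← h4]
      abel
    have h2 : P + P = -P := eq_neg_of_add_eq_zero_left h3
    rw [h2P, hP, Affine.Point.neg_some] at h2
    have hx : x₂ = x₁ := by
      injection h2
    exact hne hx.symm
  · rw [h]
    exact neg_add_cancel _

/-- **Existence of a nonzero `5`-torsion point** on a Weierstrass curve with `Δ ≠ 0` over an
algebraically closed field of characteristic zero. -/
theorem E5_exists_five_torsion [CharZero K] [DecidableEq K] (W : WeierstrassCurve K)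
    (hΔ : W.Δ ≠ 0) : ∃ P : W.toAffine.Point, P ≠ 0 ∧ (5 : ℕ) • P = 0 := by
  obtain ⟨s, t, ha, hb⟩ := E5_exists_st W
  obtain ⟨x₁, hx₁⟩ := E5_exists_quadratic_root (1 : K) (-s) t one_ne_zero
  obtain ⟨x₂, hs, ht⟩ : ∃ x₂ : K, x₁ + x₂ = s ∧ x₁ * x₂ = t :=
    ⟨s - x₁, by ring, by linear_combination -hx₁⟩
  subst hs ht
  have hE1 : E5_N1 W x₁ = x₂ * E5_M1 W x₁ := by
    have h2 : (2 : K) * (E5_N1 W x₁ - x₂ * E5_M1 W x₁) = 0 := by
      simp only [E5_N1, E5_M1]
      linear_combination hb + (x₁ - x₂) * ha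
    have := (mul_eq_zero.mp h2).resolve_left two_ne_zero
    exact sub_eq_zero.mp this
  have hE2 : E5_N1 W x₂ = x₁ * E5_M1 W x₂ := by
    have h2 : (2 : K) * (E5_N1 W x₂ - x₁ * E5_M1 W x₂) = 0 := by
      simp only [E5_N1, E5_M1]
      linear_combination hb - (x₁ - x₂) * ha
    have := (mul_eq_zero.mp h2).resolve_left two_ne_zero
    exact sub_eq_zero.mp this
  have hM : ∀ {x x' : K}, E5_N1 W x = x' * E5_M1 W x → E5_M1 W x ≠ 0 := by
    intro x x' hE h0
    obtain ⟨y, hy⟩ := E5_exists_y W x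
    have hns : W.toAffine.Nonsingular x y :=
      (Affine.equation_iff_nonsingular_of_Δ_ne_zero hΔ).mp hy
    exact E5_N1_ne_zero_of_M1_eq_zero W hns h0 (by rw [hE, h0, mul_zero])
  have hne : x₁ ≠ x₂ := by
    intro h
    subst h
    apply hM hE1
    simp only [E5_M1]
    linear_combination -ha
  exact E5_five_torsion_of_two_cycle W hΔ hne (hM hE1) (hM hE2) hE1 hE2

/-- **Existence of a nonzero `3`-torsion point** on a Weierstrass curve with `Δ ≠ 0` over an
algebraically closed field of characteristic zero; its `x`-coordinate is a root of `ψ₃`. -/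
theorem E5_exists_three_torsion [CharZero K] [DecidableEq K] (W : WeierstrassCurve K)
    (hΔ : W.Δ ≠ 0) : ∃ (x y : K) (h : W.toAffine.Nonsingular x y),
      3 * x ^ 4 + W.b₂ * x ^ 3 + 3 * W.b₄ * x ^ 2 + 3 * W.b₆ * x + W.b₈ = 0 ∧
      (3 : ℕ) • (Affine.Point.some x y h : W.toAffine.Point) = 0 := by
  have hdeg : (C (3 : K) * X ^ 4 + C W.b₂ * X ^ 3 + C (3 * W.b₄) * X ^ 2 + C (3 * W.b₆) * X
      + C W.b₈ : K[X]).degree ≠ 0 := by
    have : (C (3 : K) * X ^ 4 + C W.b₂ * X ^ 3 + C (3 * W.b₄) * X ^ 2 + C (3 * W.b₆) * X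
      + C W.b₈ : K[X]).degree = 4 := by
      compute_degree!
    rw [this]; norm_num
  obtain ⟨x, hx⟩ := IsAlgClosed.exists_root _ hdeg
  have hψ : 3 * x ^ 4 + W.b₂ * x ^ 3 + 3 * W.b₄ * x ^ 2 + 3 * W.b₆ * x + W.b₈ = 0 := by
    have hx' := hx
    simp only [IsRoot.def, eval_add, eval_mul, eval_C, eval_pow, eval_X] at hx'
    linear_combination hx'
  obtain ⟨y, hy⟩ := E5_exists_y W x
  have hns : W.toAffine.Nonsingular x y :=
    (Affine.equation_iff_nonsingular_of_Δ_ne_zero hΔ).mp hy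
  have hE : E5_N1 W x = x * E5_M1 W x := by
    simp only [E5_N1, E5_M1]
    linear_combination -hψ
  have hM : E5_M1 W x ≠ 0 := fun h0 =>
    E5_N1_ne_zero_of_M1_eq_zero W hns h0 (by rw [hE, h0, mul_zero])
  have hd : y ≠ W.toAffine.negY x y := by
    intro h0
    apply hM
    rw [E5_M1_eq W hy, ← h0, sub_self]
    ring
  have hX : W.toAffine.addX x x (W.toAffine.slope x x y y) = x := by
    have := E5_addX_mul_M1 W hy hd
    rw [hE] at this
    exact mul_right_cancel₀ hM this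
  refine ⟨x, y, hns, hψ, ?_⟩
  have h2 := Affine.Point.add_self_of_Y_ne (h₁ := hns) hd
  set P : W.toAffine.Point := Affine.Point.some x y hns with hP
  have h3 : (3 : ℕ) • P = (P + P) + P := by
    rw [show (3 : ℕ) = 1 + 1 + 1 from rfl]
    simp only [add_nsmul, one_nsmul]
  rw [h3, h2]
  rcases (Affine.Point.X_eq_iff
    (h₁ := Affine.nonsingular_add hns hns fun hxy => hd hxy.right) (h₂ := hns)).mp hX with h | h
  · -- `2P = P` forces `P = 0`
    exfalso
    have h0 : P = 0 := by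
      have h4 : P + P = P := by rw [h2, h]
      exact add_eq_left.mp h4
    exact Affine.Point.some_ne_zero hns h0
  · rw [h]
    exact neg_add_cancel _

end AlgClosed

end Fermat.Agent.S51
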