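import Mathlib
import Fermat.Prelude.Def_FLTPrelim_GaloisRep
import Fermat.Agent.S51.A5Bound
import Fermat.Agent.S51.A5Line
import Fermat.Agent.S51.FiveTorsionExists

set_option autoImplicit false
set_option linter.unusedSectionVars false

open WeierstrassCurve WeierstrassCurve.Affine.Point
open scoped WeierstrassCurve.Affine

namespace Fermat.Agent.S51

local notation "Qb" => AlgebraicClosure ℚ

/-- An element of `Qbar` fixed by the whole Galois group is rational. -/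
lemma A5_fixed_mem_range (x : Qb) (h : ∀ σ : Qb ≃ₐ[ℚ] Qb, σ x = x) :
    x ∈ Set.range (algebraMap ℚ Qb) := by
  have : Algebra.IsAlgebraic ℚ Qb := AlgebraicClosure.isAlgebraic ℚ
  have : IsAlgClosure ℚ Qb := ⟨inferInstance, inferInstance⟩
  have : IsGalois ℚ Qb := inferInstance
  exact (InfiniteGalois.mem_range_algebraMap_iff_fixed x).2 h

section action

variable (W : WeierstrassCurve ℚ)

lemma A5_xc_smul (σ : Qb ≃ₐ[ℚ] Qb) (P : (W⁄Qb).Point) :
    A5_xc (W.baseChange Qb) (σ • P) = σ (A5_xc (W.baseChange Qb) P) := by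
  rcases P with _ | ⟨x, y, h⟩
  · change (0 : Qb) = σ 0
    rw [_root_.map_zero]
  · rfl

lemma A5_smul_nsmul (σ : Qb ≃ₐ[ℚ] Qb) (k : ℕ) (P : (W⁄Qb).Point) :
    σ • (k • P) = k • (σ • P) :=
  map_nsmul (Affine.Point.map (W' := W) σ.toAlgHom) k P

lemma A5_smul_eq_zero (σ : Qb ≃ₐ[ℚ] Qb) (P : (W⁄Qb).Point) (h : σ • P = 0) : P = 0 := by
  have : σ⁻¹ • (σ • P) = P := by rw [← mul_smul, inv_mul_cancel, one_smul]
  rw [← this, h]
  rfl

end action

section main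

variable (W : WeierstrassCurve ℚ)

/-- Core of `A5_main`: a nonzero `5`-torsion point all of whose Galois conjugates are multiples of
itself yields rational `s = x(P) + x(2P)` and `t = x(P) x(2P)` satisfying the two equations. -/
theorem A5_core (P : (W⁄Qb).Point) (hP : P ≠ 0) (h5 : 5 • P = 0)
    (hst : ∀ σ : Qb ≃ₐ[ℚ] Qb, ∃ k : ℕ, σ • P = k • P) :
    ∃ s t : ℚ, s ^ 3 - 6 * s * t - W.b₂ * t - W.b₄ * s - W.b₆ = 0 ∧
      s ^ 4 - 8 * s ^ 2 * t + 10 * t ^ 2 - W.b₂ * s * t - W.b₄ * s ^ 2 - 2 * W.b₄ * t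
        - 3 * W.b₆ * s - 2 * W.b₈ = 0 ∧ s ^ 2 ≠ 4 * t := by
  -- basic multiples
  have h4 : (4 : ℕ) • P = -P := by
    have : (5 : ℕ) • P = 4 • P + P := by rw [← succ_nsmul]
    rw [this] at h5
    exact eq_neg_of_add_eq_zero_left h5
  have h3 : (3 : ℕ) • P = -(2 • P) := by
    have : (5 : ℕ) • P = 3 • P + 2 • P := by rw [← add_nsmul]
    rw [this] at h5
    exact eq_neg_of_add_eq_zero_left h5
  have h6 : (6 : ℕ) • P = P := by
    have : (6 : ℕ) • P = 5 • P + P := by rw [← succ_nsmul]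
    rw [this, h5, zero_add]
  have h8 : (8 : ℕ) • P = -(2 • P) := by
    have : (8 : ℕ) • P = 5 • P + 3 • P := by rw [← add_nsmul]
    rw [this, h5, zero_add, h3]
  set x₁ : Qb := A5_xc (W.baseChange Qb) P with hx₁
  set x₂ : Qb := A5_xc (W.baseChange Qb) (2 • P) with hx₂
  have key : ∀ σ : Qb ≃ₐ[ℚ] Qb, (σ x₁ = x₁ ∧ σ x₂ = x₂) ∨ (σ x₁ = x₂ ∧ σ x₂ = x₁) := by
    intro σ
    obtain ⟨k, hk⟩ := hst σ
    have hmod : k • P = (k % 5) • P := by
      conv_lhs => rw [← Nat.div_add_mod k 5, add_nsmul, mul_nsmul, h5, nsmul_zero, zero_add]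
    rw [hmod] at hk
    have hr : k % 5 < 5 := Nat.mod_lt _ (by norm_num)
    have e1 : σ x₁ = A5_xc (W.baseChange Qb) (σ • P) := (A5_xc_smul W σ P).symm
    have e2 : σ x₂ = A5_xc (W.baseChange Qb) (2 • (σ • P)) := by
      rw [← A5_smul_nsmul, A5_xc_smul]
    rw [hk] at e1 e2
    rw [← mul_nsmul] at e2
    generalize k % 5 = r at hk hr e1 e2
    interval_cases r
    · exfalso
      rw [zero_nsmul] at hk
      exact hP (A5_smul_eq_zero W σ P hk)
    · left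
      rw [one_nsmul] at e1
      exact ⟨e1, e2⟩
    · right
      refine ⟨e1, ?_⟩
      rw [e2, show (2 * 2 : ℕ) = 4 from rfl, h4, A5_xc_neg]
    · right
      rw [h3, A5_xc_neg] at e1
      refine ⟨e1, ?_⟩
      rw [e2, show (3 * 2 : ℕ) = 6 from rfl, h6]
    · left
      rw [h4, A5_xc_neg] at e1
      refine ⟨e1, ?_⟩
      rw [e2, show (4 * 2 : ℕ) = 8 from rfl, h8, A5_xc_neg]
  -- rationality of `s` and `t`
  obtain ⟨s, hs⟩ := A5_fixed_mem_range (x₁ + x₂) (fun σ => by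
    rcases key σ with ⟨a, b⟩ | ⟨a, b⟩
    · rw [map_add, a, b]
    · rw [map_add, a, b, add_comm])
  obtain ⟨t, ht⟩ := A5_fixed_mem_range (x₁ * x₂) (fun σ => by
    rcases key σ with ⟨a, b⟩ | ⟨a, b⟩
    · rw [map_mul, a, b]
    · rw [map_mul, a, b, mul_comm])
  -- the relations
  obtain ⟨hne, -, -, hrel1, hrel2⟩ := A5_five_torsion_rel (W.baseChange Qb) hP h5
  rw [← hx₁, ← hx₂] at hne hrel1 hrel2
  unfold A5_M1 A5_N1 at hrel1 hrel2
  have hb2 : (W.baseChange Qb).b₂ = algebraMap ℚ Qb W.b₂ := WeierstrassCurve.map_b₂ W _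
  have hb4 : (W.baseChange Qb).b₄ = algebraMap ℚ Qb W.b₄ := WeierstrassCurve.map_b₄ W _
  have hb6 : (W.baseChange Qb).b₆ = algebraMap ℚ Qb W.b₆ := WeierstrassCurve.map_b₆ W _
  have hb8 : (W.baseChange Qb).b₈ = algebraMap ℚ Qb W.b₈ := WeierstrassCurve.map_b₈ W _
  rw [hb2, hb4, hb6] at hrel1 hrel2
  rw [hb8] at hrel1 hrel2
  have hinj := (algebraMap ℚ Qb).injective
  have hsub : x₁ - x₂ ≠ 0 := sub_ne_zero.2 hne
  refine ⟨s, t, ?_, ?_, ?_⟩
  · apply hinj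
    simp only [map_sub, map_mul, map_pow, map_ofNat, _root_.map_zero, hs, ht]
    apply mul_left_cancel₀ hsub
    linear_combination (-1) * hrel1 + hrel2
  · apply hinj
    simp only [map_sub, map_add, map_mul, map_pow, map_ofNat, _root_.map_zero, hs, ht]
    linear_combination (-1) * hrel1 - hrel2
  · intro h
    have h' := congrArg (algebraMap ℚ Qb) h
    simp only [map_mul, map_pow, map_ofNat, hs, ht] at h'
    apply hsub
    have : (x₁ - x₂) ^ 2 = 0 := by linear_combination h'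
    exact pow_eq_zero_iff (by norm_num) |>.1 this

/-- `A5_main`, assuming the existence of a nonzero `5`-torsion point over `Qbar`. -/
theorem A5_main_of_exists (hex : ∃ P : (W⁄Qb).Point, P ≠ 0 ∧ 5 • P = 0)
    (h : ¬ WeierstrassCurve.Affine.Point.GaloisRepIsIrreducible (K := AlgebraicClosure ℚ) ℚ W 5) :
    ∃ s t : ℚ, s ^ 3 - 6 * s * t - W.b₂ * t - W.b₄ * s - W.b₆ = 0 ∧
      s ^ 4 - 8 * s ^ 2 * t + 10 * t ^ 2 - W.b₂ * s * t - W.b₄ * s ^ 2 - 2 * W.b₄ * t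
        - 3 * W.b₆ * s - 2 * W.b₈ = 0 ∧ s ^ 2 ≠ 4 * t := by
  unfold WeierstrassCurve.Affine.Point.GaloisRepIsIrreducible at h
  have hnt : Nontrivial (Submodule.torsionBy ℤ (W⁄Qb).Point ((5 : ℕ) : ℤ)) := by
    obtain ⟨P, hP, h5⟩ := hex
    refine ⟨⟨⟨P, (A5_mem_torsionBy_five (W.baseChange Qb)).2 h5⟩, 0, ?_⟩⟩
    intro h
    exact hP (congrArg Subtype.val h)
  have h' : ¬ ∀ N : Submodule (ZMod 5) (Submodule.torsionBy ℤ (W⁄Qb).Point ((5 : ℕ) : ℤ)),
      IsGaloisStable ℚ N → N = ⊥ ∨ N = ⊤ := fun hall => h ⟨hnt, hall⟩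
  push Not at h'
  obtain ⟨N, hst, h0, h1⟩ := h'
  have : Fact (Nat.Prime 5) := ⟨by norm_num⟩
  have : Finite (Submodule.torsionBy ℤ (W⁄Qb).Point ((5 : ℕ) : ℤ)) :=
    A5_finite_torsion (W.baseChange Qb)
  have hcard : Nat.card (Submodule.torsionBy ℤ (W⁄Qb).Point ((5 : ℕ) : ℤ)) < 5 ^ 3 :=
    lt_of_le_of_lt (A5_card_torsion_le (W.baseChange Qb)) (by norm_num)
  obtain ⟨P₀, hP₀N, hP₀, hgen⟩ := A5_exists_span_singleton hcard N h0 h1
  refine A5_core W P₀.1 (fun h => hP₀ (Subtype.ext h))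
    ((A5_mem_torsionBy_five (W.baseChange Qb)).1 P₀.2) (fun σ => ?_)
  obtain ⟨k, hk⟩ := hgen (σ • P₀) (hst σ P₀ hP₀N)
  exact ⟨k, congrArg Subtype.val hk⟩

/-- **Part A (5-torsion) of S51**: a reducible mod-`5` representation of a Weierstrass curve over
`ℚ` with `Δ ≠ 0` gives rational symmetric functions `s = x(P) + x(2P)`, `t = x(P) x(2P)` of a
Galois-stable subgroup of order `5`. -/
theorem A5_main (hΔ : W.Δ ≠ 0)
    (h : ¬ WeierstrassCurve.Affine.Point.GaloisRepIsIrreducible (K := AlgebraicClosure ℚ) ℚ W 5) :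
    ∃ s t : ℚ, s ^ 3 - 6 * s * t - W.b₂ * t - W.b₄ * s - W.b₆ = 0 ∧
      s ^ 4 - 8 * s ^ 2 * t + 10 * t ^ 2 - W.b₂ * s * t - W.b₄ * s ^ 2 - 2 * W.b₄ * t
        - 3 * W.b₆ * s - 2 * W.b₈ = 0 ∧ s ^ 2 ≠ 4 * t := by
  have hΔ' : (W.baseChange Qb).Δ ≠ 0 := by
    have : (W.baseChange Qb).Δ = algebraMap ℚ Qb W.Δ := WeierstrassCurve.map_Δ W _
    rw [this]
    intro h0
    exact hΔ ((algebraMap ℚ Qb).injective (by rw [h0, _root_.map_zero]))
  obtain ⟨P, hP, h5⟩ := E5_exists_five_torsion (W.baseChange Qb) hΔ'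
  exact A5_main_of_exists W ⟨P, hP, h5⟩ h

end main

end Fermat.Agent.S51
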