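import Fermat.Agent.S51.A0

/-!
# S51, part A1/A2: existence and finiteness of 3- and 5-torsion over an algebraically closed field
-/

set_option autoImplicit false

namespace Fermat.Agent.S51

open WeierstrassCurve WeierstrassCurve.Affine Polynomial

section Card

variable {F : Type*} [Field F] [DecidableEq F] (E : Affine F)

lemma A_F5p_eval_eq_zero {P : E.Point} (hP : P ≠ 0) (h5 : 5 • P = 0) :
    (A_F5p E).eval (A_x P) = 0 := by
  obtain ⟨-, -, e1, e2⟩ := A_cycle_of_five_nsmul E hP h5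
  simp only [A_F5p, eval_sub, eval_mul, eval_pow, eval_add, eval_C, eval_X, A_eval_N1p,
    A_eval_M1p]
  rw [← e1]
  generalize A_M1 E (A_x P) = M
  simp only [A_M1, A_N1] at e2
  generalize A_x (2 • P) = x₂ at e2 ⊢
  linear_combination (-M ^ 4) * e2

lemma A_card_three (h3 : (3 : F) ≠ 0) :
    Finite (Submodule.torsionBy ℤ E.Point (3 : ℕ)) ∧
      Nat.card (Submodule.torsionBy ℤ E.Point (3 : ℕ)) ≤ 9 := by
  have h := A_card_torsion_le E 3 (A_psi3p E).roots.toFinset (fun P hP h3P => by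
    rw [Multiset.mem_toFinset, mem_roots (A_psi3p_ne_zero E h3), IsRoot.def, A_eval_psi3p]
    apply A_psi3_of_three_nsmul E hP
    rw [← natCast_zsmul]
    exact h3P)
  refine ⟨h.1, le_trans h.2 ?_⟩
  have : (A_psi3p E).roots.toFinset.card ≤ 4 :=
    le_trans (Multiset.toFinset_card_le _) (le_trans (card_roots' _) (A_psi3p_natDegree_le E))
  omega

lemma A_card_five (h15 : (15 : F) ≠ 0) :
    Finite (Submodule.torsionBy ℤ E.Point (5 : ℕ)) ∧
      Nat.card (Submodule.torsionBy ℤ E.Point (5 : ℕ)) ≤ 33 := by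
  have hne : A_F5p E ≠ 0 := by
    intro h
    have := A_F5p_natDegree E h15
    rw [h, natDegree_zero] at this
    exact absurd this (by norm_num)
  have h := A_card_torsion_le E 5 (A_F5p E).roots.toFinset (fun P hP h5P => by
    rw [Multiset.mem_toFinset, mem_roots hne, IsRoot.def]
    apply A_F5p_eval_eq_zero E hP
    rw [← natCast_zsmul]
    exact h5P)
  refine ⟨h.1, le_trans h.2 ?_⟩
  have : (A_F5p E).roots.toFinset.card ≤ 16 :=
    le_trans (Multiset.toFinset_card_le _) (le_trans (card_roots' _) (A_F5p_natDegree E h15).le)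
  omega

end Card

section Exist

variable {F : Type*} [Field F] [DecidableEq F] [IsAlgClosed F] (E : Affine F)

omit [DecidableEq F] in
/-- Over an algebraically closed field, every `x` is the `x`-coordinate of a point. -/
lemma A_exists_point (hΔ : E.Δ ≠ 0) (x : F) : ∃ P : E.Point, P ≠ 0 ∧ A_x P = x := by
  obtain ⟨y, hy⟩ := IsAlgClosed.exists_root (A_quadY E x) (by
    rw [degree_eq_natDegree (A_quadY_ne_zero E x), A_quadY_natDegree]
    norm_num)
  have heq : E.Equation x y := by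
    rw [equation_iff]
    simp only [A_quadY, IsRoot.def, eval_add, eval_pow, eval_X, eval_mul, eval_C] at hy
    linear_combination hy
  exact ⟨Point.some x y ((equation_iff_nonsingular_of_Δ_ne_zero hΔ).mp heq),
    Point.some_ne_zero _, rfl⟩

lemma A_exists_three (hΔ : E.Δ ≠ 0) (h3 : (3 : F) ≠ 0) :
    ∃ P : E.Point, P ≠ 0 ∧ 3 • P = 0 := by
  obtain ⟨x, hx⟩ := IsAlgClosed.exists_root (A_psi3p E) (by
    intro hdeg
    have hc : (A_psi3p E).coeff 4 = 3 := by
      unfold A_psi3p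
      simp only [coeff_add, coeff_C_mul, coeff_X_pow, coeff_X, coeff_C]
      norm_num
    have : (A_psi3p E).coeff 4 = 0 := by
      apply coeff_eq_zero_of_degree_lt
      rw [hdeg]
      exact_mod_cast (by norm_num : (0 : ℕ) < 4)
    rw [hc] at this
    exact h3 this)
  obtain ⟨P, hP, hPx⟩ := A_exists_point E hΔ x
  refine ⟨P, hP, A_three_nsmul_of_psi3 E hΔ hP ?_⟩
  rw [hPx, ← A_eval_psi3p]
  exact hx

/-- First relation between `s = x(P) + x(2P)` and `t = x(P) x(2P)` for a point of order 5. -/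
def A_I5a (s t : F) : F := s ^ 3 - 6 * s * t - E.b₂ * t - E.b₄ * s - E.b₆

/-- Second relation between `s = x(P) + x(2P)` and `t = x(P) x(2P)` for a point of order 5. -/
def A_I5b (s t : F) : F :=
  s ^ 4 - 8 * s ^ 2 * t + 10 * t ^ 2 - E.b₂ * s * t - E.b₄ * s ^ 2 - 2 * E.b₄ * t
    - 3 * E.b₆ * s - 2 * E.b₈

omit [DecidableEq F] [IsAlgClosed F] in
lemma A_I5a_mul (x₁ x₂ : F) :
    (x₁ - x₂) * A_I5a E (x₁ + x₂) (x₁ * x₂) =
      (A_N1 E x₁ - x₂ * A_M1 E x₁) - (A_N1 E x₂ - x₁ * A_M1 E x₂) := by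
  simp only [A_I5a, A_N1, A_M1]
  ring

omit [DecidableEq F] [IsAlgClosed F] in
lemma A_I5b_eq (x₁ x₂ : F) :
    A_I5b E (x₁ + x₂) (x₁ * x₂) =
      (A_N1 E x₁ - x₂ * A_M1 E x₁) + (A_N1 E x₂ - x₁ * A_M1 E x₂) := by
  simp only [A_I5b, A_N1, A_M1]
  ring

omit [IsAlgClosed F] in
/-- A point of order 5 gives a solution of the two relations. -/
lemma A_st_of_five_nsmul {P : E.Point} (hP : P ≠ 0) (h5 : 5 • P = 0) :
    A_I5a E (A_x P + A_x (2 • P)) (A_x P * A_x (2 • P)) = 0 ∧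
      A_I5b E (A_x P + A_x (2 • P)) (A_x P * A_x (2 • P)) = 0 ∧
      (A_x P + A_x (2 • P)) ^ 2 ≠ 4 * (A_x P * A_x (2 • P)) := by
  obtain ⟨-, hne, e1, e2⟩ := A_cycle_of_five_nsmul E hP h5
  have hne' : A_x P - A_x (2 • P) ≠ 0 := sub_ne_zero.mpr (Ne.symm hne)
  refine ⟨?_, ?_, ?_⟩
  · have := A_I5a_mul E (A_x P) (A_x (2 • P))
    rw [← e1, ← e2, sub_self, sub_self, sub_self] at this
    exact (mul_eq_zero.mp this).resolve_left hne'
  · rw [A_I5b_eq, ← e1, ← e2, sub_self, sub_self, add_zero]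
  · intro h
    apply hne'
    have : (A_x P - A_x (2 • P)) ^ 2 = 0 := by linear_combination h
    exact pow_eq_zero_iff (two_ne_zero) |>.mp this

/-- The sextic in `s` obtained by eliminating `t`. -/
noncomputable def A_G5p : F[X] :=
  (X ^ 4 - C E.b₄ * X ^ 2 - C (3 * E.b₆) * X - C (2 * E.b₈)) * (C 6 * X + C E.b₂) ^ 2
    - (C 8 * X ^ 2 + C E.b₂ * X + C (2 * E.b₄)) * (X ^ 3 - C E.b₄ * X - C E.b₆)
        * (C 6 * X + C E.b₂)
    + C 10 * (X ^ 3 - C E.b₄ * X - C E.b₆) ^ 2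

omit [DecidableEq F] [IsAlgClosed F] in
lemma A_G5p_natDegree (h2 : (2 : F) ≠ 0) : (A_G5p E).natDegree = 6 := by
  unfold A_G5p
  compute_degree!

omit [DecidableEq F] in
lemma A_exists_st (h2 : (2 : F) ≠ 0) (h5 : (5 : F) ≠ 0) :
    ∃ s t : F, A_I5a E s t = 0 ∧ A_I5b E s t = 0 := by
  have h10 : (10 : F) ≠ 0 := by
    have : (10 : F) = 2 * 5 := by norm_num
    rw [this]
    exact mul_ne_zero h2 h5
  obtain ⟨s, hs⟩ := IsAlgClosed.exists_root (A_G5p E) (by
    intro hdeg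
    have := natDegree_eq_of_degree_eq_some (n := 0) hdeg
    rw [A_G5p_natDegree E h2] at this
    exact absurd this (by norm_num))
  simp only [A_G5p, IsRoot.def, eval_sub, eval_mul, eval_pow, eval_add, eval_C, eval_X] at hs
  by_cases hV : 6 * s + E.b₂ = 0
  · -- degenerate case: `t` is a root of a quadratic
    have hU : s ^ 3 - E.b₄ * s - E.b₆ = 0 := by
      rw [hV] at hs
      have : 10 * (s ^ 3 - E.b₄ * s - E.b₆) ^ 2 = 0 := by linear_combination hs
      exact pow_eq_zero_iff (two_ne_zero) |>.mp ((mul_eq_zero.mp this).resolve_left h10)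
    obtain ⟨t, ht⟩ := IsAlgClosed.exists_root
      (C 10 * X ^ 2 + C (-(8 * s ^ 2 + E.b₂ * s + 2 * E.b₄)) * X
        + C (s ^ 4 - E.b₄ * s ^ 2 - 3 * E.b₆ * s - 2 * E.b₈) : F[X]) (by
      rw [degree_quadratic h10]
      norm_num)
    simp only [IsRoot.def, eval_mul, eval_pow, eval_add, eval_C, eval_X] at ht
    refine ⟨s, t, ?_, ?_⟩
    · simp only [A_I5a]
      linear_combination hU - t * hV
    · simp only [A_I5b]
      linear_combination ht
  · have htV : (s ^ 3 - E.b₄ * s - E.b₆) / (6 * s + E.b₂) * (6 * s + E.b₂)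
        = s ^ 3 - E.b₄ * s - E.b₆ := div_mul_cancel₀ _ hV
    generalize (s ^ 3 - E.b₄ * s - E.b₆) / (6 * s + E.b₂) = t at htV
    refine ⟨s, t, ?_, ?_⟩
    · simp only [A_I5a]
      linear_combination -htV
    · have hmul : (6 * s + E.b₂) ^ 2 * A_I5b E s t = 0 := by
        simp only [A_I5b]
        linear_combination hs + (10 * (t * (6 * s + E.b₂) + (s ^ 3 - E.b₄ * s - E.b₆))
          - (8 * s ^ 2 + E.b₂ * s + 2 * E.b₄) * (6 * s + E.b₂)) * htV
      exact (mul_eq_zero.mp hmul).resolve_left (pow_ne_zero 2 hV)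

lemma A_exists_five (hΔ : E.Δ ≠ 0) (h2 : (2 : F) ≠ 0) (h5 : (5 : F) ≠ 0) :
    ∃ P : E.Point, P ≠ 0 ∧ 5 • P = 0 := by
  obtain ⟨s, t, ha, hb⟩ := A_exists_st E h2 h5
  -- roots of `X^2 - s X + t`
  obtain ⟨x₁, hx₁⟩ := IsAlgClosed.exists_root (C 1 * X ^ 2 + C (-s) * X + C t : F[X]) (by
    rw [degree_quadratic one_ne_zero]
    norm_num)
  simp only [IsRoot.def, eval_mul, eval_pow, eval_add, eval_C, eval_X] at hx₁
  set x₂ : F := s - x₁ with hx₂
  have hs : s = x₁ + x₂ := by rw [hx₂]; ring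
  have ht : t = x₁ * x₂ := by rw [hx₂]; linear_combination hx₁
  rw [hs, ht] at ha hb
  -- the two cycle equations
  have hdiff := A_I5a_mul E x₁ x₂
  have hsum := A_I5b_eq E x₁ x₂
  rw [ha, mul_zero] at hdiff
  rw [hb] at hsum
  have e1 : x₂ * A_M1 E x₁ = A_N1 E x₁ := by
    have : 2 * (A_N1 E x₁ - x₂ * A_M1 E x₁) = 0 := by linear_combination -hdiff - hsum
    have := (mul_eq_zero.mp this).resolve_left h2
    exact (sub_eq_zero.mp this).symm
  have e2 : x₁ * A_M1 E x₂ = A_N1 E x₂ := by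
    have : 2 * (A_N1 E x₂ - x₁ * A_M1 E x₂) = 0 := by linear_combination hdiff - hsum
    have := (mul_eq_zero.mp this).resolve_left h2
    exact (sub_eq_zero.mp this).symm
  -- the two roots are distinct
  have hne : x₁ ≠ x₂ := by
    intro h
    rw [← h] at e1
    have hM : A_M1 E x₁ = 0 := by
      have := ha
      rw [← h] at this
      simp only [A_I5a] at this
      simp only [A_M1]
      linear_combination -this
    apply A_M1_ne_zero_of_N1 E hΔ hM
    rw [← e1, hM, mul_zero]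
  obtain ⟨P, hP, hPx⟩ := A_exists_point E hΔ x₁
  refine ⟨P, hP, A_five_nsmul_of_cycle E hΔ hP (x₂ := x₂) ?_ ?_ ?_⟩
  · rwa [hPx]
  · rwa [hPx]
  · rwa [hPx]

end Exist

end Fermat.Agent.S51
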