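import Mathlib

set_option autoImplicit false

namespace Fermat.Agent.S51

/-- Fricke parametrisation of `X₀(5)`: if `(s, t)` are the elementary symmetric functions of the
`x`-coordinates of a `5`-cycle of the duplication map, then `τ` satisfies `c₄³ τ = Δ (τ² + 10 τ + 5)³`.
Core polynomial identity. -/
theorem B_five_key {K : Type*} [Field K] [CharZero K] (b2 b4 b6 b8 s t : K)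
    (hrel : 4 * b8 = b2 * b6 - b4 ^ 2)
    (h5a : s ^ 3 - 6 * s * t - b2 * t - b4 * s - b6 = 0)
    (h5b : s ^ 4 - 8 * s ^ 2 * t + 10 * t ^ 2 - b2 * s * t - b4 * s ^ 2 - 2 * b4 * t - 3 * b6 * s
      - 2 * b8 = 0) :
    (b2 ^ 2 - 24 * b4) ^ 3 * (2 * b4 + b2 * s - 7 * s ^ 2 + 40 * t) * (s ^ 2 - 4 * t) ^ 5 =
      (-b2 ^ 2 * b8 - 8 * b4 ^ 3 - 27 * b6 ^ 2 + 9 * b2 * b4 * b6) *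
        ((2 * b4 + b2 * s - 7 * s ^ 2 + 40 * t) ^ 2
          + 10 * (2 * b4 + b2 * s - 7 * s ^ 2 + 40 * t) * (s ^ 2 - 4 * t)
          + 5 * (s ^ 2 - 4 * t) ^ 2) ^ 3 := by
  linear_combination ((1/2) * b2 ^ 8 * s ^ 7 + 7 * b2 ^ 7 * b4 * s ^ 6 - 7 * b2 ^ 7 * s ^ 8 + 55 * b2 ^ 7 * s ^ 6 * t + 42 * b2 ^ 6 * b4 ^ 2 * s ^ 5 - 105 * b2 ^ 6 * b4 * s ^ 7 + 660 * b2 ^ 6 * b4 * s ^ 5 * t - 27 * b2 ^ 6 * b6 * s ^ 6 + 27 * b2 ^ 6 * s ^ 9 - 594 * b2 ^ 6 * s ^ 7 * t + 2560 * b2 ^ 6 * s ^ 5 * t ^ 2 - 1280 * b2 ^ 6 * s ^ 3 * t ^ 3 + 1024 * b2 ^ 6 * s * t ^ 4 + 140 * b2 ^ 5 * b4 ^ 3 * s ^ 4 - 672 * b2 ^ 5 * b4 ^ 2 * s ^ 6 + 3300 * b2 ^ 5 * b4 ^ 2 * s ^ 4 * t - 324 * b2 ^ 5 * b4 * b6 * s ^ 5 + 480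 * b2 ^ 5 * b4 * s ^ 8 - 7816 * b2 ^ 5 * b4 * s ^ 6 * t + 21760 * b2 ^ 5 * b4 * s ^ 4 * t ^ 2 - 3584 * b2 ^ 5 * b4 * s ^ 2 * t ^ 3 + 2048 * b2 ^ 5 * b4 * t ^ 4 + 324 * b2 ^ 5 * b6 * s ^ 7 - 3240 * b2 ^ 5 * b6 * s ^ 5 * t + 64 * b2 ^ 5 * s ^ 10 + 1072 * b2 ^ 5 * s ^ 8 * t - 18160 * b2 ^ 5 * s ^ 6 * t ^ 2 + 57104 * b2 ^ 5 * s ^ 4 * t ^ 3 - 62464 * b2 ^ 5 * s ^ 2 * t ^ 4 + 40960 * b2 ^ 5 * t ^ 5 + 280 * b2 ^ 4 * b4 ^ 4 * s ^ 3 - 2380 * b2 ^ 4 * b4 ^ 3 * s ^ 5 + 8800 * b2 ^ 4 * b4 ^ 3 * s ^ 3 * t - 1620 * b2 ^ 4 * b4 ^ 2 * b6 * s ^ 4 + 3388 * b2 ^ 4 * b4 ^ 2 * s ^ 7 - 45656 * b2 ^ 4 * b4 ^ 2 * s ^ 5 * t + 81664 * b2 ^ 4 * b4 ^ 2 * s ^ 3 * t ^ 2 - 3072 * b2 ^ 4 * b4 ^ 2 * s * t ^ 3 + 3240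 * b2 ^ 4 * b4 * b6 * s ^ 6 - 32400 * b2 ^ 4 * b4 * b6 * s ^ 4 * t + 408 * b2 ^ 4 * b4 * s ^ 9 + 23600 * b2 ^ 4 * b4 * s ^ 7 * t - 230928 * b2 ^ 4 * b4 * s ^ 5 * t ^ 2 + 299136 * b2 ^ 4 * b4 * s ^ 3 * t ^ 3 - 118784 * b2 ^ 4 * b4 * s * t ^ 4 + 19440 * b2 ^ 4 * b6 * s ^ 6 * t - 136080 * b2 ^ 4 * b6 * s ^ 4 * t ^ 2 - 904 * b2 ^ 4 * s ^ 11 + 12880 * b2 ^ 4 * s ^ 9 * t - 25296 * b2 ^ 4 * s ^ 7 * t ^ 2 - 139808 * b2 ^ 4 * s ^ 5 * t ^ 3 + 106112 * b2 ^ 4 * s ^ 3 * t ^ 4 - 184320 * b2 ^ 4 * s * t ^ 5 + 336 * b2 ^ 3 * b4 ^ 5 * s ^ 2 - 5040 * b2 ^ 3 * b4 ^ 4 * s ^ 4 + 13200 * b2 ^ 3 * b4 ^ 4 * s ^ 2 * t - 4320 * b2 ^ 3 * b4 ^ 3 * b6 * s ^ 3 + 11872 * b2 ^ 3 * b4 ^ 3 * s ^ 6 - 142144 * b2 ^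 3 * b4 ^ 3 * s ^ 4 * t + 160256 * b2 ^ 3 * b4 ^ 3 * s ^ 2 * t ^ 2 - 2048 * b2 ^ 3 * b4 ^ 3 * t ^ 3 + 12960 * b2 ^ 3 * b4 ^ 2 * b6 * s ^ 5 - 129600 * b2 ^ 3 * b4 ^ 2 * b6 * s ^ 3 * t + 1072 * b2 ^ 3 * b4 ^ 2 * s ^ 8 + 149312 * b2 ^ 3 * b4 ^ 2 * s ^ 6 * t - 1222656 * b2 ^ 3 * b4 ^ 2 * s ^ 4 * t ^ 2 + 767360 * b2 ^ 3 * b4 ^ 2 * s ^ 2 * t ^ 3 - 180224 * b2 ^ 3 * b4 ^ 2 * t ^ 4 + 155520 * b2 ^ 3 * b4 * b6 * s ^ 5 * t - 1088640 * b2 ^ 3 * b4 * b6 * s ^ 3 * t ^ 2 - 10848 * b2 ^ 3 * b4 * s ^ 10 + 116928 * b2 ^ 3 * b4 * s ^ 8 * t + 316032 * b2 ^ 3 * b4 * s ^ 6 * t ^ 2 - 4399872 * b2 ^ 3 * b4 * s ^ 4 * t ^ 3 + 3462912 * b2 ^ 3 * b4 * s ^ 2 * t ^ 4 - 2826240 * b2 ^ 3 * b4 * t ^ 5 - 8640 * b2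 ^ 3 * b6 * s ^ 9 + 103680 * b2 ^ 3 * b6 * s ^ 7 * t + 51840 * b2 ^ 3 * b6 * s ^ 5 * t ^ 2 - 2246400 * b2 ^ 3 * b6 * s ^ 3 * t ^ 3 + 2080 * b2 ^ 3 * s ^ 12 - 70272 * b2 ^ 3 * s ^ 10 * t + 604608 * b2 ^ 3 * s ^ 8 * t ^ 2 - 1205504 * b2 ^ 3 * s ^ 6 * t ^ 3 - 2131200 * b2 ^ 3 * s ^ 4 * t ^ 4 + 641280 * b2 ^ 3 * s ^ 2 * t ^ 5 - 819200 * b2 ^ 3 * t ^ 6 + 224 * b2 ^ 2 * b4 ^ 6 * s - 6384 * b2 ^ 2 * b4 ^ 5 * s ^ 3 + 10560 * b2 ^ 2 * b4 ^ 5 * s * t - 6480 * b2 ^ 2 * b4 ^ 4 * b6 * s ^ 2 + 22160 * b2 ^ 2 * b4 ^ 4 * s ^ 5 - 244960 * b2 ^ 2 * b4 ^ 4 * s ^ 3 * t + 158720 * b2 ^ 2 * b4 ^ 4 * s * t ^ 2 + 25920 * b2 ^ 2 * b4 ^ 3 * b6 * s ^ 4 - 259200 * b2 ^ 2 * b4 ^ 3 * b6 * s ^ 2 * t + 1280 * b2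 ^ 2 * b4 ^ 3 * s ^ 7 + 408960 * b2 ^ 2 * b4 ^ 3 * s ^ 5 * t - 3073920 * b2 ^ 2 * b4 ^ 3 * s ^ 3 * t ^ 2 + 832000 * b2 ^ 2 * b4 ^ 3 * s * t ^ 3 + 466560 * b2 ^ 2 * b4 ^ 2 * b6 * s ^ 4 * t - 3265920 * b2 ^ 2 * b4 ^ 2 * b6 * s ^ 2 * t ^ 2 - 51168 * b2 ^ 2 * b4 ^ 2 * s ^ 9 + 581376 * b2 ^ 2 * b4 ^ 2 * s ^ 7 * t + 786816 * b2 ^ 2 * b4 ^ 2 * s ^ 5 * t ^ 2 - 15606528 * b2 ^ 2 * b4 ^ 2 * s ^ 3 * t ^ 3 + 2711040 * b2 ^ 2 * b4 ^ 2 * s * t ^ 4 - 51840 * b2 ^ 2 * b4 * b6 * s ^ 8 + 622080 * b2 ^ 2 * b4 * b6 * s ^ 6 * t + 311040 * b2 ^ 2 * b4 * b6 * s ^ 4 * t ^ 2 - 13478400 * b2 ^ 2 * b4 * b6 * s ^ 2 * t ^ 3 + 23040 * b2 ^ 2 * b4 * s ^ 11 - 814464 * b2 ^ 2 * b4 * s ^ 9 * t + 7271424 * b2 ^ 2 *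 b4 * s ^ 7 * t ^ 2 - 16280064 * b2 ^ 2 * b4 * s ^ 5 * t ^ 3 - 18936576 * b2 ^ 2 * b4 * s ^ 3 * t ^ 4 + 6497280 * b2 ^ 2 * b4 * s * t ^ 5 - 311040 * b2 ^ 2 * b6 * s ^ 8 * t + 3732480 * b2 ^ 2 * b6 * s ^ 6 * t ^ 2 - 9331200 * b2 ^ 2 * b6 * s ^ 4 * t ^ 3 - 10886400 * b2 ^ 2 * b6 * s ^ 2 * t ^ 4 + 6912 * b2 ^ 2 * s ^ 13 - 38016 * b2 ^ 2 * s ^ 11 * t - 1247616 * b2 ^ 2 * s ^ 9 * t ^ 2 + 13575168 * b2 ^ 2 * s ^ 7 * t ^ 3 - 39847680 * b2 ^ 2 * s ^ 5 * t ^ 4 + 14031360 * b2 ^ 2 * s ^ 3 * t ^ 5 + 8294400 * b2 ^ 2 * s * t ^ 6 + 64 * b2 * b4 ^ 7 - 4480 * b2 * b4 ^ 6 * s ^ 2 + 3520 * b2 * b4 ^ 6 * t - 5184 * b2 * b4 ^ 5 * b6 * s + 21248 * b2 * b4 ^ 5 * s ^ 4 - 221824 * b2 * b4 ^ 5 * s ^ 2 * t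 + 63488 * b2 * b4 ^ 5 * t ^ 2 + 25920 * b2 * b4 ^ 4 * b6 * s ^ 3 - 259200 * b2 * b4 ^ 4 * b6 * s * t - 128 * b2 * b4 ^ 4 * s ^ 6 + 531456 * b2 * b4 ^ 4 * s ^ 4 * t - 3796224 * b2 * b4 ^ 4 * s ^ 2 * t ^ 2 + 434432 * b2 * b4 ^ 4 * t ^ 3 + 622080 * b2 * b4 ^ 3 * b6 * s ^ 3 * t - 4354560 * b2 * b4 ^ 3 * b6 * s * t ^ 2 - 91520 * b2 * b4 ^ 3 * s ^ 8 + 1031168 * b2 * b4 ^ 3 * s ^ 6 * t + 1480704 * b2 * b4 ^ 3 * s ^ 4 * t ^ 2 - 27821056 * b2 * b4 ^ 3 * s ^ 2 * t ^ 3 + 3970048 * b2 * b4 ^ 3 * t ^ 4 - 103680 * b2 * b4 ^ 2 * b6 * s ^ 7 + 1244160 * b2 * b4 ^ 2 * b6 * s ^ 5 * t + 622080 * b2 * b4 ^ 2 * b6 * s ^ 3 * t ^ 2 - 26956800 * b2 * b4 ^ 2 * b6 * s * t ^ 3 + 41472 * b2 * b4 ^ 2 * s ^ 10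 - 1852416 * b2 * b4 ^ 2 * s ^ 8 * t + 17058816 * b2 * b4 ^ 2 * s ^ 6 * t ^ 2 - 30744576 * b2 * b4 ^ 2 * s ^ 4 * t ^ 3 - 92012544 * b2 * b4 ^ 2 * s ^ 2 * t ^ 4 + 57369600 * b2 * b4 ^ 2 * t ^ 5 - 1244160 * b2 * b4 * b6 * s ^ 7 * t + 14929920 * b2 * b4 * b6 * s ^ 5 * t ^ 2 - 37324800 * b2 * b4 * b6 * s ^ 3 * t ^ 3 - 43545600 * b2 * b4 * b6 * s * t ^ 4 + 66816 * b2 * b4 * s ^ 12 - 801792 * b2 * b4 * s ^ 10 * t - 3497472 * b2 * b4 * s ^ 8 * t ^ 2 + 74059776 * b2 * b4 * s ^ 6 * t ^ 3 - 251596800 * b2 * b4 * s ^ 4 * t ^ 4 + 110868480 * b2 * b4 * s ^ 2 * t ^ 5 + 46080000 * b2 * b4 * t ^ 6 + 82944 * b2 * b6 * s ^ 11 - 1658880 * b2 * b6 * s ^ 9 * t + 9538560 * b2 * b6 * s ^ 7 * t ^ 2 - 8294400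 * b2 * b6 * s ^ 5 * t ^ 3 - 39398400 * b2 * b6 * s ^ 3 * t ^ 4 - 20736000 * b2 * b6 * s * t ^ 5 - 27648 * b2 * s ^ 14 + 912384 * b2 * s ^ 12 * t - 10533888 * b2 * s ^ 10 * t ^ 2 + 51701760 * b2 * s ^ 8 * t ^ 3 - 89303040 * b2 * s ^ 6 * t ^ 4 - 33177600 * b2 * s ^ 4 * t ^ 5 + 91238400 * b2 * s ^ 2 * t ^ 6 + 13824000 * b2 * t ^ 7 - 1344 * b4 ^ 7 * s - 1728 * b4 ^ 6 * b6 + 8256 * b4 ^ 6 * s ^ 3 - 82560 * b4 ^ 6 * s * t + 10368 * b4 ^ 5 * b6 * s ^ 2 - 103680 * b4 ^ 5 * b6 * t - 384 * b4 ^ 5 * s ^ 5 + 258816 * b4 ^ 5 * s ^ 3 * t - 1796352 * b4 ^ 5 * s * t ^ 2 + 311040 * b4 ^ 4 * b6 * s ^ 2 * t - 2177280 * b4 ^ 4 * b6 * t ^ 2 - 64128 * b4 ^ 4 * s ^ 7 + 758016 * b4 ^ 4 * s ^ 5 * t + 228096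 * b4 ^ 4 * s ^ 3 * t ^ 2 - 15364608 * b4 ^ 4 * s * t ^ 3 - 69120 * b4 ^ 3 * b6 * s ^ 6 + 829440 * b4 ^ 3 * b6 * s ^ 4 * t + 414720 * b4 ^ 3 * b6 * s ^ 2 * t ^ 2 - 17971200 * b4 ^ 3 * b6 * t ^ 3 + 68352 * b4 ^ 3 * s ^ 9 - 2328576 * b4 ^ 3 * s ^ 7 * t + 21242880 * b4 ^ 3 * s ^ 5 * t ^ 2 - 54933504 * b4 ^ 3 * s ^ 3 * t ^ 3 - 19725312 * b4 ^ 3 * s * t ^ 4 - 1244160 * b4 ^ 2 * b6 * s ^ 6 * t + 14929920 * b4 ^ 2 * b6 * s ^ 4 * t ^ 2 - 37324800 * b4 ^ 2 * b6 * s ^ 2 * t ^ 3 - 43545600 * b4 ^ 2 * b6 * t ^ 4 + 41472 * b4 ^ 2 * s ^ 11 - 82944 * b4 ^ 2 * s ^ 9 * t - 13685760 * b4 ^ 2 * s ^ 7 * t ^ 2 + 144820224 * b4 ^ 2 * s ^ 5 * t ^ 3 - 462578688 * b4 ^ 2 * s ^ 3 * t ^ 4 + 302745600 * b4 ^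 2 * s * t ^ 5 + 165888 * b4 * b6 * s ^ 10 - 3317760 * b4 * b6 * s ^ 8 * t + 19077120 * b4 * b6 * s ^ 6 * t ^ 2 - 16588800 * b4 * b6 * s ^ 4 * t ^ 3 - 78796800 * b4 * b6 * s ^ 2 * t ^ 4 - 41472000 * b4 * b6 * t ^ 5 - 27648 * b4 * s ^ 13 + 1741824 * b4 * s ^ 11 * t - 25629696 * b4 * s ^ 9 * t ^ 2 + 144211968 * b4 * s ^ 7 * t ^ 3 - 281180160 * b4 * s ^ 5 * t ^ 4 - 54743040 * b4 * s ^ 3 * t ^ 5 + 262656000 * b4 * s * t ^ 6 + 110592 * b6 * s ^ 12 - 1658880 * b6 * s ^ 10 * t + 6635520 * b6 * s ^ 8 * t ^ 2 + 2764800 * b6 * s ^ 6 * t ^ 3 - 33177600 * b6 * s ^ 4 * t ^ 4 - 41472000 * b6 * s ^ 2 * t ^ 5 - 13824000 * b6 * t ^ 6 - 55296 * s ^ 15 + 1327104 * s ^ 13 * t - 11778048 * s ^ 11 * t ^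 2 + 44236800 * s ^ 9 * t ^ 3 - 43960320 * s ^ 7 * t ^ 4 - 91238400 * s ^ 5 * t ^ 5 + 85708800 * s ^ 3 * t ^ 6 + 82944000 * s * t ^ 7) * h5a
    + (-(1/2) * b2 ^ 8 * s ^ 6 - 6 * b2 ^ 7 * b4 * s ^ 5 + 8 * b2 ^ 7 * s ^ 7 - 60 * b2 ^ 7 * s ^ 5 * t - 30 * b2 ^ 6 * b4 ^ 2 * s ^ 4 + 100 * b2 ^ 6 * b4 * s ^ 6 - 600 * b2 ^ 6 * b4 * s ^ 4 * t - 34 * b2 ^ 6 * s ^ 8 + 664 * b2 ^ 6 * s ^ 6 * t - 2520 * b2 ^ 6 * s ^ 4 * t ^ 2 - 80 * b2 ^ 5 * b4 ^ 3 * s ^ 3 + 552 * b2 ^ 5 * b4 ^ 2 * s ^ 5 - 2400 * b2 ^ 5 * b4 ^ 2 * s ^ 3 * t - 552 * b2 ^ 5 * b4 * s ^ 7 + 7968 * b2 ^ 5 * b4 * s ^ 5 * t - 20160 * b2 ^ 5 * b4 * s ^ 3 * t ^ 2 - 64 * b2 ^ 5 * s ^ 9 - 1200 * b2 ^ 5 * s ^ 7 * t + 17440 * b2 ^ 5 * s ^ 5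 * t ^ 2 - 39040 * b2 ^ 5 * s ^ 3 * t ^ 3 - 2048 * b2 ^ 5 * s * t ^ 4 - 120 * b2 ^ 4 * b4 ^ 4 * s ^ 2 + 1760 * b2 ^ 4 * b4 ^ 3 * s ^ 4 - 4800 * b2 ^ 4 * b4 ^ 3 * s ^ 2 * t - 3480 * b2 ^ 4 * b4 ^ 2 * s ^ 6 + 41280 * b2 ^ 4 * b4 ^ 2 * s ^ 4 * t - 60480 * b2 ^ 4 * b4 ^ 2 * s ^ 2 * t ^ 2 + 96 * b2 ^ 4 * b4 * s ^ 8 - 29728 * b2 ^ 4 * b4 * s ^ 6 * t + 238720 * b2 ^ 4 * b4 * s ^ 4 * t ^ 2 - 242432 * b2 ^ 4 * b4 * s ^ 2 * t ^ 3 - 4096 * b2 ^ 4 * b4 * t ^ 4 + 904 * b2 ^ 4 * s ^ 10 - 11072 * b2 ^ 4 * s ^ 8 * t + 800 * b2 ^ 4 * s ^ 6 * t ^ 2 + 219392 * b2 ^ 4 * s ^ 4 * t ^ 3 - 64384 * b2 ^ 4 * s ^ 2 * t ^ 4 - 81920 * b2 ^ 4 * t ^ 5 - 96 * b2 ^ 3 * b4 ^ 5 * s + 3520 * b2 ^ 3 * b4 ^ 4 * s ^ 3 -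 4800 * b2 ^ 3 * b4 ^ 4 * s * t - 11200 * b2 ^ 3 * b4 ^ 3 * s ^ 5 + 117760 * b2 ^ 3 * b4 ^ 3 * s ^ 3 * t - 80640 * b2 ^ 3 * b4 ^ 3 * s * t ^ 2 + 2464 * b2 ^ 3 * b4 ^ 2 * s ^ 7 - 178688 * b2 ^ 3 * b4 ^ 2 * s ^ 5 * t + 1196032 * b2 ^ 3 * b4 ^ 2 * s ^ 3 * t ^ 2 - 493056 * b2 ^ 3 * b4 ^ 2 * s * t ^ 3 + 10848 * b2 ^ 3 * b4 * s ^ 9 - 103552 * b2 ^ 3 * b4 * s ^ 7 * t - 378624 * b2 ^ 3 * b4 * s ^ 5 * t ^ 2 + 3840000 * b2 ^ 3 * b4 * s ^ 3 * t ^ 3 - 544256 * b2 ^ 3 * b4 * s * t ^ 4 - 2080 * b2 ^ 3 * s ^ 11 + 66112 * b2 ^ 3 * s ^ 9 * t - 490368 * b2 ^ 3 * s ^ 7 * t ^ 2 + 338944 * b2 ^ 3 * s ^ 5 * t ^ 3 + 3937280 * b2 ^ 3 * s ^ 3 * t ^ 4 + 476160 * b2 ^ 3 * s * t ^ 5 - 32 * b2 ^ 2 * b4 ^ 6 + 4416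 * b2 ^ 2 * b4 ^ 5 * s ^ 2 - 1920 * b2 ^ 2 * b4 ^ 5 * t - 19680 * b2 ^ 2 * b4 ^ 4 * s ^ 4 + 193920 * b2 ^ 2 * b4 ^ 4 * s ^ 2 * t - 40320 * b2 ^ 2 * b4 ^ 4 * t ^ 2 + 7616 * b2 ^ 2 * b4 ^ 3 * s ^ 6 - 458752 * b2 ^ 2 * b4 ^ 3 * s ^ 4 * t + 2866688 * b2 ^ 2 * b4 ^ 3 * s ^ 2 * t ^ 2 - 328704 * b2 ^ 2 * b4 ^ 3 * t ^ 3 + 43552 * b2 ^ 2 * b4 ^ 2 * s ^ 8 - 390016 * b2 ^ 2 * b4 ^ 2 * s ^ 6 * t - 1862400 * b2 ^ 2 * b4 ^ 2 * s ^ 4 * t ^ 2 + 16249856 * b2 ^ 2 * b4 ^ 2 * s ^ 2 * t ^ 3 - 445952 * b2 ^ 2 * b4 ^ 2 * t ^ 4 - 23040 * b2 ^ 2 * b4 * s ^ 10 + 740736 * b2 ^ 2 * b4 * s ^ 8 * t - 5886720 * b2 ^ 2 * b4 * s ^ 6 * t ^ 2 + 8607744 * b2 ^ 2 * b4 * s ^ 4 * t ^ 3 + 29094912 * b2 ^ 2 * b4 * s ^ 2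 * t ^ 4 + 4884480 * b2 ^ 2 * b4 * t ^ 5 - 6912 * b2 ^ 2 * s ^ 12 + 24192 * b2 ^ 2 * s ^ 10 * t + 1337472 * b2 ^ 2 * s ^ 8 * t ^ 2 - 12151296 * b2 ^ 2 * s ^ 6 * t ^ 3 + 25643520 * b2 ^ 2 * s ^ 4 * t ^ 4 + 16865280 * b2 ^ 2 * s ^ 2 * t ^ 5 + 1382400 * b2 ^ 2 * t ^ 6 + 3200 * b2 * b4 ^ 6 * s - 18048 * b2 * b4 ^ 5 * s ^ 3 + 173568 * b2 * b4 ^ 5 * s * t + 8960 * b2 * b4 ^ 4 * s ^ 5 - 544000 * b2 * b4 ^ 4 * s ^ 3 * t + 3345920 * b2 * b4 ^ 4 * s * t ^ 2 + 72704 * b2 * b4 ^ 3 * s ^ 7 - 657408 * b2 * b4 ^ 3 * s ^ 5 * t - 3068928 * b2 * b4 ^ 3 * s ^ 3 * t ^ 2 + 26988544 * b2 * b4 ^ 3 * s * t ^ 3 - 55296 * b2 * b4 ^ 2 * s ^ 9 + 1903104 * b2 * b4 ^ 2 * s ^ 7 * t - 15593472 * b2 * b4 ^ 2 * s ^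 5 * t ^ 2 + 23500800 * b2 * b4 ^ 2 * s ^ 3 * t ^ 3 + 80197632 * b2 * b4 ^ 2 * s * t ^ 4 - 66816 * b2 * b4 * s ^ 11 + 778752 * b2 * b4 * s ^ 9 * t + 2598912 * b2 * b4 * s ^ 7 * t ^ 2 - 55443456 * b2 * b4 * s ^ 5 * t ^ 3 + 147732480 * b2 * b4 * s ^ 3 * t ^ 4 + 58613760 * b2 * b4 * s * t ^ 5 + 27648 * b2 * s ^ 13 - 857088 * b2 * s ^ 11 * t + 8985600 * b2 * s ^ 9 * t ^ 2 - 36771840 * b2 * s ^ 7 * t ^ 3 + 32624640 * b2 * s ^ 5 * t ^ 4 + 80179200 * b2 * s ^ 3 * t ^ 5 + 16588800 * b2 * s * t ^ 6 + 1024 * b4 ^ 7 - 6784 * b4 ^ 6 * s ^ 2 + 65536 * b4 ^ 6 * t + 3584 * b4 ^ 5 * s ^ 4 - 245248 * b4 ^ 5 * s ^ 2 * t + 1531904 * b4 ^ 5 * t ^ 2 + 44416 * b4 ^ 4 * s ^ 6 - 425472 * b4 ^ 4 * s ^ 4 *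 t - 1562112 * b4 ^ 4 * s ^ 2 * t ^ 2 + 15466496 * b4 ^ 4 * t ^ 3 - 45824 * b4 ^ 3 * s ^ 8 + 1605632 * b4 ^ 3 * s ^ 6 * t - 13578240 * b4 ^ 3 * s ^ 4 * t ^ 2 + 23932928 * b4 ^ 3 * s ^ 2 * t ^ 3 + 57032704 * b4 ^ 3 * t ^ 4 - 69120 * b4 ^ 2 * s ^ 10 + 718848 * b4 ^ 2 * s ^ 8 * t + 5667840 * b4 ^ 2 * s ^ 6 * t ^ 2 - 85045248 * b4 ^ 2 * s ^ 4 * t ^ 3 + 240592896 * b4 ^ 2 * s ^ 2 * t ^ 4 + 27648 * b4 * s ^ 12 - 1465344 * b4 * s ^ 10 * t + 19325952 * b4 * s ^ 8 * t ^ 2 - 92676096 * b4 * s ^ 6 * t ^ 3 + 111697920 * b4 * s ^ 4 * t ^ 4 + 175841280 * b4 * s ^ 2 * t ^ 5 + 55296 * s ^ 14 - 1216512 * s ^ 12 * t + 9455616 * s ^ 10 * t ^ 2 - 27095040 * s ^ 8 * t ^ 3 - 1935360 * s ^ 6 * t ^ 4 + 82944000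 * s ^ 4 * t ^ 5 + 49766400 * s ^ 2 * t ^ 6) * h5b
    + (b2 ^ 7 * s ^ 7 + 20 * b2 ^ 6 * b4 * s ^ 6 - 17 * b2 ^ 6 * s ^ 8 + 152 * b2 ^ 6 * s ^ 6 * t + 156 * b2 ^ 5 * b4 ^ 2 * s ^ 5 - 276 * b2 ^ 5 * b4 * s ^ 7 + 2544 * b2 ^ 5 * b4 * s ^ 5 * t + 48 * b2 ^ 5 * s ^ 9 - 1560 * b2 ^ 5 * s ^ 7 * t + 8240 * b2 ^ 5 * s ^ 5 * t ^ 2 + 1280 * b2 ^ 5 * s ^ 3 * t ^ 3 - 1024 * b2 ^ 5 * s * t ^ 4 + 640 * b2 ^ 4 * b4 ^ 3 * s ^ 4 - 1740 * b2 ^ 4 * b4 ^ 2 * s ^ 6 + 16320 * b2 ^ 4 * b4 ^ 2 * s ^ 4 * t + 528 * b2 ^ 4 * b4 * s ^ 8 - 20624 * b2 ^ 4 * b4 * s ^ 6 * t + 116480 * b2 ^ 4 * b4 * s ^ 4 * t ^ 2 + 3584 * b2 ^ 4 * b4 * s ^ 2 * t ^ 3 - 2048 * b2 ^ 4 * b4 * t ^ 4 + 452 * b2 ^ 4 * s ^ 10 - 2656 * b2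 ^ 4 * s ^ 8 * t - 34160 * b2 ^ 4 * s ^ 6 * t ^ 2 + 196096 * b2 ^ 4 * s ^ 4 * t ^ 3 + 68608 * b2 ^ 4 * s ^ 2 * t ^ 4 - 40960 * b2 ^ 4 * t ^ 5 + 1520 * b2 ^ 3 * b4 ^ 4 * s ^ 3 - 5600 * b2 ^ 3 * b4 ^ 3 * s ^ 5 + 53120 * b2 ^ 3 * b4 ^ 3 * s ^ 3 * t + 2192 * b2 ^ 3 * b4 ^ 2 * s ^ 7 - 100864 * b2 ^ 3 * b4 ^ 2 * s ^ 5 * t + 592256 * b2 ^ 3 * b4 ^ 2 * s ^ 3 * t ^ 2 + 3072 * b2 ^ 3 * b4 ^ 2 * s * t ^ 3 + 5424 * b2 ^ 3 * b4 * s ^ 9 - 40256 * b2 ^ 3 * b4 * s ^ 7 * t - 327552 * b2 ^ 3 * b4 * s ^ 5 * t ^ 2 + 2265600 * b2 ^ 3 * b4 * s ^ 3 * t ^ 3 + 131072 * b2 ^ 3 * b4 * s * t ^ 4 - 1808 * b2 ^ 3 * s ^ 11 + 48416 * b2 ^ 3 * s ^ 9 * t - 333504 * b2 ^ 3 * s ^ 7 * t ^ 2 + 246272 * b2 ^ 3 * s ^ 5 *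 t ^ 3 + 2333440 * b2 ^ 3 * s ^ 3 * t ^ 4 + 430080 * b2 ^ 3 * s * t ^ 5 + 2112 * b2 ^ 2 * b4 ^ 5 * s ^ 2 - 9840 * b2 ^ 2 * b4 ^ 4 * s ^ 4 + 94080 * b2 ^ 2 * b4 ^ 4 * s ^ 2 * t + 4448 * b2 ^ 2 * b4 ^ 3 * s ^ 6 - 237056 * b2 ^ 2 * b4 ^ 3 * s ^ 4 * t + 1429504 * b2 ^ 2 * b4 ^ 3 * s ^ 2 * t ^ 2 + 2048 * b2 ^ 2 * b4 ^ 3 * t ^ 3 + 21776 * b2 ^ 2 * b4 ^ 2 * s ^ 8 - 183488 * b2 ^ 2 * b4 ^ 2 * s ^ 6 * t - 1069440 * b2 ^ 2 * b4 ^ 2 * s ^ 4 * t ^ 2 + 8470528 * b2 ^ 2 * b4 ^ 2 * s ^ 2 * t ^ 3 + 180224 * b2 ^ 2 * b4 ^ 2 * t ^ 4 - 13056 * b2 ^ 2 * b4 * s ^ 10 + 401088 * b2 ^ 2 * b4 * s ^ 8 * t - 3120000 * b2 ^ 2 * b4 * s ^ 6 * t ^ 2 + 4457472 * b2 ^ 2 * b4 * s ^ 4 * t ^ 3 + 15277056 * b2 ^ 2 * b4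 * s ^ 2 * t ^ 4 + 2826240 * b2 ^ 2 * b4 * t ^ 5 - 4480 * b2 ^ 2 * s ^ 12 + 27456 * b2 ^ 2 * s ^ 10 * t + 607296 * b2 ^ 2 * s ^ 8 * t ^ 2 - 6101248 * b2 ^ 2 * s ^ 6 * t ^ 3 + 13128960 * b2 ^ 2 * s ^ 4 * t ^ 4 + 8816640 * b2 ^ 2 * s ^ 2 * t ^ 5 + 819200 * b2 ^ 2 * t ^ 6 + 1600 * b2 * b4 ^ 6 * s - 9024 * b2 * b4 ^ 5 * s ^ 3 + 86784 * b2 * b4 ^ 5 * s * t + 4480 * b2 * b4 ^ 4 * s ^ 5 - 272000 * b2 * b4 ^ 4 * s ^ 3 * t + 1672960 * b2 * b4 ^ 4 * s * t ^ 2 + 36352 * b2 * b4 ^ 3 * s ^ 7 - 328704 * b2 * b4 ^ 3 * s ^ 5 * t - 1534464 * b2 * b4 ^ 3 * s ^ 3 * t ^ 2 + 13494272 * b2 * b4 ^ 3 * s * t ^ 3 - 27648 * b2 * b4 ^ 2 * s ^ 9 + 951552 * b2 * b4 ^ 2 * s ^ 7 * t - 7796736 * b2 * b4 ^ 2 * s ^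 5 * t ^ 2 + 11750400 * b2 * b4 ^ 2 * s ^ 3 * t ^ 3 + 40098816 * b2 * b4 ^ 2 * s * t ^ 4 - 33408 * b2 * b4 * s ^ 11 + 389376 * b2 * b4 * s ^ 9 * t + 1299456 * b2 * b4 * s ^ 7 * t ^ 2 - 27721728 * b2 * b4 * s ^ 5 * t ^ 3 + 73866240 * b2 * b4 * s ^ 3 * t ^ 4 + 29306880 * b2 * b4 * s * t ^ 5 + 13824 * b2 * s ^ 13 - 428544 * b2 * s ^ 11 * t + 4492800 * b2 * s ^ 9 * t ^ 2 - 18385920 * b2 * s ^ 7 * t ^ 3 + 16312320 * b2 * s ^ 5 * t ^ 4 + 40089600 * b2 * s ^ 3 * t ^ 5 + 8294400 * b2 * s * t ^ 6 + 512 * b4 ^ 7 - 3392 * b4 ^ 6 * s ^ 2 + 32768 * b4 ^ 6 * t + 1792 * b4 ^ 5 * s ^ 4 - 122624 * b4 ^ 5 * s ^ 2 * t + 765952 * b4 ^ 5 * t ^ 2 + 22208 * b4 ^ 4 * s ^ 6 - 212736 * b4 ^ 4 * s ^ 4 * t -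 781056 * b4 ^ 4 * s ^ 2 * t ^ 2 + 7733248 * b4 ^ 4 * t ^ 3 - 22912 * b4 ^ 3 * s ^ 8 + 802816 * b4 ^ 3 * s ^ 6 * t - 6789120 * b4 ^ 3 * s ^ 4 * t ^ 2 + 11966464 * b4 ^ 3 * s ^ 2 * t ^ 3 + 28516352 * b4 ^ 3 * t ^ 4 - 34560 * b4 ^ 2 * s ^ 10 + 359424 * b4 ^ 2 * s ^ 8 * t + 2833920 * b4 ^ 2 * s ^ 6 * t ^ 2 - 42522624 * b4 ^ 2 * s ^ 4 * t ^ 3 + 120296448 * b4 ^ 2 * s ^ 2 * t ^ 4 + 13824 * b4 * s ^ 12 - 732672 * b4 * s ^ 10 * t + 9662976 * b4 * s ^ 8 * t ^ 2 - 46338048 * b4 * s ^ 6 * t ^ 3 + 55848960 * b4 * s ^ 4 * t ^ 4 + 87920640 * b4 * s ^ 2 * t ^ 5 + 27648 * s ^ 14 - 608256 * s ^ 12 * t + 4727808 * s ^ 10 * t ^ 2 - 13547520 * s ^ 8 * t ^ 3 - 967680 * s ^ 6 * t ^ 4 + 41472000 * s ^ 4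 * t ^ 5 + 24883200 * s ^ 2 * t ^ 6) * hrel

end Fermat.Agent.S51
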