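import Mathlib
import Fermat.Agent.S51.BFiveKey

set_option autoImplicit false

namespace Fermat.Agent.S51

/-- `X₀(5)` side of part B (Fricke): if `s, t` satisfy the two `5`-cycle equations and `s² ≠ 4t`,
then `τ = (2 b₄ + b₂ s + 4 s² - 4 t) / (s² - 4 t) - 11` satisfies `c₄³ τ = Δ (τ² + 10 τ + 5)³`
and `τ ≠ 0`. -/
theorem B_five_j {K : Type*} [Field K] [CharZero K] (b2 b4 b6 b8 s t : K)
    (hrel : 4 * b8 = b2 * b6 - b4 ^ 2)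
    (h5a : s ^ 3 - 6 * s * t - b2 * t - b4 * s - b6 = 0)
    (h5b : s ^ 4 - 8 * s ^ 2 * t + 10 * t ^ 2 - b2 * s * t - b4 * s ^ 2 - 2 * b4 * t - 3 * b6 * s
      - 2 * b8 = 0)
    (hst : s ^ 2 ≠ 4 * t)
    (hΔ : -b2 ^ 2 * b8 - 8 * b4 ^ 3 - 27 * b6 ^ 2 + 9 * b2 * b4 * b6 ≠ 0) :
    (b2 ^ 2 - 24 * b4) ^ 3 * ((2 * b4 + b2 * s + 4 * s ^ 2 - 4 * t) / (s ^ 2 - 4 * t) - 11) =
        (-b2 ^ 2 * b8 - 8 * b4 ^ 3 - 27 * b6 ^ 2 + 9 * b2 * b4 * b6) *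
          (((2 * b4 + b2 * s + 4 * s ^ 2 - 4 * t) / (s ^ 2 - 4 * t) - 11) ^ 2
            + 10 * ((2 * b4 + b2 * s + 4 * s ^ 2 - 4 * t) / (s ^ 2 - 4 * t) - 11) + 5) ^ 3 ∧
      (2 * b4 + b2 * s + 4 * s ^ 2 - 4 * t) / (s ^ 2 - 4 * t) - 11 ≠ 0 := by
  have key := B_five_key b2 b4 b6 b8 s t hrel h5a h5b
  have htd : s ^ 2 - 4 * t ≠ 0 := sub_ne_zero.mpr hst
  set D := -b2 ^ 2 * b8 - 8 * b4 ^ 3 - 27 * b6 ^ 2 + 9 * b2 * b4 * b6 with hD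
  have hτ : (2 * b4 + b2 * s + 4 * s ^ 2 - 4 * t) / (s ^ 2 - 4 * t) - 11 =
      (2 * b4 + b2 * s - 7 * s ^ 2 + 40 * t) / (s ^ 2 - 4 * t) := by
    field_simp; ring
  rw [hτ]
  set tn := 2 * b4 + b2 * s - 7 * s ^ 2 + 40 * t with htn
  set td := s ^ 2 - 4 * t with htd'
  have main : (b2 ^ 2 - 24 * b4) ^ 3 * (tn / td) =
      D * ((tn / td) ^ 2 + 10 * (tn / td) + 5) ^ 3 := by
    field_simp
    linear_combination key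
  refine ⟨main, ?_⟩
  intro h0
  rw [h0] at main
  have h125 : D * 125 = 0 := by linear_combination -main
  rcases mul_eq_zero.mp h125 with h | h
  · exact hΔ h
  · norm_num at h

end Fermat.Agent.S51
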