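import Mathlib

set_option autoImplicit false

namespace Fermat.Agent.S51

/-- Core identity on the `X₀(3)` side: after translating a root `r` of `ψ₃` to the origin,
`Δ * b₂'² = b₄'³ * (b₂'² - 27 b₄')`. -/
theorem B_three_key {K : Type*} [Field K] [CharZero K] (b2 b4 b6 b8 r : K)
    (hrel : 4 * b8 = b2 * b6 - b4 ^ 2)
    (h3 : 3 * r ^ 4 + b2 * r ^ 3 + 3 * b4 * r ^ 2 + 3 * b6 * r + b8 = 0) :
    (-b2 ^ 2 * b8 - 8 * b4 ^ 3 - 27 * b6 ^ 2 + 9 * b2 * b4 * b6) * (b2 + 12 * r) ^ 2 =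
      (b4 + r * b2 + 6 * r ^ 2) ^ 3 * ((b2 + 12 * r) ^ 2 - 27 * (b4 + r * b2 + 6 * r ^ 2)) := by
  linear_combination (-b2 ^ 4 - 12 * b2 ^ 3 * r + 36 * b2 ^ 2 * b4 + 432 * b2 * b4 * r
      - 108 * b2 * b6 + 432 * b2 * r ^ 3 - 108 * b4 ^ 2 + 1296 * b4 * r ^ 2 - 1296 * b6 * r
      + 1296 * r ^ 4) * h3
    + (-3 * b2 ^ 3 * r - 9 * b2 ^ 2 * b4 - 36 * b2 ^ 2 * r ^ 2 - 108 * b2 * b4 * r + 27 * b2 * b6
      - 108 * b2 * r ^ 3 + 27 * b4 ^ 2 - 324 * b4 * r ^ 2 + 324 * b6 * r - 324 * r ^ 4) * hrel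

/-- `X₀(3)` side of part B: a root `r` of the `3`-division polynomial `ψ₃` yields
`u = (b₂ + 12 r)² / (b₄ + r b₂ + 6 r²)` with `c₄³ (u - 27) = Δ u (u - 24)³` and `u ≠ 27`.
(When the denominator vanishes, `u = 0` by the division-by-zero convention, and the identity still
holds since then `c₄ = 0`.) -/
theorem B_three_j {K : Type*} [Field K] [CharZero K] (b2 b4 b6 b8 r : K)
    (hrel : 4 * b8 = b2 * b6 - b4 ^ 2)
    (h3 : 3 * r ^ 4 + b2 * r ^ 3 + 3 * b4 * r ^ 2 + 3 * b6 * r + b8 = 0)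
    (hΔ : -b2 ^ 2 * b8 - 8 * b4 ^ 3 - 27 * b6 ^ 2 + 9 * b2 * b4 * b6 ≠ 0) :
    (b2 ^ 2 - 24 * b4) ^ 3 * ((b2 + 12 * r) ^ 2 / (b4 + r * b2 + 6 * r ^ 2) - 27) =
        (-b2 ^ 2 * b8 - 8 * b4 ^ 3 - 27 * b6 ^ 2 + 9 * b2 * b4 * b6) *
          ((b2 + 12 * r) ^ 2 / (b4 + r * b2 + 6 * r ^ 2)) *
          ((b2 + 12 * r) ^ 2 / (b4 + r * b2 + 6 * r ^ 2) - 24) ^ 3 ∧
      (b2 + 12 * r) ^ 2 / (b4 + r * b2 + 6 * r ^ 2) ≠ 27 := by
  have key := B_three_key b2 b4 b6 b8 r hrel h3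
  have hc4 : b2 ^ 2 - 24 * b4 = (b2 + 12 * r) ^ 2 - 24 * (b4 + r * b2 + 6 * r ^ 2) := by ring
  set D := -b2 ^ 2 * b8 - 8 * b4 ^ 3 - 27 * b6 ^ 2 + 9 * b2 * b4 * b6 with hD
  set B2 := b2 + 12 * r with hB2
  set B4 := b4 + r * b2 + 6 * r ^ 2 with hB4
  have main : (b2 ^ 2 - 24 * b4) ^ 3 * (B2 ^ 2 / B4 - 27) =
      D * (B2 ^ 2 / B4) * (B2 ^ 2 / B4 - 24) ^ 3 := by
    rw [hc4]
    by_cases h4 : B4 = 0
    · have h2 : B2 = 0 := by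
        have : D * B2 ^ 2 = 0 := by rw [key, h4]; ring
        rcases mul_eq_zero.mp this with h | h
        · exact absurd h hΔ
        · exact pow_eq_zero_iff (two_ne_zero) |>.mp h
      rw [h4, h2]; simp
    · field_simp
      linear_combination (-(B2 ^ 2 - 24 * B4) ^ 3) * key
  refine ⟨main, ?_⟩
  intro h27
  rw [h27] at main
  have : D * 27 * (27 - 24) ^ 3 = 0 := by rw [← main]; ring
  have h729 : D * 729 = 0 := by linear_combination this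
  rcases mul_eq_zero.mp h729 with h | h
  · exact hΔ h
  · norm_num at h

end Fermat.Agent.S51
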